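import Fermat.Agent.X0Analytic.Places
import Fermat.Agent.FunctionFieldRR.Basic

/-!
# Evaluating elements of the function field which are given by modular functions
-/

set_option autoImplicit false

noncomputable section

open AlgebraicCurve
open scoped MatrixGroups UpperHalfPlane

namespace Fermat.Agent.Mazur.Moduli

open X0Analytic
open Gamma0Count (CosetSpace)

universe u

variable {L : Type u} [Field L] [Algebra ℚ L] {N : ℕ} [NeZero N] (φ : L →+* ℂ)

theorem fieldHom_eq_of_ser {K : Type*} [Field K] (ψ : ↥(modFun N) →+* K)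
    (hψ : Function.Injective ψ) {y : ↥(FLevel L N)} {f : ↥(modFun N)}
    (hy : ser N f = ModularCurve.coeffMap φ y) : fieldHom φ ψ hψ y = ψ f := by
  obtain ⟨a, b, hb, hab⟩ := exists_div L N y
  have h1 : toModFun φ a = f * toModFun φ b := ser_injective (by
    rw [map_mul, ser_toModFun, ser_toModFun, hy, ← map_mul]
    exact congrArg _ (congrArg (fun z : ↥(FLevel L N) => (z : LaurentSeries L)) hab).symm)
  have h2 := congrArg (fieldHom φ ψ hψ) hab
  rw [map_mul, fieldHom_algToField, fieldHom_algToField, h1, map_mul] at h2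
  exact mul_right_cancel₀ ((map_ne_zero_iff ψ hψ).mpr
    ((map_ne_zero_iff _ (toModFun_injective φ)).mpr hb)) h2

theorem embPoint_of_ser {y : ↥(FLevel L N)} {f : ↥(modFun N)}
    (hy : ser N f = ModularCurve.coeffMap φ y) (τ : ℍ) (s : CosetSpace N) :
    embPoint φ τ s y = psL (tayHom τ (perToHol N (X0Analytic.conj s f))) :=
  fieldHom_eq_of_ser φ _ _ hy

theorem embCusp_of_ser {y : ↥(FLevel L N)} {f : ↥(modFun N)}
    (hy : ser N f = ModularCurve.coeffMap φ y) (s : CosetSpace N) :
    embCusp φ s y = qSer N (X0Analytic.conj s f) :=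
  fieldHom_eq_of_ser φ _ _ hy

theorem coeff_zero_embPoint {y : ↥(FLevel L N)} {f : ↥(modFun N)}
    (hy : ser N f = ModularCurve.coeffMap φ y) (τ : ℍ) (g : SL(2, ℤ)) :
    (embPoint φ τ (g : CosetSpace N) y).coeff 0 = (f : ℍ → ℂ) (g⁻¹ • τ) := by
  rw [embPoint_of_ser φ hy, ← Nat.cast_zero (R := ℤ), HahnSeries.ofPowerSeries_apply_coeff,
    PowerSeries.coeff_zero_eq_constantCoeff, constantCoeff_tayHom]
  rfl

theorem coeff_eq_zero_of_neg_embPoint {y : ↥(FLevel L N)} {f : ↥(modFun N)}
    (hy : ser N f = ModularCurve.coeffMap φ y) (τ : ℍ) (s : CosetSpace N) {n : ℤ} (hn : n < 0) :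
    (embPoint φ τ s y).coeff n = 0 := by
  rw [embPoint_of_ser φ hy]
  exact ModularCurve.ofPowerSeries_coeff_of_neg _ hn

section Fibres

variable {φ} [IsAlgClosed L] {τ : ℍ} {x : ↥(FLevel L N)}
  {pl : CosetSpace N → Place L ↥(FLevel L N)}

omit [IsAlgClosed L] in
theorem ord_eq_order (hpl : FibreData (embPoint φ τ) x 1 (cosetPerm 1) pl) (s : CosetSpace N)
    (z : ↥(FLevel L N)) : (pl s).ord z = (embPoint φ τ s z).order := by
  have h := hpl.2.2.1 s z
  rw [Function.minimalPeriod_eq_one_iff_isFixedPt.mpr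
    (show cosetPerm (1 : SL(2, ℤ)) s = s from one_smul SL(2, ℤ) s)] at h
  simpa using h.symm

omit [IsAlgClosed L] in
/-- A vanishing value gives a zero. -/
theorem ord_sub_pos (hpl : FibreData (embPoint φ τ) x 1 (cosetPerm 1) pl) (g : SL(2, ℤ))
    {y : ↥(FLevel L N)} {f : ↥(modFun N)} (hy : ser N f = ModularCurve.coeffMap φ y) {c : L}
    (hval : (f : ℍ → ℂ) (g⁻¹ • τ) = φ c) (hne : y ≠ algebraMap L _ c) :
    0 < (pl (g : CosetSpace N)).ord (y - algebraMap L _ c) := by
  rw [ord_eq_order hpl]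
  set z := embPoint φ τ (g : CosetSpace N) (y - algebraMap L _ c) with hz
  have hz0 : z ≠ 0 := (map_ne_zero _).mpr (sub_ne_zero.mpr hne)
  have hcoeff : ∀ n : ℤ, n ≤ 0 → z.coeff n = 0 := by
    intro n hn
    rw [hz, map_sub, embPoint_algebraMap, HahnSeries.coeff_sub]
    rcases eq_or_lt_of_le hn with rfl | hlt
    · rw [coeff_zero_embPoint φ hy, HahnSeries.coeff_single_same, hval, sub_self]
    · rw [coeff_eq_zero_of_neg_embPoint φ hy _ _ hlt, HahnSeries.coeff_single_of_ne hlt.ne,
        sub_self]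
  by_contra hle
  exact hz0 (HahnSeries.coeff_order_eq_zero.mp (hcoeff _ (not_lt.mp hle)))

omit [IsAlgClosed L] in
/-- At a zero the value vanishes. -/
theorem eval_eq_of_ord_pos (hpl : FibreData (embPoint φ τ) x 1 (cosetPerm 1) pl) (g : SL(2, ℤ))
    {y : ↥(FLevel L N)} {f : ↥(modFun N)} (hy : ser N f = ModularCurve.coeffMap φ y) {c : L}
    (h : 0 < (pl (g : CosetSpace N)).ord (y - algebraMap L _ c)) :
    (f : ℍ → ℂ) (g⁻¹ • τ) = φ c := by
  rw [ord_eq_order hpl] at h
  have h0 := HahnSeries.coeff_eq_zero_of_lt_order h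
  rw [map_sub, embPoint_algebraMap, HahnSeries.coeff_sub, coeff_zero_embPoint φ hy,
    HahnSeries.coeff_single_same] at h0
  exact sub_eq_zero.mp h0

end Fibres

/-! ### The cusp at infinity -/

omit [Algebra ℚ L] in
theorem order_coeffMap (z : LaurentSeries L) :
    (ModularCurve.coeffMap φ z).order = z.order := by
  rcases eq_or_ne z 0 with rfl | hz
  · rw [map_zero, HahnSeries.order_zero, HahnSeries.order_zero]
  have hne : (ModularCurve.coeffMap φ z).coeff z.order ≠ 0 := by
    rw [ModularCurve.coeffMap_coeff, map_ne_zero]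
    exact fun h => hz (HahnSeries.coeff_order_eq_zero.mp h)
  refine le_antisymm (HahnSeries.order_le_of_coeff_ne_zero hne) ?_
  by_contra hlt
  refine hne ?_
  have h0 : ModularCurve.coeffMap φ z = 0 := HahnSeries.coeff_order_eq_zero.mp (by
    rw [ModularCurve.coeffMap_coeff, HahnSeries.coeff_eq_zero_of_lt_order (not_le.mp hlt),
      map_zero])
  rw [h0]; rfl

theorem minimalPeriod_T_one :
    Function.minimalPeriod (cosetPerm ModularGroup.T) ((1 : SL(2, ℤ)) : CosetSpace N) = 1 :=
  Function.minimalPeriod_eq_one_iff_isFixedPt.mpr (by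
    show ModularGroup.T • ((1 : SL(2, ℤ)) : CosetSpace N) = _
    rw [MulAction.Quotient.smul_coe, smul_eq_mul, mul_one, QuotientGroup.eq, mul_one]
    exact inv_mem T_mem_Gamma0)

theorem ord_cusp_one {pl : CosetSpace N → Place L ↥(FLevel L N)}
    (hpl : FibreData (embCusp φ) (jEl L N)⁻¹ N (cosetPerm ModularGroup.T) pl)
    (y : ↥(FLevel L N)) :
    (pl ((1 : SL(2, ℤ)) : CosetSpace N)).ord y = (y : LaurentSeries L).order := by
  rcases eq_or_ne y 0 with rfl | hy
  · simp
  have h := hpl.2.2.1 ((1 : SL(2, ℤ)) : CosetSpace N) y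
  rw [minimalPeriod_T_one, embCusp_one, order_qExpand N
    ((map_ne_zero_iff _ (coeffMap_injective φ.injective)).mpr fun h => hy (Subtype.ext h)),
    order_coeffMap, Nat.cast_one, mul_one] at h
  exact (mul_left_cancel₀ (Nat.cast_ne_zero.mpr (NeZero.ne N)) h).symm

end Fermat.Agent.Mazur.Moduli

end
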