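import Mathlib.Analysis.SpecialFunctions.Elliptic.Weierstrass
import Mathlib.Analysis.Analytic.IsolatedZeros
import Mathlib.Analysis.Analytic.Uniqueness
import Mathlib.Analysis.Calculus.MeanValue
import Mathlib.Analysis.Normed.Module.Connected
import Mathlib.Analysis.Complex.Convex
import Mathlib.LinearAlgebra.Complex.FiniteDimensional

/-!
# The addition formula of the Weierstrass `℘` function

Elementary proof: `g(s) = ¼ (Δ℘'/Δ℘)² - ℘ s - ℘ (w - s)` has derivative zero, and tends to `℘ w`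
as `s → 0` by the cubic relation alone.
-/

set_option autoImplicit false

noncomputable section

open Filter Topology PeriodPair

namespace Fermat.Agent.Mazur.Moduli

variable (L : PeriodPair)

theorem countable_lattice : (L.lattice : Set ℂ).Countable :=
  Set.countable_coe_iff.mp (Countable.of_equiv (ℤ × ℤ) L.latticeEquivProd.toEquiv.symm)

theorem isPreconnected_compl_lattice : IsPreconnected ((L.lattice : Set ℂ)ᶜ) :=
  ((countable_lattice L).isConnected_compl_of_one_lt_rank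
    (by rw [Complex.rank_real_complex]; norm_num)).isPreconnected

theorem isOpen_compl_lattice : IsOpen ((L.lattice : Set ℂ)ᶜ) := L.isClosed_lattice.isOpen_compl

theorem compl_lattice_mem_nhdsNE_zero : (L.lattice : Set ℂ)ᶜ ∈ 𝓝[≠] (0 : ℂ) := by
  filter_upwards [self_mem_nhdsWithin,
    mem_nhdsWithin_of_mem_nhds (L.compl_lattice_sdiff_singleton_mem_nhds 0)] with z hz hz' hmem
  exact hz' ⟨hmem, hz⟩

theorem tendsto_norm_weierstrassP :
    Tendsto (fun z => ‖℘[L] z‖) (𝓝[≠] (0 : ℂ)) atTop := by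
  have h1 : ∀ z, ℘[L] z = ℘[L - (0 : ℂ)] z + 1 / z ^ 2 := fun z => by
    have h := L.weierstrassPExcept_add ⟨0, zero_mem _⟩ z
    simpa using h.symm
  have hc : Tendsto ℘[L - (0 : ℂ)] (𝓝[≠] (0 : ℂ)) (𝓝 (℘[L - (0 : ℂ)] 0)) :=
    (L.analyticAt_weierstrassPExcept 0).continuousAt.tendsto.mono_left nhdsWithin_le_nhds
  have h2 : Tendsto (fun z : ℂ => 1 / z ^ 2) (𝓝[≠] (0 : ℂ)) (Bornology.cobounded ℂ) := by
    have : Tendsto (fun z : ℂ => z ^ 2) (𝓝[≠] (0 : ℂ)) (𝓝[≠] (0 : ℂ)) :=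
      tendsto_nhdsWithin_of_tendsto_nhds_of_eventually_within _
        (by simpa using ((continuous_pow 2).tendsto (0 : ℂ)).mono_left nhdsWithin_le_nhds)
        (by filter_upwards [self_mem_nhdsWithin] with z hz using pow_ne_zero 2 hz)
    simpa [one_div, Function.comp_def] using Filter.tendsto_inv₀_nhdsNE_zero.comp this
  rw [← tendsto_norm_atTop_iff_cobounded] at h2
  refine tendsto_atTop_mono (fun z => ?_) (h2.atTop_add hc.norm.neg)
  rw [h1, add_comm (℘[L - (0 : ℂ)] z)]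
  exact le_trans (le_of_eq (by rw [sub_eq_add_neg])) (norm_sub_le_norm_add _ _)

theorem eventually_weierstrassP_ne (c : ℂ) : ∀ᶠ z in 𝓝[≠] (0 : ℂ), ℘[L] z ≠ c := by
  filter_upwards [(tendsto_norm_weierstrassP L).eventually_gt_atTop ‖c‖] with z hz h
  rw [h] at hz
  exact lt_irrefl _ hz

theorem tendsto_inv_weierstrassP : Tendsto (fun z => (℘[L] z)⁻¹) (𝓝[≠] (0 : ℂ)) (𝓝 0) :=
  tendsto_zero_iff_norm_tendsto_zero.mpr
    ((tendsto_norm_weierstrassP L).inv_tendsto_atTop.congr fun _ => (norm_inv _).symm)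

theorem tendsto_deriv_div_sq :
    Tendsto (fun z => ℘'[L] z / ℘[L] z ^ 2) (𝓝[≠] (0 : ℂ)) (𝓝 0) := by
  have hu := tendsto_inv_weierstrassP L
  have hsq : Tendsto (fun z => (℘'[L] z / ℘[L] z ^ 2) ^ 2) (𝓝[≠] (0 : ℂ)) (𝓝 0) := by
    have h := ((hu.const_mul 4).sub ((hu.pow 3).const_mul L.g₂)).sub ((hu.pow 4).const_mul L.g₃)
    simp only [mul_zero, sub_zero, ne_eq, OfNat.ofNat_ne_zero, not_false_eq_true, zero_pow] at h
    refine h.congr' ?_
    filter_upwards [compl_lattice_mem_nhdsNE_zero L, eventually_weierstrassP_ne L 0] with z hz hz0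
    rw [div_pow, L.derivWeierstrassP_sq z hz]
    field_simp
  have hn := (Real.continuous_sqrt.tendsto _).comp (tendsto_norm_zero.comp hsq)
  rw [Real.sqrt_zero] at hn
  exact tendsto_zero_iff_norm_tendsto_zero.mpr (hn.congr fun z => by
    simp [norm_pow]
    rw [← norm_pow, ← norm_div, Real.sqrt_sq (norm_nonneg _)])

theorem eventually_deriv_ne_zero : ∀ᶠ z in 𝓝[≠] (0 : ℂ), ℘'[L] z ≠ 0 := by
  have hu := tendsto_inv_weierstrassP L
  have h := ((tendsto_const_nhds (x := (4 : ℂ))).sub ((hu.pow 2).const_mul L.g₂)).sub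
    ((hu.pow 3).const_mul L.g₃)
  simp only [mul_zero, sub_zero, ne_eq, OfNat.ofNat_ne_zero, not_false_eq_true, zero_pow] at h
  filter_upwards [h.eventually_ne (by norm_num : (4 : ℂ) ≠ 0), compl_lattice_mem_nhdsNE_zero L,
    eventually_weierstrassP_ne L 0] with z hz hzL hz0 h'
  have := L.derivWeierstrassP_sq z hzL
  rw [h'] at this
  apply hz
  field_simp
  linear_combination -this

theorem differentiableAt_deriv {z : ℂ} (hz : z ∉ L.lattice) : DifferentiableAt ℂ ℘'[L] z :=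
  (L.analyticOnNhd_derivWeierstrassP z hz).differentiableAt

theorem hasDerivAt_weierstrassP {z : ℂ} (hz : z ∉ L.lattice) :
    HasDerivAt ℘[L] (℘'[L] z) z := by
  have h := (L.analyticOnNhd_weierstrassP z hz).differentiableAt.hasDerivAt
  rwa [L.deriv_weierstrassP] at h

/-- The second order equation `℘'' = 6 ℘² - g₂ / 2`. -/
theorem hasDerivAt_derivWeierstrassP {z : ℂ} (hz : z ∉ L.lattice) :
    HasDerivAt ℘'[L] (6 * ℘[L] z ^ 2 - L.g₂ / 2) z := by
  set h : ℂ → ℂ := fun w => deriv ℘'[L] w - (6 * ℘[L] w ^ 2 - L.g₂ / 2) with hh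
  have han : AnalyticOnNhd ℂ h (L.lattice : Set ℂ)ᶜ := fun w hw => by
    have h1 := (L.analyticOnNhd_derivWeierstrassP w hw).deriv
    have h2 := L.analyticOnNhd_weierstrassP w hw
    exact h1.sub ((analyticAt_const.mul (h2.pow 2)).sub analyticAt_const)
  obtain ⟨z₀, hz₀, hne⟩ := ((eventually_deriv_ne_zero L).and
    (compl_lattice_mem_nhdsNE_zero L)).exists.imp fun w hw => And.intro hw.2 hw.1
  have hnh : ∀ᶠ w in 𝓝 z₀, h w = 0 := by
    filter_upwards [(isOpen_compl_lattice L).mem_nhds hz₀,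
      (differentiableAt_deriv L hz₀).continuousAt.eventually_ne hne] with w hw hw'
    have hd := (differentiableAt_deriv L hw).hasDerivAt
    have hP := hasDerivAt_weierstrassP L hw
    have e1 := hd.mul hd
    have e2 : HasDerivAt (fun u => 4 * ℘[L] u ^ 3 - L.g₂ * ℘[L] u - L.g₃)
        (4 * (3 * ℘[L] w ^ 2 * ℘'[L] w) - L.g₂ * ℘'[L] w) w := by
      simpa using (((hP.pow 3).const_mul 4).sub (hP.const_mul L.g₂)).sub_const L.g₃
    have e3 := e1.congr_of_eventuallyEq (f₁ := fun u => 4 * ℘[L] u ^ 3 - L.g₂ * ℘[L] u - L.g₃) (by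
      filter_upwards [(isOpen_compl_lattice L).mem_nhds hw] with u hu
      rw [← L.derivWeierstrassP_sq u hu]
      exact (sq _))
    have e4 := e2.unique e3
    have : (2 * ℘'[L] w) * h w = 0 := by
      simp only [hh]
      linear_combination -e4
    exact (mul_eq_zero.mp this).resolve_left (mul_ne_zero two_ne_zero hw')
  have h0 := han.eqOn_zero_of_preconnected_of_eventuallyEq_zero (isPreconnected_compl_lattice L)
    hz₀ hnh hz
  have hd := (differentiableAt_deriv L hz).hasDerivAt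
  rwa [sub_eq_zero.mp (show h z = 0 from h0)] at hd

/-- The chord expression `¼ ((℘' s - ℘' t) / (℘ s - ℘ t))² - ℘ s - ℘ t`. -/
def chordX (s t : ℂ) : ℂ :=
  ((℘'[L] s - ℘'[L] t) / (℘[L] s - ℘[L] t)) ^ 2 / 4 - ℘[L] s - ℘[L] t

/-- The `y`-coordinate of the chord construction (for `℘'`). -/
def chordY (s t : ℂ) : ℂ :=
  -((℘'[L] s - ℘'[L] t) / (℘[L] s - ℘[L] t) * (chordX L s t - ℘[L] s) + ℘'[L] s)

theorem hasDerivAt_chordX {s t : ℂ} (hs : s ∉ L.lattice) (ht : t ∉ L.lattice)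
    (hne : ℘[L] s ≠ ℘[L] t) :
    HasDerivAt (fun u => chordX L u t) (chordY L s t) s := by
  have hP := hasDerivAt_weierstrassP L hs
  have hD := hasDerivAt_derivWeierstrassP L hs
  have hd : ℘[L] s - ℘[L] t ≠ 0 := sub_ne_zero.mpr hne
  have h := ((((hD.sub_const (℘'[L] t)).div (hP.sub_const (℘[L] t)) hd).pow 2).div_const 4).sub hP
    |>.sub_const (℘[L] t)
  refine h.congr_deriv ?_
  have e1 := L.derivWeierstrassP_sq s hs
  have e2 := L.derivWeierstrassP_sq t ht
  simp only [chordY, chordX, Nat.cast_ofNat, pow_one, Nat.reduceSub, Pi.div_apply]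
  field_simp
  grobner

/-- Along `s + t = w` the chord expression is constant. -/
theorem hasDerivAt_chordX_line {s w : ℂ} (hs : s ∉ L.lattice) (ht : w - s ∉ L.lattice)
    (hne : ℘[L] s ≠ ℘[L] (w - s)) :
    HasDerivAt (fun u => chordX L u (w - u)) 0 s := by
  have hd : ℘[L] s - ℘[L] (w - s) ≠ 0 := sub_ne_zero.mpr hne
  have hP := hasDerivAt_weierstrassP L hs
  have hD := hasDerivAt_derivWeierstrassP L hs
  have hsub : HasDerivAt (fun u : ℂ => w - u) (-1) s := (hasDerivAt_id' s).const_sub w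
  have hQ : HasDerivAt (fun u => ℘[L] (w - u)) (℘'[L] (w - s) * -1) s :=
    (hasDerivAt_weierstrassP L ht).comp s hsub
  have hE : HasDerivAt (fun u => ℘'[L] (w - u)) ((6 * ℘[L] (w - s) ^ 2 - L.g₂ / 2) * -1) s :=
    (hasDerivAt_derivWeierstrassP L ht).comp s hsub
  have h := ((((hD.sub hE).div (hP.sub hQ) hd).pow 2).div_const 4).sub hP |>.sub hQ
  refine h.congr_deriv ?_
  have e1 := L.derivWeierstrassP_sq s hs
  have e2 := L.derivWeierstrassP_sq _ ht
  simp only [Nat.cast_ofNat, pow_one, Nat.reduceSub, Pi.div_apply, Pi.sub_apply]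
  field_simp
  grobner

theorem tendsto_chordX {w : ℂ} (hw : w ∉ L.lattice) :
    Tendsto (fun u => chordX L u (w - u)) (𝓝[≠] (0 : ℂ)) (𝓝 (℘[L] w)) := by
  set Y : ℂ → ℂ := fun u => ℘[L] (w - u) with hY
  set Z : ℂ → ℂ := fun u => ℘'[L] (w - u) with hZ
  have hsub : Tendsto (fun u : ℂ => w - u) (𝓝[≠] (0 : ℂ)) (𝓝 w) :=
    ((continuous_const.sub continuous_id).tendsto' (0 : ℂ) w (sub_zero w) :
      Tendsto (fun u : ℂ => w - u) (𝓝 (0 : ℂ)) (𝓝 w)).mono_left nhdsWithin_le_nhds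
  have hyt : Tendsto Y (𝓝[≠] (0 : ℂ)) (𝓝 (℘[L] w)) :=
    (L.analyticOnNhd_weierstrassP w hw).continuousAt.tendsto.comp hsub
  have hzt : Tendsto Z (𝓝[≠] (0 : ℂ)) (𝓝 (℘'[L] w)) :=
    (L.analyticOnNhd_derivWeierstrassP w hw).continuousAt.tendsto.comp hsub
  have hu := tendsto_inv_weierstrassP L
  have hr := tendsto_deriv_div_sq L
  -- the expression in terms of `1/℘` and `℘'/℘²`
  have hlim : Tendsto (fun u =>
      ((-(L.g₂ / 4) * (℘[L] u)⁻¹ - L.g₃ / 4 * (℘[L] u)⁻¹ ^ 2 - ℘'[L] u / ℘[L] u ^ 2 * Z u / 2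
        + Z u ^ 2 / 4 * (℘[L] u)⁻¹ ^ 2) + (2 * Y u - Y u ^ 2 * (℘[L] u)⁻¹))
        / (1 - Y u * (℘[L] u)⁻¹) ^ 2 - Y u) (𝓝[≠] (0 : ℂ)) (𝓝 (℘[L] w)) := by
    have h := ((((hu.const_mul (-(L.g₂ / 4))).sub ((hu.pow 2).const_mul (L.g₃ / 4))).sub
      ((hr.mul hzt).div_const 2)).add (((hzt.pow 2).div_const 4).mul (hu.pow 2))).add
      ((hyt.const_mul 2).sub ((hyt.pow 2).mul hu))
    have h' := (h.div (((tendsto_const_nhds (x := (1 : ℂ))).sub (hyt.mul hu)).pow 2)
      (by norm_num)).sub hyt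
    simpa [two_mul] using h'
  refine hlim.congr' ?_
  filter_upwards [compl_lattice_mem_nhdsNE_zero L, eventually_weierstrassP_ne L 0,
    hsub.eventually ((isOpen_compl_lattice L).mem_nhds hw),
    ((hyt.mul hu).eventually_ne (b₂ := (1 : ℂ)) (by norm_num))] with u huL hu0 huw hu1
  have hd : ℘[L] u - Y u ≠ 0 := fun h => hu1 (by
    rw [← sub_eq_zero.mp h]
    exact mul_inv_cancel₀ hu0)
  have hd' : (1 : ℂ) - Y u * (℘[L] u)⁻¹ ≠ 0 := sub_ne_zero.mpr (Ne.symm hu1)
  have e1 := L.derivWeierstrassP_sq u huL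
  simp only [chordX, hY, hZ] at hd hd' ⊢
  field_simp
  grobner

theorem eventually_weierstrassP_ne_comp {f : ℂ → ℂ} (hf : ContinuousAt f 0) :
    ∀ᶠ u in 𝓝[≠] (0 : ℂ), ℘[L] u ≠ f u := by
  have hb : ∀ᶠ u in 𝓝[≠] (0 : ℂ), ‖f u‖ < ‖f 0‖ + 1 :=
    ((hf.norm.tendsto.mono_left nhdsWithin_le_nhds).eventually_lt_const (by linarith))
  filter_upwards [hb, (tendsto_norm_weierstrassP L).eventually_gt_atTop (‖f 0‖ + 1)] with u h1 h2 h
  rw [h] at h2
  linarith

/-- **The addition formula.** -/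
theorem weierstrassP_add {s t : ℂ} (hs : s ∉ L.lattice) (ht : t ∉ L.lattice)
    (hne : ℘[L] s ≠ ℘[L] t) :
    s + t ∉ L.lattice ∧ ℘[L] (s + t) = chordX L s t := by
  have hw : s + t ∉ L.lattice := fun h => hne (by
    have := L.weierstrassP_add_coe (-t) ⟨_, h⟩
    rw [L.weierstrassP_neg] at this
    rw [← this]
    ring_nf)
  refine ⟨hw, ?_⟩
  obtain ⟨w, rfl⟩ : ∃ w, t = w - s := ⟨s + t, by ring⟩
  rw [add_sub_cancel] at hw ⊢
  -- constant on a small half disc at `0`
  have hev : ∀ᶠ u in 𝓝[≠] (0 : ℂ),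
      u ∉ L.lattice ∧ w - u ∉ L.lattice ∧ ℘[L] u ≠ ℘[L] (w - u) := by
    have hc : ContinuousAt (fun u => w - u) (0 : ℂ) := (continuous_const.sub continuous_id).continuousAt
    have h1 : ∀ᶠ u in 𝓝[≠] (0 : ℂ), w - u ∉ L.lattice :=
      (hc.eventually ((isOpen_compl_lattice L).mem_nhds (by simpa using hw))).filter_mono
        nhdsWithin_le_nhds
    filter_upwards [compl_lattice_mem_nhdsNE_zero L, h1, eventually_weierstrassP_ne_comp L
      ((L.analyticOnNhd_weierstrassP w hw).continuousAt.comp_of_eq hc (by simp))] with u a b c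
    exact ⟨a, b, c⟩
  obtain ⟨r, hr, hball⟩ := Metric.mem_nhdsWithin_iff.mp hev
  set H : Set ℂ := Metric.ball 0 r ∩ {z | 0 < z.re} with hH
  have hHo : IsOpen H := Metric.isOpen_ball.inter (isOpen_lt continuous_const Complex.continuous_re)
  have hHc : IsPreconnected H :=
    ((convex_ball _ _).inter (convex_halfSpace_re_gt 0)).isPreconnected
  have hHsub : ∀ u ∈ H, u ∉ L.lattice ∧ w - u ∉ L.lattice ∧ ℘[L] u ≠ ℘[L] (w - u) :=
    fun u hu => hball ⟨hu.1, fun h => lt_irrefl (0 : ℝ)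
      (by simpa [Set.mem_singleton_iff.mp h] using hu.2)⟩
  have hderiv : ∀ u ∈ H, HasDerivAt (fun u => chordX L u (w - u)) 0 u := fun u hu =>
    hasDerivAt_chordX_line L (hHsub u hu).1 (hHsub u hu).2.1 (hHsub u hu).2.2
  have hu₀ : (((r / 2 : ℝ)) : ℂ) ∈ H := by
    refine ⟨?_, ?_⟩
    · rw [mem_ball_zero_iff, Complex.norm_real, Real.norm_of_nonneg (by positivity)]
      linarith
    · show 0 < ((r / 2 : ℝ) : ℂ).re
      rw [Complex.ofReal_re]
      positivity
  set u₀ : ℂ := ((r / 2 : ℝ) : ℂ)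
  have hconst : ∀ u ∈ H, chordX L u (w - u) = chordX L u₀ (w - u₀) := fun u hu =>
    hHo.is_const_of_deriv_eq_zero hHc
      (fun x hx => (hderiv x hx).differentiableAt.differentiableWithinAt)
      (fun x hx => (hderiv x hx).deriv) hu hu₀
  have hval : chordX L u₀ (w - u₀) = ℘[L] w := by
    have htend : Tendsto (fun x : ℝ => (x : ℂ)) (𝓝[>] (0 : ℝ)) (𝓝[≠] (0 : ℂ)) :=
      tendsto_nhdsWithin_of_tendsto_nhds_of_eventually_within _
        ((Complex.continuous_ofReal.tendsto' 0 0 Complex.ofReal_zero).mono_left nhdsWithin_le_nhds)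
        (by filter_upwards [self_mem_nhdsWithin] with x hx using
          Complex.ofReal_ne_zero.mpr (ne_of_gt hx))
    refine tendsto_nhds_unique ?_ ((tendsto_chordX L hw).comp htend)
    refine tendsto_const_nhds.congr' ?_
    filter_upwards [self_mem_nhdsWithin, mem_nhdsWithin_of_mem_nhds (Iio_mem_nhds hr)]
      with x (hx : (0 : ℝ) < x) (hxr : x < r)
    refine (hconst _ ⟨?_, ?_⟩).symm
    · rw [mem_ball_zero_iff, Complex.norm_real, Real.norm_of_nonneg hx.le]
      exact hxr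
    · show 0 < (x : ℂ).re
      rwa [Complex.ofReal_re]
  -- identity theorem for the cleared denominator
  set V : Set ℂ := ((L.lattice : Set ℂ) ∪ (fun l => w - l) '' (L.lattice : Set ℂ))ᶜ with hV
  have hVc : IsPreconnected V :=
    (((countable_lattice L).union ((countable_lattice L).image _)).isConnected_compl_of_one_lt_rank
      (by rw [Complex.rank_real_complex]; norm_num)).isPreconnected
  have hVmem : ∀ u, u ∈ V ↔ u ∉ L.lattice ∧ w - u ∉ L.lattice := by
    intro u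
    simp only [hV, Set.mem_compl_iff, Set.mem_union, not_or, Set.mem_image, SetLike.mem_coe,
      not_exists, not_and]
    refine and_congr_right fun _ => ⟨fun h hm => h _ hm (by ring), fun h l hl he => h ?_⟩
    rw [← he, sub_sub_cancel]
    exact hl
  set Ψ : ℂ → ℂ := fun u => (℘'[L] u - ℘'[L] (w - u)) ^ 2 -
    4 * (℘[L] w + ℘[L] u + ℘[L] (w - u)) * (℘[L] u - ℘[L] (w - u)) ^ 2 with hΨ
  have hΨan : AnalyticOnNhd ℂ Ψ V := by
    intro u hu
    obtain ⟨hu1, hu2⟩ := (hVmem u).mp hu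
    have a1 := L.analyticOnNhd_weierstrassP u hu1
    have a2 := L.analyticOnNhd_derivWeierstrassP u hu1
    have hl : AnalyticAt ℂ (fun x : ℂ => w - x) u := analyticAt_const.sub analyticAt_id
    have b1 : AnalyticAt ℂ (fun x => ℘[L] (w - x)) u :=
      (L.analyticOnNhd_weierstrassP _ hu2).fun_comp hl
    have b2 : AnalyticAt ℂ (fun x => ℘'[L] (w - x)) u :=
      (L.analyticOnNhd_derivWeierstrassP _ hu2).fun_comp hl
    exact ((a2.sub b2).pow 2).sub
      ((analyticAt_const.mul ((analyticAt_const.add a1).add b1)).mul ((a1.sub b1).pow 2))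
  have hΨ0 : Ψ =ᶠ[𝓝 u₀] 0 := by
    filter_upwards [hHo.mem_nhds hu₀] with u hu
    have h := (hconst u hu).trans hval
    have hd : ℘[L] u - ℘[L] (w - u) ≠ 0 := sub_ne_zero.mpr (hHsub u hu).2.2
    simp only [chordX] at h
    field_simp at h
    simp only [hΨ, Pi.zero_apply]
    linear_combination h
  have hz := hΨan.eqOn_zero_of_preconnected_of_eventuallyEq_zero hVc
    ((hVmem u₀).mpr ⟨(hHsub u₀ hu₀).1, (hHsub u₀ hu₀).2.1⟩) hΨ0 ((hVmem s).mpr ⟨hs, ht⟩)
  have hd : ℘[L] s - ℘[L] (w - s) ≠ 0 := sub_ne_zero.mpr hne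
  simp only [hΨ, Pi.zero_apply] at hz
  rw [chordX]
  field_simp
  linear_combination -hz

/-- The addition formula for `℘'`. -/
theorem derivWeierstrassP_add {s t : ℂ} (hs : s ∉ L.lattice) (ht : t ∉ L.lattice)
    (hne : ℘[L] s ≠ ℘[L] t) : ℘'[L] (s + t) = chordY L s t := by
  have hw := (weierstrassP_add L hs ht hne).1
  have h1 : HasDerivAt (fun u => ℘[L] (u + t)) (℘'[L] (s + t)) s := by
    simpa [Function.comp_def] using
      (hasDerivAt_weierstrassP L hw).comp s ((hasDerivAt_id' s).add_const t)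
  refine h1.unique ((hasDerivAt_chordX L hs ht hne).congr_of_eventuallyEq ?_)
  filter_upwards [(isOpen_compl_lattice L).mem_nhds hs,
    (L.analyticOnNhd_weierstrassP s hs).continuousAt.eventually_ne hne] with u hu hu'
  exact (weierstrassP_add L hu ht hu').2

end Fermat.Agent.Mazur.Moduli

end
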