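import Mathlib.AlgebraicGeometry.EllipticCurve.Affine.Point
import Mathlib.Tactic.LinearCombination
import Fermat.Agent.Mazur.Moduli.WpFormula

/-!
# The uniformisation homomorphism `ℂ → E_L(ℂ)`
-/

set_option autoImplicit false

noncomputable section

open Filter Topology PeriodPair WeierstrassCurve

namespace Fermat.Agent.Mazur.Moduli

variable (L : PeriodPair)

/-- The curve `y² = x³ - g₂/4 x - g₃/4`, uniformised by `(℘, ℘'/2)`. -/
def wpCurve : WeierstrassCurve ℂ := ⟨0, 0, 0, -L.g₂ / 4, -L.g₃ / 4⟩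

theorem equation_wp {z : ℂ} (hz : z ∉ L.lattice) :
    (wpCurve L).toAffine.Equation (℘[L] z) (℘'[L] z / 2) := by
  rw [Affine.equation_iff]
  simp only [wpCurve]
  linear_combination (L.derivWeierstrassP_sq z hz) / 4

variable [(wpCurve L).IsElliptic]

theorem nonsingular_wp {z : ℂ} (hz : z ∉ L.lattice) :
    (wpCurve L).toAffine.Nonsingular (℘[L] z) (℘'[L] z / 2) :=
  (Affine.equation_iff_nonsingular).mp (equation_wp L hz)

open Classical in
/-- The point attached to `z`. -/
def wpPoint (z : ℂ) : (wpCurve L).toAffine.Point :=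
  if h : z ∈ L.lattice then 0 else .some _ _ (nonsingular_wp L h)

theorem wpPoint_of_notMem {z : ℂ} (hz : z ∉ L.lattice) :
    wpPoint L z = .some _ _ (nonsingular_wp L hz) := dif_neg hz

theorem wpPoint_of_mem {z : ℂ} (hz : z ∈ L.lattice) : wpPoint L z = 0 := dif_pos hz

theorem wpPoint_eq_zero_iff {z : ℂ} : wpPoint L z = 0 ↔ z ∈ L.lattice := by
  refine ⟨fun h => ?_, wpPoint_of_mem L⟩
  by_contra hz
  rw [wpPoint_of_notMem L hz] at h
  exact Affine.Point.some_ne_zero _ h

theorem wpPoint_add_mem {z l : ℂ} (hl : l ∈ L.lattice) : wpPoint L (z + l) = wpPoint L z := by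
  by_cases hz : z ∈ L.lattice
  · rw [wpPoint_of_mem L hz, wpPoint_of_mem L (add_mem hz hl)]
  · have hzl : z + l ∉ L.lattice := fun h => hz ((L.lattice.add_mem_iff_left hl).mp h)
    rw [wpPoint_of_notMem L hz, wpPoint_of_notMem L hzl, Affine.Point.some.injEq]
    exact ⟨L.weierstrassP_add_coe z ⟨l, hl⟩, by rw [L.derivWeierstrassP_add_coe z ⟨l, hl⟩]⟩

theorem wpPoint_neg (z : ℂ) : wpPoint L (-z) = -wpPoint L z := by
  by_cases hz : z ∈ L.lattice
  · rw [wpPoint_of_mem L hz, wpPoint_of_mem L (neg_mem hz), neg_zero]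
  · rw [wpPoint_of_notMem L hz, wpPoint_of_notMem L (fun h => hz (neg_mem_iff.mp h)),
      Affine.Point.neg_some, Affine.Point.some.injEq]
    refine ⟨L.weierstrassP_neg z, ?_⟩
    rw [L.derivWeierstrassP_neg]
    simp [Affine.negY, wpCurve]
    ring

omit [(wpCurve L).IsElliptic] in
theorem addX_wp {s t : ℂ} (hne : ℘[L] s ≠ ℘[L] t) :
    (wpCurve L).toAffine.addX (℘[L] s) (℘[L] t)
      ((wpCurve L).toAffine.slope (℘[L] s) (℘[L] t) (℘'[L] s / 2) (℘'[L] t / 2)) = chordX L s t := by
  have hd : ℘[L] s - ℘[L] t ≠ 0 := sub_ne_zero.mpr hne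
  rw [Affine.slope_of_X_ne hne]
  simp only [Affine.addX, wpCurve, chordX]
  field_simp
  ring

theorem wpPoint_add_of_ne {s t : ℂ} (hs : s ∉ L.lattice) (ht : t ∉ L.lattice)
    (hne : ℘[L] s ≠ ℘[L] t) : wpPoint L (s + t) = wpPoint L s + wpPoint L t := by
  have hd : ℘[L] s - ℘[L] t ≠ 0 := sub_ne_zero.mpr hne
  obtain ⟨hw, hX⟩ := weierstrassP_add L hs ht hne
  rw [wpPoint_of_notMem L hs, wpPoint_of_notMem L ht, wpPoint_of_notMem L hw,
    Affine.Point.add_of_X_ne hne, Affine.Point.some.injEq]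
  refine ⟨hX.trans (addX_wp L hne).symm, ?_⟩
  rw [Affine.addY, Affine.negAddY, addX_wp L hne, derivWeierstrassP_add L hs ht hne,
    Affine.slope_of_X_ne hne]
  simp only [Affine.negY, wpCurve, chordY]
  field_simp
  ring

omit [(wpCurve L).IsElliptic] in
/-- Near `u = 0`, the values `℘ (s + u)` and `℘ (t - u)` differ, unless `s + t ∈ L`. -/
theorem eventually_ne_shift {s t : ℂ} (hs : s ∉ L.lattice) (ht : t ∉ L.lattice)
    (hst : s + t ∉ L.lattice) :
    ∀ᶠ u in 𝓝[≠] (0 : ℂ), ℘[L] (s + u) ≠ ℘[L] (t - u) := by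
  set W : Set ℂ := ((fun l => l - s) '' (L.lattice : Set ℂ) ∪ (fun l => t - l) '' (L.lattice : Set ℂ))ᶜ
    with hW
  have hWc : IsPreconnected W :=
    ((((countable_lattice L).image _).union ((countable_lattice L).image _))
      |>.isConnected_compl_of_one_lt_rank
      (by rw [Complex.rank_real_complex]; norm_num)).isPreconnected
  have hWmem : ∀ u, u ∈ W ↔ s + u ∉ L.lattice ∧ t - u ∉ L.lattice := by
    intro u
    simp only [hW, Set.mem_compl_iff, Set.mem_union, not_or, Set.mem_image, SetLike.mem_coe,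
      not_exists, not_and]
    refine and_congr ⟨fun h hm => h _ hm (by ring), fun h l hl he => h ?_⟩
      ⟨fun h hm => h _ hm (by ring), fun h l hl he => h ?_⟩
    · rw [← he, add_sub_cancel]; exact hl
    · rw [← he, sub_sub_cancel]; exact hl
  set m : ℂ → ℂ := fun u => ℘[L] (s + u) - ℘[L] (t - u) with hm
  have hman : AnalyticOnNhd ℂ m W := fun u hu => by
    obtain ⟨h1, h2⟩ := (hWmem u).mp hu
    exact ((L.analyticOnNhd_weierstrassP _ h1).fun_comp (analyticAt_const.add analyticAt_id)).sub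
      ((L.analyticOnNhd_weierstrassP _ h2).fun_comp (analyticAt_const.sub analyticAt_id))
  have h0W : (0 : ℂ) ∈ W := (hWmem 0).mpr ⟨by simpa using hs, by simpa using ht⟩
  rcases (hman 0 h0W).eventually_eq_zero_or_eventually_ne_zero with h | h
  · exfalso
    have hz := hman.eqOn_zero_of_preconnected_of_eventuallyEq_zero hWc h0W h
    have hcont : ContinuousAt (fun v => ℘[L] (s + t - v)) 0 :=
      (L.analyticOnNhd_weierstrassP _ (show s + t ∉ L.lattice from hst)).continuousAt.comp_of_eq
        (continuous_const.sub continuous_id).continuousAt (sub_zero _)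
    have hev : ∀ᶠ v in 𝓝[≠] (0 : ℂ),
        ℘[L] v ≠ ℘[L] (s + t - v) ∧ v ∉ L.lattice ∧ s + t - v ∉ L.lattice := by
      refine (eventually_weierstrassP_ne_comp L hcont).and
        ((show ∀ᶠ v in 𝓝[≠] (0 : ℂ), v ∉ L.lattice from compl_lattice_mem_nhdsNE_zero L).and ?_)
      have hc : ContinuousAt (fun v : ℂ => s + t - v) 0 :=
        (continuous_const.sub continuous_id).continuousAt
      exact (hc.eventually ((isOpen_compl_lattice L).mem_nhds (by simpa using hst))).filter_mono
        nhdsWithin_le_nhds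
    obtain ⟨v, hv, hv1, hv2⟩ := hev.exists
    refine hv (sub_eq_zero.mp ?_)
    have := hz ((hWmem (v - s)).mpr ⟨by simpa using hv1, by
      rwa [show t - (v - s) = s + t - v by ring]⟩)
    simpa only [hm, add_sub_cancel, show t - (v - s) = s + t - v by ring, Pi.zero_apply] using this
  · filter_upwards [h] with u hu
    exact fun he => hu (sub_eq_zero.mpr he)

theorem wpPoint_add (s t : ℂ) : wpPoint L (s + t) = wpPoint L s + wpPoint L t := by
  by_cases hs : s ∈ L.lattice
  · rw [add_comm s t, wpPoint_add_mem L hs, wpPoint_of_mem L hs, zero_add]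
  by_cases ht : t ∈ L.lattice
  · rw [wpPoint_add_mem L ht, wpPoint_of_mem L ht, add_zero]
  by_cases hst : s + t ∈ L.lattice
  · rw [wpPoint_of_mem L hst]
    have : wpPoint L t = wpPoint L (-s) := by
      conv_lhs => rw [show t = -s + (s + t) by ring]
      exact wpPoint_add_mem L hst
    rw [this, wpPoint_neg, add_neg_cancel]
  have hsc : ContinuousAt (fun u : ℂ => ℘[L] (t - u)) 0 :=
    (L.analyticOnNhd_weierstrassP t ht).continuousAt.comp_of_eq
      (continuous_const.sub continuous_id).continuousAt (sub_zero _)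
  have h1 : ∀ᶠ u in 𝓝[≠] (0 : ℂ), s + u ∉ L.lattice := by
    have hc : ContinuousAt (fun v : ℂ => s + v) 0 :=
      (continuous_const.add continuous_id).continuousAt
    exact (hc.eventually ((isOpen_compl_lattice L).mem_nhds (by simpa using hs))).filter_mono
      nhdsWithin_le_nhds
  have h2 : ∀ᶠ u in 𝓝[≠] (0 : ℂ), t - u ∉ L.lattice := by
    have hc : ContinuousAt (fun v : ℂ => t - v) 0 :=
      (continuous_const.sub continuous_id).continuousAt
    exact (hc.eventually ((isOpen_compl_lattice L).mem_nhds (by simpa using ht))).filter_mono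
      nhdsWithin_le_nhds
  obtain ⟨u, hu, hsu, htu, ha, hb, hc⟩ :=
    ((show ∀ᶠ u in 𝓝[≠] (0 : ℂ), u ∉ L.lattice from compl_lattice_mem_nhdsNE_zero L).and
      (h1.and (h2.and ((eventually_weierstrassP_ne L (℘[L] s)).and
        ((eventually_weierstrassP_ne_comp L hsc).and (eventually_ne_shift L hs ht hst)))))).exists
  calc wpPoint L (s + t) = wpPoint L ((s + u) + (t - u)) := by ring_nf
    _ = wpPoint L (s + u) + wpPoint L (t - u) := wpPoint_add_of_ne L hsu htu hc
    _ = wpPoint L s + wpPoint L u + wpPoint L (t - u) := by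
      rw [wpPoint_add_of_ne L hs hu (Ne.symm ha)]
    _ = wpPoint L s + wpPoint L t := by
      rw [add_assoc, ← wpPoint_add_of_ne L hu htu hb, add_sub_cancel]

/-- The uniformisation as a homomorphism. -/
def wpHom : ℂ →+ (wpCurve L).toAffine.Point where
  toFun := wpPoint L
  map_zero' := wpPoint_of_mem L (zero_mem _)
  map_add' := wpPoint_add L

theorem wpHom_eq_iff {z w : ℂ} : wpHom L z = wpHom L w ↔ z - w ∈ L.lattice := by
  rw [← sub_eq_zero, ← map_sub]
  exact wpPoint_eq_zero_iff L

end Fermat.Agent.Mazur.Moduli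

end
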