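import Mathlib.NumberTheory.ModularForms.EisensteinSeries.QExpansion
import Mathlib.NumberTheory.LSeries.HurwitzZetaValues
import Mathlib.Analysis.Normed.Group.Tannery

/-!
# `∑_n 1 / (w + n)²` as `(2πi)² u / (1 - u)²`, `u = e^{2πiw}`
-/

set_option autoImplicit false

noncomputable section

open Filter Topology Complex
open scoped Real

namespace Fermat.Agent.Mazur.Moduli

/-- `(2 π i)²`. -/
def scaleC : ℂ := (2 * π * I) ^ 2

theorem scaleC_ne_zero : scaleC ≠ 0 :=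
  pow_ne_zero 2 (mul_ne_zero (mul_ne_zero two_ne_zero (ofReal_ne_zero.mpr Real.pi_ne_zero)) I_ne_zero)

theorem scaleC_eq : scaleC = -4 * (π : ℂ) ^ 2 := by
  rw [scaleC, mul_pow, mul_pow, I_sq]; ring

/-- `e^{2πiw}`. -/
def ee (w : ℂ) : ℂ := exp (2 * π * I * w)

/-- `u / (1 - u)²`. -/
def geomDeriv {K : Type*} [Field K] (u : K) : K := u / (1 - u) ^ 2

theorem geomDeriv_inv {K : Type*} [Field K] {u : K} (hu : u ≠ 0) : geomDeriv u⁻¹ = geomDeriv u := by
  rcases eq_or_ne u 1 with rfl | h1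
  · rw [inv_one]
  have : (1 - u) ≠ 0 := sub_ne_zero.mpr (Ne.symm h1)
  have h2 : u - 1 ≠ 0 := sub_ne_zero.mpr h1
  rw [geomDeriv, geomDeriv]
  field_simp
  ring

theorem ee_ne_zero (w : ℂ) : ee w ≠ 0 := exp_ne_zero _

theorem ee_add (v w : ℂ) : ee (v + w) = ee v * ee w := by rw [ee, ee, ee, ← exp_add]; ring_nf

theorem ee_neg (w : ℂ) : ee (-w) = (ee w)⁻¹ := by rw [ee, ee, ← exp_neg]; ring_nf

theorem ee_intCast (n : ℤ) : ee n = 1 := by
  rw [ee, show 2 * π * I * (n : ℂ) = n * (2 * π * I) by ring]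
  exact exp_int_mul_two_pi_mul_I n

theorem ee_nat_mul (n : ℕ) (w : ℂ) : ee (n * w) = ee w ^ n := by
  rw [ee, ee, ← exp_nat_mul]; ring_nf

theorem ee_eq_one_iff {w : ℂ} : ee w = 1 ↔ ∃ n : ℤ, w = n := by
  refine ⟨fun h => ?_, fun ⟨n, hn⟩ => hn ▸ ee_intCast n⟩
  obtain ⟨n, hn⟩ := exp_eq_one_iff.mp h
  refine ⟨n, mul_left_cancel₀ two_pi_I_ne_zero ?_⟩
  rw [hn]; ring

theorem norm_ee (w : ℂ) : ‖ee w‖ = Real.exp (-(2 * π * w.im)) := by
  rw [ee, norm_exp]; simp

/-- `∑_n 1 / (w + n)²`. -/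
def rowSum (w : ℂ) : ℂ := ∑' n : ℤ, 1 / (w + n) ^ 2

theorem summable_rowSum (w : ℂ) : Summable fun n : ℤ => 1 / (w + n) ^ 2 := by
  refine (EisensteinSeries.linear_right_summable w 1 (k := 2) le_rfl).congr fun n => ?_
  simp [zpow_ofNat]

theorem rowSum_neg (w : ℂ) : rowSum (-w) = rowSum w := by
  rw [rowSum, rowSum, ← tsum_comp_neg]
  refine tsum_congr fun n => ?_
  push_cast
  rw [show -w + -(n : ℂ) = -(w + n) by ring, neg_sq]

theorem rowSum_zero : rowSum 0 = scaleC * (-(1 / 12)) := by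
  have h := two_mul_riemannZeta_eq_tsum_int_inv_pow_of_even (k := 2) le_rfl (by simp)
  rw [Nat.cast_two, riemannZeta_two] at h
  rw [rowSum]
  simp only [zero_add, one_div]
  rw [← h, scaleC_eq]
  ring

theorem rowSum_of_im_pos {w : ℂ} (hw : 0 < w.im) : rowSum w = scaleC * geomDeriv (ee w) := by
  have h := EisensteinSeries.qExpansion_identity (k := 1) le_rfl ⟨w, hw⟩
  simp only [Nat.factorial_one, Nat.cast_one, div_one, pow_one] at h
  have hn : ‖ee w‖ < 1 := by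
    rw [norm_ee, Real.exp_lt_one_iff]
    have := Real.pi_pos
    nlinarith
  rw [rowSum, geomDeriv, ← tsum_coe_mul_geometric_of_norm_lt_one hn, scaleC_eq]
  refine h.trans ?_
  rw [show (-2 * π * I : ℂ) ^ 2 = -4 * (π : ℂ) ^ 2 by rw [mul_pow, mul_pow, I_sq]; ring]
  rfl

theorem rowSum_of_real {x : ℝ} (hx : ∀ n : ℤ, (x : ℂ) ≠ n) :
    rowSum x = scaleC * geomDeriv (ee x) := by
  have h1 : ee x ≠ 1 := fun h => by
    obtain ⟨n, hn⟩ := ee_eq_one_iff.mp h
    exact hx n hn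
  have hxn : ∀ n : ℤ, (x : ℝ) + n ≠ 0 := fun n h => hx (-n) (by
    have h' := congrArg (fun t : ℝ => (t : ℂ)) h
    push_cast at h' ⊢
    linear_combination h')
  have hpath : Tendsto (fun ε : ℝ => (x : ℂ) + ε * I) (𝓝[>] (0 : ℝ)) (𝓝 (x : ℂ)) :=
    ((continuous_const.add (continuous_ofReal.mul continuous_const)).tendsto' 0 (x : ℂ)
      (by simp)).mono_left nhdsWithin_le_nhds
  have hbound : Summable fun n : ℤ => 1 / (x + n : ℝ) ^ 2 := by
    refine ((Real.summable_one_div_int_add_rpow x 2).mpr one_lt_two).congr fun n => ?_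
    rw [Real.rpow_two, sq_abs, add_comm]
  have hlim : Tendsto (fun ε : ℝ => rowSum ((x : ℂ) + ε * I)) (𝓝[>] (0 : ℝ)) (𝓝 (rowSum x)) := by
    refine tendsto_tsum_of_dominated_convergence hbound (fun n => ?_) ?_
    · have hne : ((x : ℂ) + n) ^ 2 ≠ 0 := pow_ne_zero 2 (by exact_mod_cast hxn n)
      exact (((hpath.add_const (n : ℂ)).pow 2).inv₀ hne).congr' (Eventually.of_forall fun ε => by
        simp [one_div]) |>.trans (by rw [one_div])
    · refine Eventually.of_forall fun ε n => ?_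
      rw [norm_div, norm_one, norm_pow, ← sq_abs (x + n : ℝ)]
      have hpos : 0 < |(x : ℝ) + n| ^ 2 := pow_pos (abs_pos.mpr (hxn n)) 2
      refine one_div_le_one_div_of_le hpos (pow_le_pow_left₀ (abs_nonneg _) ?_ 2)
      refine le_trans (le_of_eq ?_) (abs_re_le_norm _)
      simp
  have hlim2 : Tendsto (fun ε : ℝ => scaleC * geomDeriv (ee ((x : ℂ) + ε * I))) (𝓝[>] (0 : ℝ))
      (𝓝 (scaleC * geomDeriv (ee x))) := by
    suffices ContinuousAt (fun z : ℂ => scaleC * geomDeriv (ee z)) (x : ℂ) from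
      this.tendsto.comp hpath
    have hee : ContinuousAt ee (x : ℂ) := (continuous_exp.comp (continuous_const_mul _)).continuousAt
    exact continuousAt_const.mul (hee.div ((continuousAt_const.sub hee).pow 2)
      (pow_ne_zero 2 (sub_ne_zero.mpr (Ne.symm h1))))
  refine tendsto_nhds_unique hlim (hlim2.congr' ?_)
  filter_upwards [self_mem_nhdsWithin] with ε (hε : (0 : ℝ) < ε)
  exact (rowSum_of_im_pos (by simpa using hε)).symm

/-- The general evaluation. -/
theorem rowSum_eq {w : ℂ} (hw : ∀ n : ℤ, w ≠ n) : rowSum w = scaleC * geomDeriv (ee w) := by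
  rcases lt_trichotomy w.im 0 with h | h | h
  · rw [← rowSum_neg, rowSum_of_im_pos (by simpa using h), ee_neg, geomDeriv_inv (ee_ne_zero w)]
  · obtain ⟨x, rfl⟩ : ∃ x : ℝ, w = x := ⟨w.re, Complex.ext rfl (by simp [h])⟩
    exact rowSum_of_real hw
  · exact rowSum_of_im_pos h

end Fermat.Agent.Mazur.Moduli

end
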