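import Mathlib.Analysis.Complex.LocallyUniformLimit
import Mathlib.NumberTheory.ModularForms.EisensteinSeries.Basic
import Fermat.Agent.Mazur.Moduli.RowSum
import Fermat.Agent.Mazur.Moduli.WpFormula

/-!
# The series of the normalised `℘` function of the lattice `ℤτ + ℤ`
-/

set_option autoImplicit false

noncomputable section

open Filter Topology Complex UpperHalfPlane
open scoped Real

namespace Fermat.Agent.Mazur.Moduli

theorem tau_indep (τ : ℍ) : LinearIndependent ℝ ![(τ : ℂ), 1] := by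
  rw [LinearIndependent.pair_iff]
  intro s t h
  have h1 := congrArg Complex.im h
  simp only [add_im, smul_im, one_im, smul_eq_mul, mul_zero, add_zero, Complex.zero_im] at h1
  have hs : s = 0 := (mul_eq_zero.mp h1).resolve_right τ.im_pos.ne'
  refine ⟨hs, ?_⟩
  simpa [hs] using h

/-- The lattice `ℤτ + ℤ`. -/
def tauPair (τ : ℍ) : PeriodPair := ⟨τ, 1, tau_indep τ⟩

theorem mem_tauPair {τ : ℍ} {z : ℂ} :
    z ∈ (tauPair τ).lattice ↔ ∃ m n : ℤ, (m : ℂ) * τ + n = z := by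
  rw [PeriodPair.mem_lattice]
  simp [tauPair]

theorem sub_mul_ne_intCast {τ : ℍ} {z : ℂ} (hz : z ∉ (tauPair τ).lattice) (m n : ℤ) :
    z + (m : ℂ) * τ ≠ n := fun h =>
  hz (mem_tauPair.mpr ⟨-m, n, by push_cast; linear_combination -h⟩)

/-- `℘ / (2πi)²` for the lattice `ℤτ + ℤ`. -/
def wpN (z : ℂ) (τ : ℍ) : ℂ := PeriodPair.weierstrassP (tauPair τ) z / scaleC

/-- The `m`-th pair of rows. -/
def pairRow (z : ℂ) (τ : ℂ) (m : ℕ) : ℂ :=
  geomDeriv (ee (z + (m + 1 : ℕ) * τ)) + geomDeriv (ee (z - (m + 1 : ℕ) * τ)) -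
    2 * geomDeriv (ee ((m + 1 : ℕ) * τ))

theorem natCast_mul_ne_intCast (τ : ℍ) {m : ℤ} (hm : m ≠ 0) (n : ℤ) : (m : ℂ) * τ ≠ n := fun h => by
  have h1 := congrArg Complex.im h
  simp only [mul_im, intCast_re, intCast_im, zero_mul, add_zero] at h1
  rcases mul_eq_zero.mp h1 with h2 | h2
  · exact hm (by exact_mod_cast h2)
  · exact τ.im_pos.ne' h2

theorem hasSum_rows (τ : ℍ) (z : ℂ) :
    HasSum (fun m : ℤ => rowSum (z - m * τ) - rowSum (-(m * τ)))
      (PeriodPair.weierstrassP (tauPair τ) z) := by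
  have h := ((tauPair τ).latticeEquivProd.toEquiv.symm.hasSum_iff).mpr
    ((tauPair τ).hasSum_weierstrassP z)
  refine h.prod_fiberwise fun m => ?_
  have e : ∀ n : ℤ, ((fun l : (tauPair τ).lattice => 1 / (z - l) ^ 2 - 1 / (l : ℂ) ^ 2) ∘
      (tauPair τ).latticeEquivProd.toEquiv.symm) (m, n) =
        1 / ((z - m * τ) + ((-n : ℤ) : ℂ)) ^ 2 - 1 / (-(m * τ) + ((-n : ℤ) : ℂ)) ^ 2 := by
    intro n
    show 1 / (z - (((tauPair τ).latticeEquivProd.symm (m, n)).1)) ^ 2 -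
      1 / (((tauPair τ).latticeEquivProd.symm (m, n)).1) ^ 2 = _
    rw [PeriodPair.latticeEquiv_symm_apply]
    simp only [tauPair, mul_one, Int.cast_neg]
    congr 2
    · ring
    · ring
  simp_rw [e]
  refine HasSum.sub ?_ ?_
  · exact ((Equiv.neg ℤ).hasSum_iff (f := fun n : ℤ => 1 / (z - m * τ + n) ^ 2)).mpr
      (summable_rowSum (z - m * τ)).hasSum
  · exact ((Equiv.neg ℤ).hasSum_iff (f := fun n : ℤ => 1 / (-((m : ℂ) * τ) + n) ^ 2)).mpr
      (summable_rowSum (-(m * τ))).hasSum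

/-- **The series of `℘`.** -/
theorem hasSum_pairRow {τ : ℍ} {z : ℂ} (hz : z ∉ (tauPair τ).lattice) :
    HasSum (pairRow z τ) (wpN z τ - (1 / 12 + geomDeriv (ee z))) := by
  set g : ℤ → ℂ := fun m => rowSum (z - m * τ) - rowSum (-(m * τ)) with hg
  have h := hasSum_rows τ z
  have hs := h.nat_add_neg_add_one
  have hs2 := h.nat_add_neg
  have hpair : ∀ m : ℕ, g ((m + 1 : ℕ) : ℤ) + g (-((m + 1 : ℕ) : ℤ)) = scaleC * pairRow z τ m := by
    intro m
    have hm : ((m + 1 : ℕ) : ℤ) ≠ 0 := by omega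
    have e1 : rowSum (-(((m + 1 : ℕ) : ℤ) * τ : ℂ)) = scaleC * geomDeriv (ee ((m + 1 : ℕ) * (τ : ℂ))) := by
      rw [rowSum_neg, rowSum_eq (natCast_mul_ne_intCast τ hm)]
      push_cast
      rfl
    simp only [hg, Int.cast_neg, neg_mul, neg_neg, sub_neg_eq_add]
    rw [e1, show rowSum (((m + 1 : ℕ) : ℤ) * τ : ℂ) = scaleC * geomDeriv (ee ((m + 1 : ℕ) * (τ : ℂ))) by
        rw [rowSum_eq (natCast_mul_ne_intCast τ hm)]; push_cast; rfl,
      rowSum_eq (fun n => by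
        have := sub_mul_ne_intCast hz (-((m + 1 : ℕ) : ℤ)) n
        rwa [Int.cast_neg, neg_mul, ← sub_eq_add_neg] at this),
      rowSum_eq (sub_mul_ne_intCast hz ((m + 1 : ℕ) : ℤ))]
    simp only [pairRow]
    push_cast
    ring
  have h0 : g 0 = scaleC * (1 / 12 + geomDeriv (ee z)) := by
    simp only [hg, Int.cast_zero, zero_mul, sub_zero, neg_zero]
    rw [rowSum_zero, rowSum_eq fun n => by simpa using sub_mul_ne_intCast hz 0 n]
    ring
  have h3 : HasSum (fun m : ℕ => g ((m + 1 : ℕ) : ℤ) + g (-((m + 1 : ℕ) : ℤ)))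
      (PeriodPair.weierstrassP (tauPair τ) z - g 0) := by
    have h4 := hs2
    rw [← hasSum_nat_add_iff' 1] at h4
    simp only [Finset.sum_range_one, Nat.cast_zero, neg_zero] at h4
    convert! h4 using 1
    ring
  simp_rw [hpair] at h3
  have h5 := h3.div_const scaleC
  simp only [mul_div_cancel_left₀ _ scaleC_ne_zero] at h5
  convert! h5 using 1
  rw [wpN, h0, sub_div, mul_div_cancel_left₀ _ scaleC_ne_zero]

theorem wpN_eq {τ : ℍ} {z : ℂ} (hz : z ∉ (tauPair τ).lattice) :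
    wpN z τ = 1 / 12 + geomDeriv (ee z) + ∑' m, pairRow z τ m := by
  rw [(hasSum_pairRow hz).tsum_eq]; ring

/-! ### Bounds -/

theorem norm_geomDeriv_le {u : ℂ} {r : ℝ} (hu : ‖u‖ ≤ r) (hr : r < 1) :
    ‖geomDeriv u‖ ≤ r / (1 - r) ^ 2 := by
  have h1 : 1 - r ≤ ‖1 - u‖ := le_trans (by simp; linarith) (norm_sub_norm_le 1 u)
  have h0 : 0 < 1 - r := by linarith
  rw [geomDeriv, norm_div, norm_pow]
  exact div_le_div₀ ((norm_nonneg _).trans hu) hu (pow_pos h0 2) (pow_le_pow_left₀ h0.le h1 2)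

theorem norm_geomDeriv_ee_le {w : ℂ} {δ : ℝ} (hδ : 0 < δ) (hw : δ ≤ |w.im|) :
    ‖geomDeriv (ee w)‖ ≤ Real.exp (-(2 * π * δ)) / (1 - Real.exp (-(2 * π * δ))) ^ 2 := by
  have hlt : Real.exp (-(2 * π * δ)) < 1 := by
    rw [Real.exp_lt_one_iff]; have := Real.pi_pos; nlinarith
  rcases abs_cases w.im with ⟨h, -⟩ | ⟨h, -⟩
  · refine norm_geomDeriv_le ?_ hlt
    rw [norm_ee]
    exact Real.exp_le_exp.mpr (by have := Real.pi_pos; nlinarith)
  · rw [← geomDeriv_inv (ee_ne_zero w), ← ee_neg]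
    refine norm_geomDeriv_le ?_ hlt
    rw [norm_ee]
    exact Real.exp_le_exp.mpr (by simp only [neg_im]; have := Real.pi_pos; nlinarith)

/-- The majorant `r^n` of the rows, `r = e^{-2π δ}`. -/
theorem norm_geomDeriv_ee_le_pow {w : ℂ} {δ : ℝ} (hδ : 0 < δ) (n : ℕ)
    (hw : ((n + 1 : ℕ) : ℝ) * δ ≤ |w.im|) :
    ‖geomDeriv (ee w)‖ ≤
      Real.exp (-(2 * π * δ)) / (1 - Real.exp (-(2 * π * δ))) ^ 2 * Real.exp (-(2 * π * δ)) ^ n := by
  have hlt : Real.exp (-(2 * π * δ)) < 1 := by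
    rw [Real.exp_lt_one_iff]; have := Real.pi_pos; nlinarith
  refine (norm_geomDeriv_ee_le (mul_pos (by positivity) hδ) hw).trans ?_
  rw [show -(2 * π * (((n + 1 : ℕ) : ℝ) * δ)) = ((n + 1 : ℕ) : ℝ) * (-(2 * π * δ)) by ring,
    Real.exp_nat_mul]
  set r := Real.exp (-(2 * π * δ))
  have hr0 : 0 < r := Real.exp_pos _
  have h1 : r ^ (n + 1) ≤ r := pow_le_of_le_one hr0.le hlt.le (Nat.succ_ne_zero n)
  rw [div_mul_eq_mul_div, ← pow_succ']
  refine div_le_div_of_nonneg_left (pow_nonneg hr0.le _) (pow_pos (by linarith) 2) ?_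
  exact pow_le_pow_left₀ (by linarith) (by linarith) 2

theorem norm_pairRow_le {z τ : ℂ} {δ : ℝ} (hδ : 0 < δ) (hτ : δ ≤ τ.im)
    (hz : |z.im| ≤ τ.im - δ) (m : ℕ) :
    ‖pairRow z τ m‖ ≤
      4 * (Real.exp (-(2 * π * δ)) / (1 - Real.exp (-(2 * π * δ))) ^ 2) *
        Real.exp (-(2 * π * δ)) ^ m := by
  have him : ∀ n : ℕ, ((n : ℂ) * τ).im = n * τ.im := fun n => by simp
  have hm : (m : ℝ) * δ ≤ m * τ.im := mul_le_mul_of_nonneg_left hτ m.cast_nonneg
  have hz' := abs_le.mp hz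
  have h1 := norm_geomDeriv_ee_le_pow hδ m (w := z + (m + 1 : ℕ) * τ) (by
    refine le_trans ?_ (le_abs_self _)
    rw [add_im, him]; push_cast; nlinarith)
  have h2 := norm_geomDeriv_ee_le_pow hδ m (w := z - (m + 1 : ℕ) * τ) (by
    refine le_trans ?_ (neg_le_abs _)
    rw [sub_im, him]; push_cast; nlinarith)
  have h3 := norm_geomDeriv_ee_le_pow hδ m (w := (m + 1 : ℕ) * τ) (by
    refine le_trans ?_ (le_abs_self _)
    rw [him]; push_cast; nlinarith [abs_nonneg z.im])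
  rw [pairRow]
  refine (norm_sub_le _ _).trans ?_
  rw [norm_mul, Complex.norm_ofNat]
  have := norm_add_le (geomDeriv (ee (z + (m + 1 : ℕ) * τ))) (geomDeriv (ee (z - (m + 1 : ℕ) * τ)))
  linarith

theorem norm_tsum_pairRow_le {z τ : ℂ} {δ : ℝ} (hδ : 0 < δ) (hτ : δ ≤ τ.im)
    (hz : |z.im| ≤ τ.im - δ) :
    ‖∑' m, pairRow z τ m‖ ≤
      4 * (Real.exp (-(2 * π * δ)) / (1 - Real.exp (-(2 * π * δ))) ^ 2) *
        (1 - Real.exp (-(2 * π * δ)))⁻¹ := by
  have hlt : Real.exp (-(2 * π * δ)) < 1 := by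
    rw [Real.exp_lt_one_iff]; have := Real.pi_pos; nlinarith
  exact tsum_of_norm_bounded ((hasSum_geometric_of_lt_one (Real.exp_pos _).le hlt).mul_left _)
    (norm_pairRow_le hδ hτ hz)

end Fermat.Agent.Mazur.Moduli

end
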