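import Mathlib.NumberTheory.ModularForms.LevelOne.GradedRing
import Mathlib.AlgebraicGeometry.EllipticCurve.VariableChange
import Fermat.Agent.Mazur.Moduli.WpSeries
import Fermat.Agent.Mazur.Moduli.WpPoint

/-!
# The curve of the lattice `ℤτ + ℤ` in terms of `E₄`, `E₆`
-/

set_option autoImplicit false

noncomputable section

open Complex UpperHalfPlane EisensteinSeries ModularForm
open scoped Real

namespace Fermat.Agent.Mazur.Moduli

theorem G_tauPair (τ : ℍ) {k : ℕ} (hk : 3 ≤ k) :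
    PeriodPair.G (tauPair τ) k = 2 * riemannZeta k * (E hk τ) := by
  have h1 : PeriodPair.G (tauPair τ) k = ∑' v : Fin 2 → ℤ, eisSummand k v τ := by
    rw [PeriodPair.G, ← ((tauPair τ).latticeEquivProd.toEquiv.symm).tsum_eq,
      ← (finTwoArrowEquiv ℤ).symm.tsum_eq (fun v : Fin 2 → ℤ => eisSummand k v τ)]
    refine tsum_congr fun x => ?_
    show ((((tauPair τ).latticeEquivProd.symm x).1) ^ k)⁻¹ = _
    rw [PeriodPair.latticeEquiv_symm_apply]
    simp [eisSummand, tauPair, finTwoArrowEquiv]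
  rw [h1, tsum_eisSummand_eq_riemannZeta_mul_eisensteinSeries hk,
    show E hk τ = (1 / 2 : ℂ) * eisensteinSeries (N := 1) 0 k τ from rfl]
  ring

theorem g2_tauPair (τ : ℍ) :
    PeriodPair.g₂ (tauPair τ) = scaleC ^ 2 * (E₄ τ / 12) := by
  rw [PeriodPair.g₂, G_tauPair τ (show 3 ≤ 4 by norm_num), scaleC_eq,
    show ((4 : ℕ) : ℂ) = 4 by norm_num, riemannZeta_four]
  ring

theorem g3_tauPair (τ : ℍ) :
    PeriodPair.g₃ (tauPair τ) = scaleC ^ 3 * (-(E₆ τ) / 216) := by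
  have hz : riemannZeta 6 = (π : ℂ) ^ 6 / 945 := by
    rw [show (6 : ℂ) = 2 * ((3 : ℕ) : ℂ) by norm_num, riemannZeta_two_mul_nat (by norm_num),
      show (bernoulli (2 * 3) : ℚ) = 1 / 42 by decide +kernel]
    norm_num [Nat.factorial]
    ring
  rw [PeriodPair.g₃, G_tauPair τ (show 3 ≤ 6 by norm_num), scaleC_eq,
    show ((6 : ℕ) : ℂ) = 6 by norm_num, hz]
  ring

/-- The curve `y² = x³ - E₄/48 x + E₆/864`, uniformised by `℘ / (2πi)²`. -/
def tauCurve (τ : ℍ) : WeierstrassCurve ℂ := ⟨0, 0, 0, -(E₄ τ) / 48, (E₆ τ) / 864⟩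

theorem tauCurve_Δ (τ : ℍ) : (tauCurve τ).Δ = discriminant τ := by
  rw [discriminant_eq_E₄_cube_sub_E₆_sq]
  simp [tauCurve, WeierstrassCurve.Δ, WeierstrassCurve.b₂, WeierstrassCurve.b₄,
    WeierstrassCurve.b₆, WeierstrassCurve.b₈]
  ring

theorem wpCurve_a₄ (τ : ℍ) : (wpCurve (tauPair τ)).a₄ = scaleC ^ 2 * (tauCurve τ).a₄ := by
  simp only [wpCurve, tauCurve, g2_tauPair]; ring

theorem wpCurve_a₆ (τ : ℍ) : (wpCurve (tauPair τ)).a₆ = scaleC ^ 3 * (tauCurve τ).a₆ := by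
  simp only [wpCurve, tauCurve, g3_tauPair]; ring

theorem wpCurve_Δ (τ : ℍ) : (wpCurve (tauPair τ)).Δ = scaleC ^ 6 * (tauCurve τ).Δ := by
  simp only [WeierstrassCurve.Δ, WeierstrassCurve.b₂, WeierstrassCurve.b₄, WeierstrassCurve.b₆,
    WeierstrassCurve.b₈, wpCurve_a₄, wpCurve_a₆]
  simp [wpCurve, tauCurve]
  ring

instance (τ : ℍ) : (wpCurve (tauPair τ)).IsElliptic :=
  ⟨isUnit_iff_ne_zero.mpr (by
    rw [wpCurve_Δ, tauCurve_Δ]
    exact mul_ne_zero (pow_ne_zero _ scaleC_ne_zero) (discriminant_ne_zero τ))⟩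

end Fermat.Agent.Mazur.Moduli

end
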