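import Fermat.Agent.X0Analytic.Modular
import Fermat.Agent.Mazur.Moduli.TauCurve

/-!
# The functions `U ((a τ + b) / p)` on `ℍ` and their symmetric products in level `Γ₀(p)`
-/

set_option autoImplicit false

noncomputable section

open Filter Topology Complex UpperHalfPlane
open scoped Real Manifold MatrixGroups ModularForm

namespace Fermat.Agent.Mazur.Moduli

open X0Analytic

local notation "Δ" => ModularForm.discriminant

/-! ### Homogeneity and periodicity of `℘ / (2πi)²` -/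

theorem weierstrassP_scale (L L' : PeriodPair) {c : ℂ} (hc : c ≠ 0)
    (h : ∀ z : ℂ, z ∈ L.lattice ↔ z / c ∈ L'.lattice) (z : ℂ) :
    PeriodPair.weierstrassP L' (z / c) = c ^ 2 * PeriodPair.weierstrassP L z := by
  set e : L.lattice ≃ L'.lattice :=
    { toFun := fun l => ⟨(l : ℂ) / c, (h l).mp l.2⟩
      invFun := fun l => ⟨(l : ℂ) * c, (h _).mpr (by rw [mul_div_cancel_right₀ _ hc]; exact l.2)⟩
      left_inv := fun l => Subtype.ext (div_mul_cancel₀ _ hc)
      right_inv := fun l => Subtype.ext (mul_div_cancel_right₀ _ hc) }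
  rw [PeriodPair.weierstrassP, PeriodPair.weierstrassP, ← e.tsum_eq, ← tsum_mul_left]
  refine tsum_congr fun l => ?_
  show 1 / (z / c - (l : ℂ) / c) ^ 2 - 1 / ((l : ℂ) / c) ^ 2 = _
  rw [← sub_div, div_pow, div_pow, one_div_div, one_div_div]
  ring

theorem wpN_add_lattice (z : ℂ) (τ : ℍ) (m n : ℤ) :
    wpN (z + ((m : ℂ) * τ + n)) τ = wpN z τ := by
  rw [wpN, wpN]
  congr 1
  exact PeriodPair.weierstrassP_add_coe (tauPair τ) z
    ⟨_, mem_tauPair.mpr ⟨m, n, rfl⟩⟩

theorem wpN_smul (γ : SL(2, ℤ)) (τ : ℍ) (z : ℂ) :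
    wpN (z / UpperHalfPlane.denom (γ : GL (Fin 2) ℝ) τ) (γ • τ) =
      UpperHalfPlane.denom (γ : GL (Fin 2) ℝ) τ ^ 2 * wpN z τ := by
  set c := UpperHalfPlane.denom (γ : GL (Fin 2) ℝ) (τ : ℂ) with hc
  have hc0 : c ≠ 0 := UpperHalfPlane.denom_ne_zero _ τ
  have hsmul : ((γ • τ : ℍ) : ℂ) = ((γ 0 0 : ℂ) * τ + (γ 0 1 : ℂ)) / c := by
    rw [hc, UpperHalfPlane.coe_specialLinearGroup_apply, ModularGroup.denom_apply]
    simp
  have hc' : c = (γ 1 0 : ℂ) * τ + (γ 1 1 : ℂ) := by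
    rw [hc, ModularGroup.denom_apply]
  have hdet := Matrix.SpecialLinearGroup.det_coe γ
  rw [Matrix.det_fin_two] at hdet
  have hdet' : (γ 0 0 : ℂ) * (γ 1 1 : ℂ) - (γ 0 1 : ℂ) * (γ 1 0 : ℂ) = 1 := by
    exact_mod_cast hdet
  have hlat : ∀ w : ℂ, w ∈ (tauPair τ).lattice ↔ w / c ∈ (tauPair (γ • τ)).lattice := by
    intro w
    simp only [mem_tauPair, hsmul]
    constructor
    · rintro ⟨m, n, rfl⟩
      refine ⟨γ 1 1 * m - γ 1 0 * n, -(γ 0 1) * m + γ 0 0 * n, ?_⟩
      push_cast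
      field_simp
      rw [hc']
      linear_combination ((m : ℂ) * τ + n) * hdet'
    · rintro ⟨m, n, h⟩
      refine ⟨m * γ 0 0 + n * γ 1 0, m * γ 0 1 + n * γ 1 1, ?_⟩
      field_simp at h
      rw [hc'] at h
      push_cast
      linear_combination h
  rw [wpN, wpN, weierstrassP_scale _ _ hc0 hlat, mul_div_assoc]

/-! ### The functions `uVec` -/

variable {p : ℕ} [Fact p.Prime]

/-- The argument `(a τ + b) / p`. -/
def zArg (v : ZMod p × ZMod p) (τ : ℂ) : ℂ := ((v.1.val : ℂ) * τ + (v.2.val : ℂ)) / p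

/-- `-℘ E₄ E₆ / Δ` at the point `(a τ + b) / p`. -/
def uVec (v : ZMod p × ZMod p) (τ : ℍ) : ℂ :=
  -wpN (zArg v τ) τ * ModularForm.E₄ τ * ModularForm.E₆ τ / Δ τ

theorem natCast_p_ne_zero : (p : ℂ) ≠ 0 := Nat.cast_ne_zero.mpr (Fact.out : p.Prime).ne_zero

theorem exists_sub_val (a : ℤ) {x : ZMod p} (h : (a : ZMod p) = x) :
    ∃ m : ℤ, a = (x.val : ℤ) + p * m := by
  have h1 : ((a - (x.val : ℤ) : ℤ) : ZMod p) = 0 := by
    push_cast
    rw [h, ZMod.natCast_zmod_val, sub_self]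
  obtain ⟨m, hm⟩ := (ZMod.intCast_zmod_eq_zero_iff_dvd _ p).mp h1
  exact ⟨m, by linarith⟩

theorem wpN_intArg {v : ZMod p × ZMod p} {a b : ℤ} (ha : (a : ZMod p) = v.1)
    (hb : (b : ZMod p) = v.2) (τ : ℍ) :
    wpN (((a : ℂ) * τ + b) / p) τ = wpN (zArg v τ) τ := by
  obtain ⟨m, rfl⟩ := exists_sub_val a ha
  obtain ⟨n, rfl⟩ := exists_sub_val b hb
  rw [← wpN_add_lattice (zArg v τ) τ m n]
  congr 1
  have := natCast_p_ne_zero (p := p)
  rw [zArg]
  push_cast
  field_simp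
  ring

theorem uVec_eq {v : ZMod p × ZMod p} {a b : ℤ} (ha : (a : ZMod p) = v.1)
    (hb : (b : ZMod p) = v.2) (τ : ℍ) :
    uVec v τ = -wpN (((a : ℂ) * τ + b) / p) τ * ModularForm.E₄ τ * ModularForm.E₆ τ / Δ τ := by
  rw [wpN_intArg ha hb, uVec]

/-- The right action of `SL(2, ℤ)` on row vectors modulo `p`. -/
def rowMul (v : ZMod p × ZMod p) (γ : SL(2, ℤ)) : ZMod p × ZMod p :=
  (v.1 * (γ 0 0 : ℤ) + v.2 * (γ 1 0 : ℤ), v.1 * (γ 0 1 : ℤ) + v.2 * (γ 1 1 : ℤ))

theorem rowMul_mul (v : ZMod p × ZMod p) (g h : SL(2, ℤ)) :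
    rowMul v (g * h) = rowMul (rowMul v g) h := by
  simp only [rowMul, Matrix.SpecialLinearGroup.coe_mul, Matrix.mul_apply, Fin.sum_univ_two]
  push_cast
  ext <;> simp <;> ring

theorem rowMul_one (v : ZMod p × ZMod p) : rowMul v 1 = v := by simp [rowMul]

theorem uVec_smul (v : ZMod p × ZMod p) (γ : SL(2, ℤ)) (τ : ℍ) :
    uVec v (γ • τ) = uVec (rowMul v γ) τ := by
  set A : ℤ := γ 0 0
  set B : ℤ := γ 0 1
  set C : ℤ := γ 1 0
  set D : ℤ := γ 1 1
  rw [uVec_eq (v := rowMul v γ) (a := v.1.val * A + v.2.val * C) (b := v.1.val * B + v.2.val * D)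
    (by simp [rowMul, A, C]) (by simp [rowMul, B, D]),
    uVec_eq (v := v) (a := v.1.val) (b := v.2.val) (by simp) (by simp)]
  set c := UpperHalfPlane.denom (γ : GL (Fin 2) ℝ) (τ : ℂ) with hc
  have hc0 : c ≠ 0 := UpperHalfPlane.denom_ne_zero _ τ
  have hp := natCast_p_ne_zero (p := p)
  have hsmul : ((γ • τ : ℍ) : ℂ) = ((A : ℂ) * τ + (B : ℂ)) / c := by
    rw [hc, UpperHalfPlane.coe_specialLinearGroup_apply, ModularGroup.denom_apply]
    simp [A, B]
  have hc' : c = (C : ℂ) * τ + (D : ℂ) := by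
    rw [hc, ModularGroup.denom_apply]
  have harg : ((((v.1.val : ℕ) : ℤ) : ℂ) * ((γ • τ : ℍ) : ℂ) + (((v.2.val : ℕ) : ℤ) : ℂ)) / p =
      ((((v.1.val * A + v.2.val * C : ℤ)) : ℂ) * τ + ((v.1.val * B + v.2.val * D : ℤ) : ℂ)) / p / c := by
    rw [hsmul]
    push_cast
    field_simp
    rw [hc']
    ring
  rw [harg, wpN_smul, levelOne_smul, levelOne_smul, discriminant_smul, ← hc]
  have hΔ := ModularForm.discriminant_ne_zero τ
  norm_num
  field_simp

/-! ### Holomorphy and behaviour at infinity -/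

theorem zArg_notMem {v : ZMod p × ZMod p} (hv : v ≠ 0) (τ : ℍ) :
    zArg v τ ∉ (tauPair τ).lattice := by
  intro h
  obtain ⟨m, n, h⟩ := mem_tauPair.mp h
  have hp := natCast_p_ne_zero (p := p)
  rw [zArg, eq_div_iff hp] at h
  have h1 : ((v.1.val : ℤ) - m * p : ℤ) * (τ : ℂ) = ((n * p - v.2.val : ℤ) : ℂ) := by
    push_cast
    linear_combination -h
  have hm : ((v.1.val : ℤ) - m * p : ℤ) = 0 := by
    by_contra hne
    exact natCast_mul_ne_intCast τ hne _ h1
  rw [hm, Int.cast_zero, zero_mul] at h1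
  have hn : (n * p - v.2.val : ℤ) = 0 := by exact_mod_cast h1.symm
  refine hv (Prod.ext ?_ ?_)
  · have := congrArg (fun x : ℤ => (x : ZMod p)) hm
    simpa [ZMod.natCast_zmod_val] using this
  · have := congrArg (fun x : ℤ => (x : ZMod p)) hn
    simpa [ZMod.natCast_zmod_val] using this

theorem abs_im_zArg (v : ZMod p × ZMod p) {τ : ℂ} (hτ : 0 < τ.im) :
    |(zArg v τ).im| ≤ τ.im - τ.im / p := by
  have hp : (0 : ℝ) < p := Nat.cast_pos.mpr (Fact.out : p.Prime).pos
  have him : (zArg v τ).im = (v.1.val : ℝ) * τ.im / p := by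
    rw [zArg]; simp [-ZMod.natCast_val]
  have hle : (v.1.val : ℝ) + 1 ≤ p := by exact_mod_cast ZMod.val_lt v.1
  rw [him, abs_of_nonneg (by positivity), show τ.im - τ.im / p = ((p : ℝ) - 1) * τ.im / p by
    field_simp]
  gcongr
  linarith

theorem wpN_mdiff {v : ZMod p × ZMod p} (hv : v ≠ 0) :
    MDiff (fun τ : ℍ => wpN (zArg v τ) τ) := by
  rw [UpperHalfPlane.mdifferentiable_iff]
  intro w hw
  have hp : (0 : ℝ) < p := Nat.cast_pos.mpr (Fact.out : p.Prime).pos
  set U : Set ℂ := {z | w.im / 2 < z.im} with hU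
  have hUo : IsOpen U := isOpen_lt continuous_const Complex.continuous_im
  have hw2 : 0 < w.im := hw
  have hwU : w ∈ U := by show w.im / 2 < w.im; linarith
  have hpos : ∀ z ∈ U, 0 < z.im := fun z hz => by
    have : w.im / 2 < z.im := hz
    linarith
  set δ : ℝ := w.im / 2 / p with hδ'
  have hδ : 0 < δ := by positivity
  have hz : ∀ z ∈ U, δ ≤ z.im ∧ |(zArg v z).im| ≤ z.im - δ := by
    intro z hz
    have hlt : w.im / 2 < z.im := hz
    have h0 := hpos z hz
    have h1 : δ ≤ z.im / p := by rw [hδ']; gcongr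
    refine ⟨h1.trans (div_le_self h0.le (by exact_mod_cast (Fact.out : p.Prime).one_le)), ?_⟩
    linarith [abs_im_zArg v h0]
  have hne : ∀ (m : ℤ), ∀ z ∈ U, ee (zArg v z + (m : ℂ) * z) ≠ 1 := by
    intro m z hz h
    obtain ⟨n, hn⟩ := ee_eq_one_iff.mp h
    exact sub_mul_ne_intCast (zArg_notMem hv ⟨z, hpos z hz⟩) m n hn
  have hne' : ∀ (m : ℕ), ∀ z ∈ U, ee ((m + 1 : ℕ) * z) ≠ 1 := by
    intro m z hz h
    obtain ⟨n, hn⟩ := ee_eq_one_iff.mp h
    exact natCast_mul_ne_intCast ⟨z, hpos z hz⟩ (m := ((m + 1 : ℕ) : ℤ)) (by omega) n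
      (by rw [Int.cast_natCast]; exact hn)
  have hgd : ∀ f : ℂ → ℂ, Differentiable ℂ f → (∀ z ∈ U, ee (f z) ≠ 1) →
      DifferentiableOn ℂ (fun z => geomDeriv (ee (f z))) U := by
    intro f hf hf1 z hz
    have he : DifferentiableAt ℂ (fun z => ee (f z)) z := by
      simp only [ee]
      exact ((hf z).const_mul _).cexp
    exact ((he.div (((differentiableAt_const (1 : ℂ)).sub he).pow 2)
      (pow_ne_zero 2 (sub_ne_zero.mpr (Ne.symm (hf1 z hz)))))).differentiableWithinAt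
  have hza : Differentiable ℂ (zArg v) := by
    show Differentiable ℂ fun τ => ((v.1.val : ℂ) * τ + (v.2.val : ℂ)) / p
    fun_prop
  have hdiff : DifferentiableOn ℂ
      (fun z => 1 / 12 + geomDeriv (ee (zArg v z)) + ∑' m, pairRow (zArg v z) z m) U := by
    refine ((differentiableOn_const _).add (hgd _ hza fun z hz => ?_)).add ?_
    · simpa using hne 0 z hz
    refine differentiableOn_tsum_of_summable_norm
      (u := fun m => 4 * (Real.exp (-(2 * π * δ)) / (1 - Real.exp (-(2 * π * δ))) ^ 2) *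
        Real.exp (-(2 * π * δ)) ^ m) ?_ ?_ hUo
      (fun m z hzU => norm_pairRow_le hδ (hz z hzU).1 (hz z hzU).2 m)
    · refine (summable_geometric_of_lt_one (Real.exp_pos _).le ?_).mul_left _
      rw [Real.exp_lt_one_iff]; have := Real.pi_pos; nlinarith
    · intro m
      refine ((hgd (fun z => zArg v z + (m + 1 : ℕ) * z) (hza.add (differentiable_id.const_mul _))
        fun z hz => ?_).add (hgd (fun z => zArg v z - (m + 1 : ℕ) * z)
          (hza.sub (differentiable_id.const_mul _)) fun z hz => ?_)).sub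
        ((hgd (fun z => (m + 1 : ℕ) * z) (differentiable_id.const_mul _)
          fun z hz => hne' m z hz).const_mul 2)
      · simpa using hne ((m + 1 : ℕ) : ℤ) z hz
      · have := hne (-((m + 1 : ℕ) : ℤ)) z hz
        rwa [Int.cast_neg, neg_mul, ← sub_eq_add_neg, Int.cast_natCast] at this
  refine ((hdiff.differentiableAt (hUo.mem_nhds hwU)).congr_of_eventuallyEq ?_).differentiableWithinAt
  filter_upwards [hUo.mem_nhds hwU] with z hz
  simp only [Function.comp_apply, ofComplex_apply_of_im_pos (hpos z hz)]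
  exact wpN_eq (zArg_notMem hv ⟨z, hpos z hz⟩)

theorem wpN_mdiff' (v : ZMod p × ZMod p) : MDiff (fun τ : ℍ => wpN (zArg v τ) τ) := by
  rcases eq_or_ne v 0 with rfl | hv
  · have : (fun τ : ℍ => wpN (zArg (0 : ZMod p × ZMod p) τ) τ) = fun _ => (0 : ℂ) := by
      funext τ
      have hz : zArg (0 : ZMod p × ZMod p) (τ : ℂ) = 0 := by simp [zArg]
      rw [hz, wpN, PeriodPair.weierstrassP_zero, zero_div]
    rw [this]
    exact mdifferentiable_const
  · exact wpN_mdiff hv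

theorem uVec_mdiff (v : ZMod p × ZMod p) : MDiff (uVec v) := by
  have h := UpperHalfPlane.mdifferentiable_iff.mp (wpN_mdiff' v)
  exact UpperHalfPlane.mdifferentiable_iff.mpr
    ((((h.neg).mul (UpperHalfPlane.mdifferentiable_iff.mp ModularForm.E₄.holo')).mul
      (UpperHalfPlane.mdifferentiable_iff.mp ModularForm.E₆.holo')).div
      (UpperHalfPlane.mdifferentiable_iff.mp CuspForm.discriminant.holo')
      fun _ _ => ModularForm.discriminant_ne_zero _)

/-- The limit of `℘ / (2πi)²` at `(a τ + b) / p` as `τ → i∞`. -/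
def wpLimit (v : ZMod p × ZMod p) : ℂ :=
  if v.1 = 0 then 1 / 12 + geomDeriv (ee ((v.2.val : ℂ) / p)) else 1 / 12

theorem tendsto_r :
    Tendsto (fun τ : ℍ => Real.exp (-(2 * π * (τ.im / p)))) atImInfty (𝓝 0) := by
  have hp : (0 : ℝ) < p := Nat.cast_pos.mpr (Fact.out : p.Prime).pos
  refine Real.tendsto_exp_atBot.comp (tendsto_neg_atTop_atBot.comp ?_)
  refine Filter.Tendsto.const_mul_atTop (by positivity) ?_
  exact (tendsto_comap : Tendsto UpperHalfPlane.im atImInfty atTop).atTop_div_const hp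

theorem tendsto_tsum_pairRow (v : ZMod p × ZMod p) :
    Tendsto (fun τ : ℍ => ∑' m, pairRow (zArg v τ) τ m) atImInfty (𝓝 0) := by
  have hp : (0 : ℝ) < p := Nat.cast_pos.mpr (Fact.out : p.Prime).pos
  refine squeeze_zero_norm (a := fun τ : ℍ =>
      4 * (Real.exp (-(2 * π * (τ.im / p))) / (1 - Real.exp (-(2 * π * (τ.im / p)))) ^ 2) *
        (1 - Real.exp (-(2 * π * (τ.im / p))))⁻¹) (fun τ => ?_) ?_
  · exact norm_tsum_pairRow_le (div_pos τ.im_pos hp)
      (div_le_self τ.im_pos.le (by exact_mod_cast (Fact.out : p.Prime).one_le))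
      (abs_im_zArg v τ.im_pos)
  · have h := tendsto_r (p := p)
    have h2 := (((h.div ((h.const_sub 1).pow 2) (by norm_num)).const_mul 4).mul
      ((h.const_sub 1).inv₀ (by norm_num)))
    simpa using h2

theorem tendsto_wpN {v : ZMod p × ZMod p} (hv : v ≠ 0) :
    Tendsto (fun τ : ℍ => wpN (zArg v τ) τ) atImInfty (𝓝 (wpLimit v)) := by
  have hp : (0 : ℝ) < p := Nat.cast_pos.mpr (Fact.out : p.Prime).pos
  have hsum : Tendsto (fun τ : ℍ => 1 / 12 + geomDeriv (ee (zArg v τ))) atImInfty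
      (𝓝 (wpLimit v)) := by
    rw [wpLimit]
    split_ifs with h
    · simp [zArg, h]
    · conv => arg 3; rw [show (1 / 12 : ℂ) = 1 / 12 + (0 : ℂ) / (1 - 0) ^ 2 by simp]
      refine Tendsto.const_add _ ?_
      have he : Tendsto (fun τ : ℍ => ee (zArg v τ)) atImInfty (𝓝 0) := by
        refine squeeze_zero_norm (fun τ => ?_) (tendsto_r (p := p))
        rw [norm_ee]
        refine Real.exp_le_exp.mpr ?_
        have h1 : (1 : ℝ) ≤ v.1.val := by
          exact_mod_cast Nat.one_le_iff_ne_zero.mpr fun h0 => h ((ZMod.val_eq_zero _).mp h0)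
        have him : (zArg v τ).im = (v.1.val : ℝ) * (τ.im / p) := by
          rw [zArg]; simp [mul_div_assoc, -ZMod.natCast_val]
        rw [him]
        have := mul_le_mul_of_nonneg_right h1 (div_nonneg τ.im_pos.le hp.le)
        rw [one_mul] at this
        nlinarith [Real.pi_pos]
      exact he.div ((he.const_sub 1).pow 2) (by norm_num)
  have := hsum.add (tendsto_tsum_pairRow v)
  rw [add_zero] at this
  exact this.congr fun τ => (wpN_eq (zArg_notMem hv τ)).symm

theorem qp_div_discriminant_isBounded :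
    IsBoundedAtImInfty (fun τ => qp 1 τ / Δ τ) := by
  refine (Asymptotics.div_isBoundedUnder_of_isBigO (α := ℍ) ?_).isBigO_one ℝ
  refine Asymptotics.IsBigO.trans (Asymptotics.isBigO_of_le _ fun τ => le_of_eq ?_)
    ModularForm.exp_isBigO_discriminant
  simp [qp, Function.Periodic.qParam, Complex.norm_exp]

theorem E4_E6_div_isBounded :
    IsBoundedAtImInfty
      (fun τ : ℍ => ModularForm.E₄ τ * ModularForm.E₆ τ * (qp 1 τ / Δ τ)) :=
  Filter.BoundedAtFilter.mul (Filter.BoundedAtFilter.mul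
    (ModularFormClass.bdd_at_infty ModularForm.E₄) (ModularFormClass.bdd_at_infty ModularForm.E₆))
    qp_div_discriminant_isBounded

omit [Fact p.Prime] in
theorem uVec_mul_qp_eq (v : ZMod p × ZMod p) (τ : ℍ) :
    uVec v τ * qp 1 τ =
      -wpN (zArg v τ) τ * (ModularForm.E₄ τ * ModularForm.E₆ τ * (qp 1 τ / Δ τ)) := by
  rw [uVec]; ring

theorem uVec_mul_qp_isBounded (v : ZMod p × ZMod p) :
    IsBoundedAtImInfty (fun τ => uVec v τ * qp 1 τ) := by
  simp_rw [uVec_mul_qp_eq]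
  refine Filter.BoundedAtFilter.mul (Filter.BoundedAtFilter.neg ?_) E4_E6_div_isBounded
  rcases eq_or_ne v 0 with rfl | hv
  · have : (fun τ : ℍ => wpN (zArg (0 : ZMod p × ZMod p) τ) τ) = fun _ => (0 : ℂ) := by
      funext τ
      have hz : zArg (0 : ZMod p × ZMod p) (τ : ℂ) = 0 := by simp [zArg]
      rw [hz, wpN, PeriodPair.weierstrassP_zero, zero_div]
    show Filter.BoundedAtFilter atImInfty _
    rw [this]
    exact Filter.const_boundedAtFilter _ _
  · exact (tendsto_wpN hv).isBigO_one ℝ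

theorem tendsto_uVec_sub_mul_qp {v w : ZMod p × ZMod p} (hv : v.1 ≠ 0) (hw : w.1 ≠ 0) :
    Tendsto (fun τ => (uVec v τ - uVec w τ) * qp 1 τ) atImInfty (𝓝 0) := by
  have hv0 : v ≠ 0 := fun h => hv (by rw [h]; rfl)
  have hw0 : w ≠ 0 := fun h => hw (by rw [h]; rfl)
  have h := (tendsto_wpN hw0).sub (tendsto_wpN hv0)
  rw [wpLimit, wpLimit, if_neg hv, if_neg hw, sub_self] at h
  have h2 := Filter.ZeroAtFilter.mul_boundedAtFilter h E4_E6_div_isBounded
  refine h2.congr fun τ => ?_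
  rw [sub_mul, uVec_mul_qp_eq, uVec_mul_qp_eq]
  simp only [Pi.mul_apply]
  ring

theorem uVec_isPer (v : ZMod p × ZMod p) : IsPer p (uVec v) := fun τ => by
  have h : ((p : ℝ) +ᵥ τ : ℍ) = (ModularGroup.T ^ (p : ℤ)) • τ := by
    rw [UpperHalfPlane.modular_T_zpow_smul]; simp
  rw [h, uVec_smul]
  congr 1
  simp only [rowMul, ModularGroup.coe_T_zpow]
  simp

theorem uVec_mem (v : ZMod p × ZMod p) : uVec v ∈ perMero p := by
  refine ⟨uVec_mdiff v, uVec_isPer v, p, ?_⟩
  have h : uVec v * qp p ^ p = fun τ => uVec v τ * qp 1 τ := funext fun τ => by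
    simp only [Pi.mul_apply, Pi.pow_apply]
    congr 1
    simp only [qp, Function.Periodic.qParam, ← Complex.exp_nat_mul]
    congr 1
    have := natCast_p_ne_zero (p := p)
    push_cast
    field_simp
  rw [h]
  exact uVec_mul_qp_isBounded v

/-! ### Symmetric products -/

/-- The product over `s` of `a + α u_k + β u_l`, where `u_k = uVec (0, k)`. -/
def prodFun (s : Finset (ZMod p × ZMod p)) (a α β : ℂ) (τ : ℍ) : ℂ :=
  ∏ q ∈ s, (a + α * uVec (0, q.1) τ + β * uVec (0, q.2) τ)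

/-- `s` is stable under scaling by units. -/
def ScaleStable (s : Finset (ZMod p × ZMod p)) : Prop :=
  ∀ c : ZMod p, c ≠ 0 → ∀ q ∈ s, (c * q.1, c * q.2) ∈ s

theorem prod_scale {M : Type*} [CommMonoid M] {s : Finset (ZMod p × ZMod p)} (hs : ScaleStable s)
    {c : ZMod p} (hc : c ≠ 0) (f : ZMod p × ZMod p → M) :
    ∏ q ∈ s, f (c * q.1, c * q.2) = ∏ q ∈ s, f q := by
  refine Finset.prod_bij (fun q _ => (c * q.1, c * q.2)) (hs c hc) (fun a _ b _ h => ?_)
    (fun b hb => ⟨(c⁻¹ * b.1, c⁻¹ * b.2), hs c⁻¹ (inv_ne_zero hc) b hb, ?_⟩) fun _ _ => rfl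
  · simp only [Prod.mk.injEq] at h
    exact Prod.ext (mul_left_cancel₀ hc h.1) (mul_left_cancel₀ hc h.2)
  · simp [mul_inv_cancel_left₀ hc]

theorem exists_unit_of_mem_Gamma0 {γ : SL(2, ℤ)} (hγ : γ ∈ CongruenceSubgroup.Gamma0 p) :
    ∃ c : ZMod p, c ≠ 0 ∧ ∀ k : ZMod p, rowMul (0, k) γ = (0, c * k) := by
  rw [CongruenceSubgroup.Gamma0_mem] at hγ
  refine ⟨(γ 1 1 : ℤ), ?_, fun k => by simp [rowMul, hγ, mul_comm]⟩
  intro h
  have hdet := Matrix.SpecialLinearGroup.det_coe γ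
  rw [Matrix.det_fin_two] at hdet
  have := congrArg (fun x : ℤ => (x : ZMod p)) hdet
  simp [hγ, h] at this

theorem prodFun_smul_of_mem {s : Finset (ZMod p × ZMod p)} (hs : ScaleStable s) (a α β : ℂ)
    {γ : SL(2, ℤ)} (hγ : γ ∈ CongruenceSubgroup.Gamma0 p) (τ : ℍ) :
    prodFun s a α β (γ • τ) = prodFun s a α β τ := by
  obtain ⟨c, hc, hrow⟩ := exists_unit_of_mem_Gamma0 hγ
  simp only [prodFun, uVec_smul, hrow]
  exact prod_scale hs hc fun q => a + α * uVec (0, q.1) τ + β * uVec (0, q.2) τ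

theorem prodFun_comp_mem (s : Finset (ZMod p × ZMod p)) (a α β : ℂ) (g : SL(2, ℤ)) :
    (fun τ : ℍ => prodFun s a α β (g • τ)) ∈ perMero p := by
  have h : (fun τ : ℍ => prodFun s a α β (g • τ)) = ∏ q ∈ s, (algebraMap ℂ (ℍ → ℂ) a +
      α • uVec (rowMul (0, q.1) g) + β • uVec (rowMul (0, q.2) g)) := by
    funext τ
    simp only [prodFun, uVec_smul, Finset.prod_apply, Pi.add_apply, Pi.smul_apply, smul_eq_mul,
      Pi.algebraMap_apply, Algebra.algebraMap_self, RingHom.id_apply]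
  rw [h]
  exact prod_mem fun q _ => add_mem (add_mem (Subalgebra.algebraMap_mem _ a)
    (Subalgebra.smul_mem _ (uVec_mem _) α)) (Subalgebra.smul_mem _ (uVec_mem _) β)

theorem prodFun_mem {s : Finset (ZMod p × ZMod p)} (hs : ScaleStable s) (a α β : ℂ) :
    prodFun s a α β ∈ modFun p := by
  refine ⟨?_, fun γ hγ τ => prodFun_smul_of_mem hs a α β hγ τ, prodFun_comp_mem s a α β⟩
  have h := (prodFun_comp_mem s a α β 1).1
  simpa using h

/-- The pairs `(k, 0)`, `k ≠ 0`. -/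
def singleSet (p : ℕ) [Fact p.Prime] : Finset (ZMod p × ZMod p) :=
  Finset.univ.filter fun q => q.1 ≠ 0 ∧ q.2 = 0

/-- The pairs of non-zero `k ≠ ± l`. -/
def pairSet (p : ℕ) [Fact p.Prime] : Finset (ZMod p × ZMod p) :=
  Finset.univ.filter fun q => q.1 ≠ 0 ∧ q.2 ≠ 0 ∧ q.1 ≠ q.2 ∧ q.1 ≠ -q.2

theorem scaleStable_singleSet : ScaleStable (singleSet p) := fun c hc q hq => by
  simp only [singleSet, Finset.mem_filter, Finset.mem_univ, true_and] at hq ⊢
  exact ⟨mul_ne_zero hc hq.1, by simp [hq.2]⟩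

theorem scaleStable_pairSet : ScaleStable (pairSet p) := fun c hc q hq => by
  simp only [pairSet, Finset.mem_filter, Finset.mem_univ, true_and] at hq ⊢
  exact ⟨mul_ne_zero hc hq.1, mul_ne_zero hc hq.2.1, fun h => hq.2.2.1 (mul_left_cancel₀ hc h),
    fun h => hq.2.2.2 (mul_left_cancel₀ hc (by rw [h, mul_neg]))⟩

theorem pairSet_nonempty (hp : 5 ≤ p) : (pairSet p).Nonempty := by
  have hne : ∀ n : ℕ, 0 < n → n < p → (n : ZMod p) ≠ 0 := fun n h0 hn h => by
    rw [ZMod.natCast_eq_zero_iff] at h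
    exact absurd (Nat.le_of_dvd h0 h) (not_le.mpr hn)
  refine ⟨(1, 2), ?_⟩
  simp only [pairSet, Finset.mem_filter, Finset.mem_univ, true_and]
  refine ⟨one_ne_zero, by simpa using hne 2 two_pos (by omega), fun h => ?_, fun h => ?_⟩
  · exact hne 1 one_pos (by omega) (by push_cast; linear_combination -h)
  · exact hne 3 (by omega) (by omega) (by push_cast; linear_combination h)

end Fermat.Agent.Mazur.Moduli

end
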