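import Mathlib.NumberTheory.TsumDivisorsAntidiagonal
import Mathlib.Analysis.SpecificLimits.Normed
import Mathlib.RingTheory.RootsOfUnity.Complex
import Mathlib.RingTheory.RootsOfUnity.AlgebraicallyClosed
import Fermat.Agent.X0Analytic.Ser
import Fermat.Agent.J0Torsion.SerMem
import Fermat.Agent.J0Torsion.CoeffDescent
import Fermat.Agent.Mazur.Moduli.Functions

/-!
# The `q`-series of the symmetric products, and the elements of the function field over `ℚ̄`
-/

set_option autoImplicit false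

noncomputable section

open Filter Topology Complex UpperHalfPlane
open scoped Real Manifold MatrixGroups

namespace Fermat.Agent.Mazur.Moduli

open X0Analytic

local notation "Δ" => ModularForm.discriminant
local notation "Qbar" => AlgebraicClosure ℚ

/-! ### The series of `℘` at a constant argument -/

section Tail

variable {K : Type*} [Field K]

/-- The coefficient of `q ^ n` in `℘ / (2πi)² - 1/12` at a constant argument. -/
def tailCoeff (z : K) (n : ℕ) : K :=
  if n = 0 then geomDeriv z else ∑ d ∈ n.divisors, (d : K) * (z ^ d + (z ^ d)⁻¹ - 2)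

/-- The series of `℘ / (2πi)² - 1/12` at a constant argument. -/
def tailPS (z : K) : PowerSeries K := PowerSeries.mk (tailCoeff z)

theorem map_geomDeriv {L : Type*} [Field L] (f : K →+* L) (u : K) :
    f (geomDeriv u) = geomDeriv (f u) := by
  simp [geomDeriv, map_div₀]

theorem map_tailCoeff {L : Type*} [Field L] (f : K →+* L) (z : K) (n : ℕ) :
    f (tailCoeff z n) = tailCoeff (f z) n := by
  unfold tailCoeff
  split_ifs <;> simp [map_geomDeriv, map_ofNat]

theorem map_tailPS {L : Type*} [Field L] (f : K →+* L) (z : K) :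
    (tailPS z).map f = tailPS (f z) := by
  ext n
  simp [tailPS, map_tailCoeff]

end Tail

theorem hasSum_geomDeriv {u : ℂ} (hu : ‖u‖ < 1) :
    HasSum (fun d : ℕ => (d : ℂ) * u ^ d) (geomDeriv u) :=
  hasSum_coe_mul_geometric_of_norm_lt_one hu

theorem hasSum_tail (τ : ℍ) {w : ℝ} (hw : ∀ n : ℤ, (w : ℂ) ≠ n) :
    HasSum (fun n : ℕ => tailCoeff (ee w) n • qp 1 τ ^ n) (wpN w τ - 1 / 12) := by
  set z := ee (w : ℂ) with hzdef
  set q := qp 1 τ with hqdef
  have hq : q = ee (τ : ℂ) := by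
    rw [hqdef, qp, ee, Function.Periodic.qParam]
    simp
  have hqn : ‖q‖ < 1 := norm_qp_lt_one 1 τ
  have hz0 : z ≠ 0 := ee_ne_zero _
  have hzn : ‖z‖ = 1 := by rw [hzdef, norm_ee]; simp
  have hnm : (w : ℂ) ∉ (tauPair τ).lattice := by
    intro h
    obtain ⟨m, n, h⟩ := mem_tauPair.mp h
    rcases eq_or_ne m 0 with rfl | hm
    · exact hw n (by simpa using h.symm)
    · have h1 := congrArg Complex.im h
      simp only [add_im, mul_im, intCast_re, intCast_im, zero_mul, add_zero, ofReal_im] at h1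
      rcases mul_eq_zero.mp h1 with h2 | h2
      · exact hm (by exact_mod_cast h2)
      · exact τ.im_pos.ne' h2
  set F : ℕ+ × ℕ+ → ℂ := fun c =>
    (c.2 : ℂ) * (z ^ (c.2 : ℕ) + (z ^ (c.2 : ℕ))⁻¹ - 2) * q ^ (c.1 * c.2 : ℕ) with hF
  have hFs : Summable F := by
    have hs := (summable_prod_mul_pow (𝕜 := ℝ) 1 (r := ‖q‖) (by simpa using hqn)).mul_left 4
    refine Summable.of_norm_bounded hs fun c => ?_
    rw [hF, norm_mul, norm_mul, norm_pow, pow_one, Complex.norm_natCast]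
    have h4 : ‖z ^ (c.2 : ℕ) + (z ^ (c.2 : ℕ))⁻¹ - 2‖ ≤ 4 := by
      refine (norm_sub_le _ _).trans ?_
      have := norm_add_le (z ^ (c.2 : ℕ)) (z ^ (c.2 : ℕ))⁻¹
      simp only [norm_inv, norm_pow, hzn, one_pow, inv_one] at this
      rw [Complex.norm_ofNat]
      linarith
    calc (c.2 : ℝ) * ‖z ^ (c.2 : ℕ) + (z ^ (c.2 : ℕ))⁻¹ - 2‖ * ‖q‖ ^ (c.1 * c.2 : ℕ)
        ≤ (c.2 : ℝ) * 4 * ‖q‖ ^ (c.1 * c.2 : ℕ) := by gcongr
      _ = _ := by ring
  have hrow : ∀ m : ℕ+, HasSum (fun d : ℕ+ => F (m, d)) (pairRow w τ m.natPred) := by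
    intro m
    set Q := q ^ (m : ℕ) with hQdef
    have hQn : ‖Q‖ < 1 := by
      rw [hQdef, norm_pow]; exact pow_lt_one₀ (norm_nonneg _) hqn m.ne_zero
    have hQ0 : Q ≠ 0 := pow_ne_zero _ (qp_ne_zero 1 τ)
    have hQ : ee (((m : ℕ) : ℂ) * τ) = Q := by rw [ee_nat_mul, hQdef, hq]
    have hp : pairRow w τ m.natPred =
        geomDeriv (z * Q) + geomDeriv (z⁻¹ * Q) - 2 * geomDeriv Q := by
      rw [pairRow, show m.natPred + 1 = (m : ℕ) from PNat.natPred_add_one m, hQ, ee_add, hQ,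
        show (w : ℂ) - (m : ℕ) * (τ : ℂ) = -(-(w : ℂ) + (m : ℕ) * τ) by ring, ee_neg, ee_add,
        ee_neg, geomDeriv_inv (mul_ne_zero (inv_ne_zero hz0) (hQ ▸ hQ0)), hQ]
    have h1 := hasSum_geomDeriv (u := z * Q) (by rw [norm_mul, hzn, one_mul]; exact hQn)
    have h2 := hasSum_geomDeriv (u := z⁻¹ * Q)
      (by rw [norm_mul, norm_inv, hzn, inv_one, one_mul]; exact hQn)
    have h3 := ((h1.add h2).sub ((hasSum_geomDeriv hQn).mul_left 2))
    rw [← hp] at h3
    rw [← hasSum_nat_add_iff' 1] at h3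
    simp only [Finset.sum_range_one, Nat.cast_zero, zero_mul, mul_zero, sub_zero, add_zero] at h3
    refine (Equiv.pnatEquivNat.symm.hasSum_iff).mp (h3.congr_fun fun d => ?_)
    simp only [Function.comp_apply, hF, Equiv.pnatEquivNat_symm_apply, Nat.succPNat_coe,
      Nat.succ_eq_add_one, mul_pow, inv_pow, hQdef, ← pow_mul]
    ring
  have hS : HasSum F (∑' m, pairRow w τ m) := by
    have h := (hFs.hasSum.prod_fiberwise hrow)
    have h' := (Equiv.pnatEquivNat.symm.hasSum_iff).mpr h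
    rw [show (∑' m, pairRow (w : ℂ) τ m) = ∑' c, F c from ?_]
    · exact hFs.hasSum
    · refine (h'.congr_fun fun m => ?_).tsum_eq
      simp [Equiv.pnatEquivNat]
  have hsig := ((sigmaAntidiagonalEquivProd.hasSum_iff).mpr hS).sigma fun n => hasSum_fintype _
  have hn : ∀ n : ℕ+, (∑ x : Nat.divisorsAntidiagonal (n : ℕ),
      (F ∘ sigmaAntidiagonalEquivProd) ⟨n, x⟩) = tailCoeff z n • q ^ (n : ℕ) := by
    intro n
    have e : ∀ x : Nat.divisorsAntidiagonal (n : ℕ),
        (F ∘ sigmaAntidiagonalEquivProd) ⟨n, x⟩ =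
          (fun y : ℕ × ℕ => (y.2 : ℂ) * (z ^ y.2 + (z ^ y.2)⁻¹ - 2) * q ^ (n : ℕ)) x.1 := by
      intro x
      simp only [Function.comp_apply, hF, sigmaAntidiagonalEquivProd, Equiv.coe_fn_mk]
      have hx := divisorsAntidiagonalFactors_eq x
      simp only [divisorsAntidiagonalFactors, PNat.mk_coe] at hx ⊢
      rw [hx]
    simp only [e]
    rw [Finset.sum_coe_sort ((n : ℕ).divisorsAntidiagonal)
      (fun y : ℕ × ℕ => (y.2 : ℂ) * (z ^ y.2 + (z ^ y.2)⁻¹ - 2) * q ^ (n : ℕ))]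
    rw [← Finset.sum_mul, tailCoeff, if_neg n.ne_zero, smul_eq_mul,
      Nat.sum_divisorsAntidiagonal' (fun _ d => (d : ℂ) * (z ^ d + (z ^ d)⁻¹ - 2))]
  simp only [hn] at hsig
  have hnat := (Equiv.pnatEquivNat.symm.hasSum_iff).mpr hsig
  rw [← hasSum_nat_add_iff' 1]
  simp only [Finset.sum_range_one, pow_zero, smul_eq_mul, mul_one]
  have hval : wpN w τ - 1 / 12 - tailCoeff z 0 = ∑' m, pairRow w τ m := by
    rw [tailCoeff, if_pos rfl, wpN_eq hnm]; ring
  rw [hval]
  refine hnat.congr_fun fun n => ?_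
  simp

/-! ### `℘` and `U` at `k / p` as periodic functions -/

variable {p : ℕ} [Fact p.Prime]

/-- `e^{2πi/p}`. -/
def zetaC (p : ℕ) : ℂ := ee (1 / (p : ℂ))

theorem zetaC_pow (p : ℕ) [Fact p.Prime] : zetaC p ^ p = 1 := by
  rw [zetaC, ← ee_nat_mul, mul_one_div, div_self natCast_p_ne_zero]
  simpa using ee_intCast 1

theorem zArg_zero_fst (k : ZMod p) (τ : ℂ) :
    zArg (0, k) τ = (((k.val : ℝ) / p : ℝ) : ℂ) := by
  simp [zArg, -ZMod.natCast_val]

theorem val_div_ne_intCast {k : ZMod p} (hk : k ≠ 0) (n : ℤ) :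
    (((k.val : ℝ) / p : ℝ) : ℂ) ≠ n := by
  intro h
  have hp : (0 : ℝ) < p := Nat.cast_pos.mpr (Fact.out : p.Prime).pos
  have h1 : (k.val : ℝ) / p = n := by exact_mod_cast h
  rw [div_eq_iff hp.ne'] at h1
  have h2 : (k.val : ℤ) = n * p := by exact_mod_cast h1
  have := congrArg (fun x : ℤ => (x : ZMod p)) h2
  simp at this
  exact hk this

theorem ee_val_div (k : ZMod p) :
    ee (((k.val : ℝ) / p : ℝ) : ℂ) = zetaC p ^ k.val := by
  rw [zetaC, ← ee_nat_mul]
  push_cast
  ring_nf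

/-- The series of `℘ / (2πi)²` at `k / p`, `ζ = e^{2πi/p}`. -/
def wpPS {K : Type*} [Field K] (ζ : K) (k : ZMod p) : PowerSeries K :=
  PowerSeries.C (1 / 12) + tailPS (ζ ^ k.val)

theorem hasSum_wp {k : ZMod p} (hk : k ≠ 0) (τ : ℍ) :
    HasSum (fun n : ℕ => PowerSeries.coeff n (wpPS (zetaC p) k) • qp 1 τ ^ n)
      (wpN (zArg (0, k) τ) τ) := by
  have h := hasSum_tail τ (val_div_ne_intCast hk)
  have h2 : HasSum (fun n : ℕ => PowerSeries.coeff n (PowerSeries.C (1 / 12 : ℂ)) • qp 1 τ ^ n)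
      (1 / 12) := by
    convert hasSum_ite_eq 0 (1 / 12 : ℂ) using 1
    funext n
    rw [PowerSeries.coeff_C]
    split_ifs with hn <;> simp [hn]
  have h3 := h2.add h
  rw [add_sub_cancel, ← zArg_zero_fst k (τ : ℂ)] at h3
  refine h3.congr_fun fun n => ?_
  rw [← add_smul, wpPS, map_add, tailPS, PowerSeries.coeff_mk, zArg_zero_fst, ee_val_div]

theorem wpFun_isPer {k : ZMod p} (hk : k ≠ 0) :
    IsPer 1 (fun τ : ℍ => wpN (zArg (0, k) τ) τ) := by
  intro τ
  refine (hasSum_wp hk ((((1 : ℕ) : ℝ) +ᵥ τ : ℍ))).unique ?_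
  simp only [qp_vadd]
  exact hasSum_wp hk τ

theorem wpFun_mem {k : ZMod p} (hk : k ≠ 0) :
    (fun τ : ℍ => wpN (zArg (0, k) τ) τ) ∈ perMero 1 :=
  ⟨wpN_mdiff (fun h => hk (congrArg Prod.snd h)), wpFun_isPer hk, 0, by
    simpa using isBoundedAtImInfty_of_hasSum_qExpansion (hpos 1) (hasSum_wp hk)⟩

theorem qSer_wpFun {k : ZMod p} (hk : k ≠ 0) :
    qSer 1 ⟨_, wpFun_mem hk⟩ = HahnSeries.ofPowerSeries ℤ ℂ (wpPS (zetaC p) k) := by
  rw [qSer_eq _ (m := 0)
    (by simpa using isBoundedAtImInfty_of_hasSum_qExpansion (hpos 1) (hasSum_wp hk)), qSerAux]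
  simp only [Nat.cast_zero, neg_zero, HahnSeries.single_zero_one, one_mul]
  congr 1
  ext n
  rw [pow_zero, mul_one, qExpansion_coeff_eq_of_hasSum
    (wpN_mdiff (fun h => hk (congrArg Prod.snd h))) (wpFun_isPer hk) (hasSum_wp hk)]

/-- The series of `E₆`. -/
def eisenstein6 : PowerSeries ℤ :=
  PowerSeries.mk fun n => if n = 0 then 1 else -504 * ∑ d ∈ n.divisors, (d : ℤ) ^ 5

theorem qExpansion_E6 :
    qExpansion 1 (ModularForm.E₆ : ℍ → ℂ) = eisenstein6.map (Int.castRingHom ℂ) := by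
  ext n
  rw [EisensteinSeries.E_qExpansion_coeff (by norm_num) ⟨3, rfl⟩, PowerSeries.coeff_map,
    eisenstein6, PowerSeries.coeff_mk]
  rcases eq_or_ne n 0 with rfl | hn
  · simp
  · rw [if_neg hn, if_neg hn, ArithmeticFunction.sigma_apply,
      show _root_.bernoulli 6 = 1 / 42 by decide +kernel]
    push_cast
    norm_num

theorem E6_mem : (ModularForm.E₆ : ℍ → ℂ) ∈ perMero 1 :=
  ⟨ModularForm.E₆.holo', fun τ => by
    rw [Nat.cast_one, ← UpperHalfPlane.modular_T_smul]
    simpa [ModularGroup.T, UpperHalfPlane.denom] using levelOne_smul ModularForm.E₆ ModularGroup.T τ,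
    0, by
    rw [pow_zero, mul_one]
    exact ModularFormClass.bdd_at_infty ModularForm.E₆⟩

theorem qSer_E6 :
    qSer 1 ⟨_, E6_mem⟩ =
      HahnSeries.ofPowerSeries ℤ ℂ (eisenstein6.map (Int.castRingHom ℂ)) := by
  have hb : IsBoundedAtImInfty ((ModularForm.E₆ : ℍ → ℂ) * qp 1 ^ 0) := by
    rw [pow_zero, mul_one]
    exact ModularFormClass.bdd_at_infty ModularForm.E₆
  rw [qSer_eq _ (m := 0) hb, qSerAux]
  simp only [Nat.cast_zero, neg_zero, HahnSeries.single_zero_one, one_mul, pow_zero, mul_one,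
    Nat.cast_one]
  rw [qExpansion_E6]

/-- `E₄ E₆ / η^24` without the `q`-power, with integral coefficients. -/
def unitPS : PowerSeries ℤ :=
  ModularCurve.eisenstein4 * eisenstein6 * ModularCurve.dedekindEtaUnitInv

theorem constantCoeff_unitPS : PowerSeries.constantCoeff unitPS = 1 := by
  rw [unitPS, map_mul, map_mul, ModularCurve.constantCoeff_eisenstein4,
    ModularCurve.constantCoeff_dedekindEtaUnitInv, ← PowerSeries.coeff_zero_eq_constantCoeff,
    eisenstein6, PowerSeries.coeff_mk]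
  simp

/-- The series of `uVec (0, k)` with `ζ` in place of `e^{2πi/p}`. -/
def uSeries {K : Type*} [Field K] (ζ : K) (k : ZMod p) : LaurentSeries K :=
  if k = 0 then 0 else
    -(HahnSeries.single (-1 : ℤ) 1 *
      HahnSeries.ofPowerSeries ℤ K (wpPS ζ k * unitPS.map (Int.castRingHom K)))

theorem coeffMap_uSeries {K L : Type*} [Field K] [Field L] (f : K →+* L) (ζ : K) (k : ZMod p) :
    ModularCurve.coeffMap f (uSeries ζ k) = uSeries (f ζ) k := by
  unfold uSeries
  split_ifs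
  · exact map_zero _
  · rw [map_neg, map_mul, ModularCurve.coeffMap_single, map_one f, coeffMap_ofPowerSeries,
      map_mul, wpPS, wpPS, map_add, PowerSeries.map_C, map_tailPS, map_pow, map_div₀, map_one f,
      map_ofNat, ← RingHom.comp_apply (PowerSeries.map f), ← PowerSeries.map_comp,
      RingHom.ext_int (f.comp (Int.castRingHom K)) (Int.castRingHom L)]

theorem uSeries_scale {K : Type*} [Field K] {ζ : K} (hζ : ζ ^ p = 1) {c : ZMod p} (hc : c ≠ 0)
    (k : ZMod p) : uSeries (ζ ^ c.val) k = uSeries ζ (c * k) := by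
  have hpow : (ζ ^ c.val) ^ k.val = ζ ^ (c * k).val := by
    rw [← pow_mul, ZMod.val_mul]
    exact pow_eq_pow_mod _ hζ
  rcases eq_or_ne k 0 with rfl | hk
  · simp [uSeries]
  · rw [uSeries, uSeries, if_neg hk, if_neg (mul_ne_zero hc hk), wpPS, wpPS, hpow]

theorem uVec_zero : uVec (0 : ZMod p × ZMod p) = 0 := by
  funext τ
  have hz : zArg (0 : ZMod p × ZMod p) (τ : ℂ) = 0 := by simp [zArg]
  rw [uVec, hz, wpN, PeriodPair.weierstrassP_zero]
  simp

theorem uVec_mem_one (k : ZMod p) : uVec ((0 : ZMod p), k) ∈ perMero 1 := by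
  refine mem_perMero_one (uVec_mem _) fun τ => ?_
  rw [Nat.cast_one, ← UpperHalfPlane.modular_T_smul, uVec_smul]
  congr 1
  simp [rowMul, ModularGroup.coe_T]

/-- `uVec (0, k)` as a `1`-periodic function. -/
def uPer (k : ZMod p) : ↥(perMero 1) := ⟨uVec ((0 : ZMod p), k), uVec_mem_one k⟩

theorem laurent_aux {K : Type*} [Field K] (A B D C E : PowerSeries K) (h : C * E = 1) :
    (-(HahnSeries.ofPowerSeries ℤ K A * HahnSeries.ofPowerSeries ℤ K B *
        HahnSeries.ofPowerSeries ℤ K D) : LaurentSeries K) =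
      -(HahnSeries.single (-1 : ℤ) 1 * HahnSeries.ofPowerSeries ℤ K (A * (B * D * C))) *
        (HahnSeries.single 1 1 * HahnSeries.ofPowerSeries ℤ K E) := by
  set S1 : LaurentSeries K := HahnSeries.single (-1 : ℤ) 1
  set S2 : LaurentSeries K := HahnSeries.single (1 : ℤ) 1
  have e1 : S1 * S2 = 1 := by simp [S1, S2]
  have e2 : (HahnSeries.ofPowerSeries ℤ K C : LaurentSeries K) *
      HahnSeries.ofPowerSeries ℤ K E = 1 := by rw [← map_mul, h, map_one]
  simp only [map_mul]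
  set a : LaurentSeries K := HahnSeries.ofPowerSeries ℤ K A
  set b : LaurentSeries K := HahnSeries.ofPowerSeries ℤ K B
  set d : LaurentSeries K := HahnSeries.ofPowerSeries ℤ K D
  set c : LaurentSeries K := HahnSeries.ofPowerSeries ℤ K C
  set e : LaurentSeries K := HahnSeries.ofPowerSeries ℤ K E
  linear_combination (a * b * d * c * e) * e1 + (a * b * d) * e2

theorem qSer_uPer (k : ZMod p) : qSer 1 (uPer k) = uSeries (zetaC p) k := by
  rcases eq_or_ne k 0 with rfl | hk
  · rw [show uPer (0 : ZMod p) = 0 from Subtype.ext uVec_zero, map_zero, uSeries, if_pos rfl]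
  have hmul : uPer k * ⟨Δ, discriminant_mem⟩ =
      -(⟨_, wpFun_mem hk⟩ * ⟨_, E4_mem⟩ * ⟨_, E6_mem⟩) := by
    refine Subtype.ext (funext fun τ => ?_)
    show uVec ((0 : ZMod p), k) τ * Δ τ = -(wpN _ τ * _ * _)
    rw [uVec, div_mul_cancel₀ _ (ModularForm.discriminant_ne_zero τ)]
    ring
  have hne : qSer 1 ⟨Δ, discriminant_mem⟩ ≠ 0 :=
    (map_ne_zero_iff _ qSer_injective).mpr fun h =>
      ModularForm.discriminant_ne_zero UpperHalfPlane.I (congrFun (congrArg Subtype.val h) _)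
  refine mul_right_cancel₀ hne ?_
  rw [← map_mul, hmul, map_neg, map_mul, map_mul, qSer_wpFun hk, qSer_E4, qSer_E6, qSer_discriminant,
    uSeries, if_neg hk]
  simp only [unitPS, map_mul (PowerSeries.map _)]
  refine laurent_aux _ _ _ _ _ ?_
  rw [← map_mul, mul_comm, ModularCurve.dedekindEtaUnit_mul_inv, map_one]

/-! ### Series of the symmetric products -/

/-- The series of `prodFun s a α β`. -/
def prodSeries {K : Type*} [Field K] (ζ : K) (s : Finset (ZMod p × ZMod p)) (a α β : ℤ) :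
    LaurentSeries K :=
  ∏ q ∈ s, ((a : LaurentSeries K) + (α : LaurentSeries K) * uSeries ζ q.1 +
    (β : LaurentSeries K) * uSeries ζ q.2)

theorem coeffMap_prodSeries {K L : Type*} [Field K] [Field L] (f : K →+* L) (ζ : K)
    (s : Finset (ZMod p × ZMod p)) (a α β : ℤ) :
    ModularCurve.coeffMap f (prodSeries ζ s a α β) = prodSeries (f ζ) s a α β := by
  simp only [prodSeries, map_prod, map_add, map_mul, map_intCast, coeffMap_uSeries]

theorem prodSeries_scale {K : Type*} [Field K] {ζ : K} (hζ : ζ ^ p = 1) {c : ZMod p} (hc : c ≠ 0)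
    {s : Finset (ZMod p × ZMod p)} (hs : ScaleStable s) (a α β : ℤ) :
    prodSeries (ζ ^ c.val) s a α β = prodSeries ζ s a α β := by
  simp only [prodSeries, uSeries_scale hζ hc]
  exact prod_scale hs hc fun q => (a : LaurentSeries K) + (α : LaurentSeries K) * uSeries ζ q.1 +
    (β : LaurentSeries K) * uSeries ζ q.2

/-- The symmetric product as a modular function. -/
def prodMF {s : Finset (ZMod p × ZMod p)} (hs : ScaleStable s) (a α β : ℤ) : ↥(modFun p) :=
  ⟨prodFun s a α β, prodFun_mem hs a α β⟩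

theorem ser_prodMF {s : Finset (ZMod p × ZMod p)} (hs : ScaleStable s) (a α β : ℤ) :
    ser p (prodMF hs a α β) = prodSeries (zetaC p) s a α β := by
  have h : toPerOne p (prodMF hs a α β) = ∏ q ∈ s, ((a : ↥(perMero 1)) +
      (α : ↥(perMero 1)) * uPer q.1 + (β : ↥(perMero 1)) * uPer q.2) := by
    refine Subtype.ext (funext fun τ => ?_)
    show prodFun s a α β τ = _
    rw [← Subalgebra.val_apply, map_prod]
    simp [prodFun, Finset.prod_apply, uPer]
  rw [ser_apply, h, map_prod]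
  refine Finset.prod_congr rfl fun q _ => ?_
  rw [map_add, map_add, map_mul, map_mul, map_intCast, map_intCast, map_intCast, qSer_uPer,
    qSer_uPer]

theorem prodSeries_mem (φ : Qbar →+* ℂ) {ζ : Qbar} (hζ : φ ζ = zetaC p)
    {s : Finset (ZMod p × ZMod p)} (hs : ScaleStable s) (a α β : ℤ) :
    prodSeries ζ s a α β ∈ ModularCurve.modularFunctionFieldBar p := by
  refine J0Torsion.mem_FLevel_of_coeffMap_mem φ ?_
  rw [coeffMap_prodSeries, hζ, ← ser_prodMF hs]
  exact J0Torsion.ser_mem_FLevel _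

theorem exists_zeta (φ : Qbar →+* ℂ) :
    ∃ ζ : Qbar, φ ζ = zetaC p ∧ IsPrimitiveRoot ζ p := by
  have hp : p ≠ 0 := (Fact.out : p.Prime).ne_zero
  have : NeZero p := ⟨hp⟩
  have hC : IsPrimitiveRoot (zetaC p) p := by
    have h := Complex.isPrimitiveRoot_exp p hp
    rwa [zetaC, ee, show 2 * (π : ℂ) * Complex.I * (1 / (p : ℂ)) = 2 * π * Complex.I / p by ring]
  obtain ⟨ζ₀, hζ₀⟩ := HasEnoughRootsOfUnity.exists_primitiveRoot Qbar p
  obtain ⟨i, -, hi⟩ := (hζ₀.map_of_injective φ.injective).eq_pow_of_pow_eq_one (zetaC_pow p)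
  refine ⟨ζ₀ ^ i, by rw [map_pow, hi], ?_⟩
  rw [← hi, ← map_pow] at hC
  exact hC.of_map_of_injective φ.injective

end Fermat.Agent.Mazur.Moduli

end
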