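import Fermat.Agent.Mazur.Inputs
import Fermat.Agent.Mazur.Moduli.Eval
import Fermat.Agent.Mazur.Moduli.QSeries

/-!
# The two cusps of `X₀(p)` and the vanishing of the pair product at the cusp `0`
-/

set_option autoImplicit false

noncomputable section

open AlgebraicCurve Filter Topology UpperHalfPlane
open scoped MatrixGroups

namespace Fermat.Agent.Mazur.Moduli

open X0Analytic
open Gamma0Count (CosetSpace)

local notation "Qbar" => AlgebraicClosure ℚ

/-- `prodSeries` as an element of the function field. -/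
def prodEl {p : ℕ} [Fact p.Prime] (φ : Qbar →+* ℂ) {ζ : Qbar} (hζ : φ ζ = zetaC p)
    {s : Finset (ZMod p × ZMod p)} (hs : ScaleStable s) (a α β : ℤ) :
    ↥(ModularCurve.modularFunctionFieldBar p) :=
  ⟨prodSeries ζ s a α β, prodSeries_mem φ hζ hs a α β⟩

theorem ser_prodEl {p : ℕ} [Fact p.Prime] (φ : Qbar →+* ℂ) {ζ : Qbar} (hζ : φ ζ = zetaC p)
    {s : Finset (ZMod p × ZMod p)} (hs : ScaleStable s) (a α β : ℤ) :
    ser p (prodMF hs a α β) =
      ModularCurve.coeffMap φ
        ((prodEl φ hζ hs a α β : ↥(ModularCurve.modularFunctionFieldBar p)) : LaurentSeries Qbar) := by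
  rw [prodEl, coeffMap_prodSeries, hζ, ser_prodMF]

theorem eq_of_isCuspInf {N : ℕ} {P P' : Place Qbar (ModularCurve.modularFunctionFieldBar N)}
    (h : IsCuspInf P) (h' : IsCuspInf P') : P = P' := by
  refine Place.ext (SetLike.ext fun f => ?_)
  rw [← FunctionFieldRR.ord_nonneg_iff P f, ← FunctionFieldRR.ord_nonneg_iff P' f, h, h']

variable {p : ℕ} [Fact p.Prime]

omit [Fact p.Prime] in
theorem jEl_eq_coeffEmb :
    ((jEl Qbar p : ↥(FLevel Qbar p)) : LaurentSeries Qbar) =
      ModularCurve.coeffEmb Qbar ModularCurve.jq := by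
  rw [← jL_one]
  rfl

variable (φ : Qbar →+* ℂ) {pl : CosetSpace p → Place Qbar ↥(FLevel Qbar p)}
  (hpl : FibreData (embCusp φ) (jEl Qbar p)⁻¹ p (cosetPerm ModularGroup.T) pl)

include hpl

theorem isCuspInf_pl_one : IsCuspInf (pl ((1 : SL(2, ℤ)) : CosetSpace p)) :=
  fun f => ord_cusp_one φ hpl f

theorem pl_S_ne_one :
    pl (ModularGroup.S : CosetSpace p) ≠ pl ((1 : SL(2, ℤ)) : CosetSpace p) := by
  intro h
  obtain ⟨i, hi⟩ := (hpl.2.2.2.1 ((1 : SL(2, ℤ)) : CosetSpace p) _).mp h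
  rw [cosetPerm_iterate, MulAction.Quotient.smul_coe, smul_eq_mul, mul_one, QuotientGroup.eq,
    CongruenceSubgroup.Gamma0_mem] at hi
  simp [← zpow_natCast, ← zpow_neg, ModularGroup.S] at hi

theorem eq_pl_S_of_isCuspZero {P : Place Qbar (ModularCurve.modularFunctionFieldBar p)}
    (h : IsCuspZero P) : P = pl (ModularGroup.S : CosetSpace p) := by
  classical
  have hneg := h.1 (jEl Qbar p) jEl_eq_coeffEmb
  obtain ⟨s, hs⟩ := hpl.2.2.2.2 P (by rw [P.ord_inv]; omega)
  have hcard : (Finset.univ.image pl).card = 2 := by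
    rw [hpl.card_eq_cuspCount, ModularCurve.cuspCount, (Fact.out : p.Prime).divisors,
      Finset.sum_pair (Fact.out : p.Prime).one_lt.ne]
    simp [(Fact.out : p.Prime).pos]
  obtain ⟨A, B, -, hAB⟩ := Finset.card_eq_two.mp hcard
  have hm : ∀ t, pl t = A ∨ pl t = B := fun t => by
    have := Finset.mem_image_of_mem pl (Finset.mem_univ t)
    rw [hAB] at this
    simpa using this
  have hne1 : pl s ≠ pl ((1 : SL(2, ℤ)) : CosetSpace p) := fun h1 =>
    h.2 (hs ▸ h1 ▸ isCuspInf_pl_one φ hpl)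
  have hneS := pl_S_ne_one φ hpl
  rw [← hs]
  rcases hm s with ha | ha <;> rcases hm (ModularGroup.S : CosetSpace p) with hb | hb <;>
    rcases hm ((1 : SL(2, ℤ)) : CosetSpace p) with hc | hc <;>
    simp_all

/-- The pair product divided by `j ^ M` vanishes at the cusp `0`. -/
theorem ord_pairs_pos {ζ : Qbar} (hζ : φ ζ = zetaC p)
    (hne : prodEl φ hζ scaleStable_pairSet 0 1 (-1) ≠ 0) (hp : 5 ≤ p) :
    0 < (pl (ModularGroup.S : CosetSpace p)).ord
      (prodEl φ hζ scaleStable_pairSet 0 1 (-1) * (jEl Qbar p)⁻¹ ^ (pairSet p).card) := by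
  set G := prodEl φ hζ scaleStable_pairSet 0 1 (-1) with hG
  set S : CosetSpace p := (ModularGroup.S : CosetSpace p)
  set M := (pairSet p).card with hM
  set f : ↥(perMero p) :=
    X0Analytic.conj S (prodMF scaleStable_pairSet 0 1 (-1)) * ⟨qp p, qp_mem p⟩ ^ (p * M) with hf
  have hrow : ∀ k : ZMod p, k ≠ 0 → (rowMul ((0 : ZMod p), k) ModularGroup.S⁻¹).1 ≠ 0 := by
    intro k hk
    simp [rowMul, ModularGroup.S, Matrix.adjugate_fin_two, hk]
  have hfval : (f : ℍ → ℂ) = ∏ q ∈ pairSet p, fun τ : ℍ =>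
      (uVec (rowMul (0, q.1) ModularGroup.S⁻¹) τ - uVec (rowMul (0, q.2) ModularGroup.S⁻¹) τ) *
        qp 1 τ := by
    funext τ
    rw [Finset.prod_apply, Finset.prod_mul_distrib, Finset.prod_const, ← hM, hf]
    show prodFun _ _ _ _ (ModularGroup.S⁻¹ • τ) * qp p τ ^ (p * M) = _
    rw [pow_mul, ← qp_one_eq_pow, prodFun]
    congr 1
    refine Finset.prod_congr rfl fun q _ => ?_
    rw [uVec_smul, uVec_smul]
    simp [sub_eq_add_neg]
  have hlim : Tendsto (f : ℍ → ℂ) atImInfty (𝓝 0) := by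
    rw [hfval]
    have h := tendsto_finsetProd (f := fun q (τ : ℍ) =>
      (uVec (rowMul (0, q.1) ModularGroup.S⁻¹) τ - uVec (rowMul (0, q.2) ModularGroup.S⁻¹) τ) *
        qp 1 τ) (a := fun _ : ZMod p × ZMod p => (0 : ℂ)) (pairSet p) fun q hq => by
      simp only [pairSet, Finset.mem_filter, Finset.mem_univ, true_and] at hq
      exact tendsto_uVec_sub_mul_qp (hrow _ hq.1) (hrow _ hq.2.1)
    rw [Finset.prod_const, zero_pow ((Finset.card_pos.mpr (pairSet_nonempty hp)).ne')] at h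
    rw [Finset.prod_fn]
    exact h
  have hbd : IsBoundedAtImInfty (f : ℍ → ℂ) := hlim.isBigO_one ℝ
  have h0 : (qSer p f).coeff 0 = 0 :=
    tendsto_nhds_unique (tendsto_atImInfty_coeff_zero f hbd) hlim
  have hser : embCusp φ S (G * (jEl Qbar p)⁻¹ ^ M) ≠ 0 :=
    (map_ne_zero _).mpr (mul_ne_zero hne (pow_ne_zero _ (inv_ne_zero fun h => by
      have := jEl_eq_coeffEmb (p := p)
      rw [h] at this
      exact ModularCurve.jq_ne_zero (coeffMap_injective (algebraMap ℚ Qbar).injective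
        (this.symm.trans (map_zero _).symm)))))
  have hG0 : qSer p (X0Analytic.conj S (prodMF scaleStable_pairSet 0 1 (-1))) ≠ 0 := by
    rw [← embCusp_of_ser φ (ser_prodEl φ hζ scaleStable_pairSet 0 1 (-1)) S]
    exact (map_ne_zero _).mpr hne
  have hq : qSer p (⟨qp p, qp_mem p⟩ ^ (p * M) : ↥(perMero p)) =
      HahnSeries.single ((p * M : ℕ) : ℤ) (1 : ℂ) := by
    rw [map_pow, qSer_qp, HahnSeries.single_pow, one_pow, nsmul_one]
  have hford : 0 < (qSer p f).order := by
    have hfne : qSer p f ≠ 0 := by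
      rw [hf, map_mul, hq]
      exact mul_ne_zero hG0 (HahnSeries.single_ne_zero one_ne_zero)
    by_contra hle
    refine hfne (HahnSeries.coeff_order_eq_zero.mp ?_)
    rcases eq_or_lt_of_le (not_lt.mp hle) with h | h
    · rw [h, h0]
    · exact (isBoundedAtImInfty_iff_coeff f).mp hbd _ h
  have heq : (embCusp φ S (G * (jEl Qbar p)⁻¹ ^ M)).order = (qSer p f).order := by
    rw [map_mul, map_pow, embCusp_of_ser φ (ser_prodEl φ hζ scaleStable_pairSet 0 1 (-1)) S,
      embCusp_jEl_inv, hf, map_mul, hq,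
      HahnSeries.order_mul hG0 (HahnSeries.single_ne_zero one_ne_zero),
      HahnSeries.order_mul hG0 (pow_ne_zero _ (inv_ne_zero
        ((map_ne_zero_iff _ (ModularCurve.qExpand_injective p)).mpr jqC_ne_zero))),
      HahnSeries.order_pow, order_inv_qExpand_jqC, HahnSeries.order_single one_ne_zero]
    push_cast
    simp [mul_comm]
  have h3 := hpl.2.2.1 S (G * (jEl Qbar p)⁻¹ ^ M)
  rw [heq] at h3
  have h4 : 0 < (qSer p f).order * Function.minimalPeriod (cosetPerm ModularGroup.T) S :=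
    mul_pos hford (by exact_mod_cast minimalPeriod_pos_perm _ _)
  rw [h3] at h4
  exact pos_of_mul_pos_right h4 (Nat.cast_nonneg _)

end Fermat.Agent.Mazur.Moduli

end
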