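import Mathlib.AlgebraicGeometry.EllipticCurve.IsomOfJ
import Mathlib.Analysis.Complex.Polynomial.Basic
import Fermat.Prelude.Def_FLTPrelim_GaloisRep
import Fermat.Agent.Isogeny.VariableChange
import Fermat.Agent.EllTorsion.Count
import Fermat.Agent.X0Analytic.Theta
import Fermat.Agent.Mazur.Moduli.Functions

/-!
# The uniformisation of a curve with a point of order `p`
-/

set_option autoImplicit false

noncomputable section

open WeierstrassCurve
open scoped WeierstrassCurve.Affine MatrixGroups UpperHalfPlane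

namespace Fermat.Agent.Mazur.Moduli

open X0Analytic (jFun)

local notation "Qbar" => AlgebraicClosure ℚ

/-- `(x + b₂/12) c₄ c₆ / Δ`, invariant under changes of coordinates; zero at the origin. -/
def uCoord (W : WeierstrassCurve ℤ) : ((W.map (Int.castRingHom ℚ))⁄Qbar).Point → Qbar
  | .zero => 0
  | .some x _ _ => (x + (W.b₂ : Qbar) / 12) * W.c₄ * W.c₆ / W.Δ

/-- The `j`-invariant. -/
def jInv (W : WeierstrassCurve ℤ) : Qbar := (W.c₄ : Qbar) ^ 3 / W.Δ

theorem map_uCoord (W : WeierstrassCurve ℤ) (σ : Qbar ≃ₐ[ℚ] Qbar)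
    (P : ((W.map (Int.castRingHom ℚ))⁄Qbar).Point) :
    σ (uCoord W P) = uCoord W (σ • P) := by
  rcases P with _ | ⟨x, y, h⟩
  · exact map_zero _
  · rw [Affine.Point.algEquiv_smul_def, Affine.Point.map_some]
    show σ (_ * _ * _ / _) = (σ x + _) * _ * _ / _
    simp [map_div₀, map_ofNat]

theorem wpCurve_b₂ (L : PeriodPair) : (wpCurve L).b₂ = 0 := by
  simp [wpCurve, WeierstrassCurve.b₂]

theorem wpCurve_c₄ (τ : ℍ) :
    (wpCurve (tauPair τ)).c₄ = scaleC ^ 2 * ModularForm.E₄ τ := by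
  simp only [WeierstrassCurve.c₄, WeierstrassCurve.b₂, WeierstrassCurve.b₄, wpCurve_a₄]
  simp [wpCurve, tauCurve]
  ring

theorem wpCurve_c₆ (τ : ℍ) :
    (wpCurve (tauPair τ)).c₆ = -(scaleC ^ 3 * ModularForm.E₆ τ) := by
  simp only [WeierstrassCurve.c₆, WeierstrassCurve.b₂, WeierstrassCurve.b₄, WeierstrassCurve.b₆,
    wpCurve_a₄, wpCurve_a₆]
  simp [wpCurve, tauCurve]
  ring

theorem wpCurve_j (τ : ℍ) : (wpCurve (tauPair τ)).j = jFun τ := by
  rw [WeierstrassCurve.j, Units.val_inv_eq_inv_val, WeierstrassCurve.coe_Δ', wpCurve_c₄,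
    wpCurve_Δ, tauCurve_Δ, jFun]
  have := scaleC_ne_zero
  have := ModularForm.discriminant_ne_zero τ
  field_simp

variable {p : ℕ} [Fact p.Prime]

theorem eq_of_zArg_sub_mem {v w : ZMod p × ZMod p} {τ : ℍ}
    (h : zArg v τ - zArg w τ ∈ (tauPair τ).lattice) : v = w := by
  obtain ⟨m, n, h⟩ := mem_tauPair.mp h
  have hp := natCast_p_ne_zero (p := p)
  rw [zArg, zArg, ← sub_div, eq_div_iff hp] at h
  have h1 : ((v.1.val : ℤ) - w.1.val - m * p : ℤ) * (τ : ℂ) =
      ((n * p - (v.2.val - w.2.val) : ℤ) : ℂ) := by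
    push_cast
    linear_combination -h
  have hm : ((v.1.val : ℤ) - w.1.val - m * p : ℤ) = 0 := by
    by_contra hne
    exact natCast_mul_ne_intCast τ hne _ h1
  rw [hm, Int.cast_zero, zero_mul] at h1
  have hn : (n * p - ((v.2.val : ℤ) - w.2.val) : ℤ) = 0 := by exact_mod_cast h1.symm
  refine Prod.ext ?_ ?_
  · have := congrArg (fun x : ℤ => (x : ZMod p)) hm
    simpa [ZMod.natCast_zmod_val, sub_eq_zero] using this
  · have := congrArg (fun x : ℤ => (x : ZMod p)) hn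
    simp at this
    linear_combination -this

theorem nsmul_zArg_sub_mem (v : ZMod p × ZMod p) (τ : ℍ) (k : ℕ) :
    (k : ℂ) * zArg v τ - zArg ((k : ZMod p) * v.1, (k : ZMod p) * v.2) τ ∈
      (tauPair τ).lattice := by
  obtain ⟨m, hm⟩ := exists_sub_val (p := p) ((k : ℤ) * v.1.val) (x := (k : ZMod p) * v.1) (by simp)
  obtain ⟨n, hn⟩ := exists_sub_val (p := p) ((k : ℤ) * v.2.val) (x := (k : ZMod p) * v.2) (by simp)
  have hm' : (k : ℂ) * (v.1.val : ℂ) = (((k : ZMod p) * v.1).val : ℂ) + p * m := by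
    exact_mod_cast congrArg (fun z : ℤ => (z : ℂ)) hm
  have hn' : (k : ℂ) * (v.2.val : ℂ) = (((k : ZMod p) * v.2).val : ℂ) + p * n := by
    exact_mod_cast congrArg (fun z : ℤ => (z : ℂ)) hn
  refine mem_tauPair.mpr ⟨m, n, ?_⟩
  have hp := natCast_p_ne_zero (p := p)
  rw [zArg, zArg]
  field_simp
  linear_combination -(τ : ℂ) * hm' - hn'

theorem exists_rowMul_eq {v : ZMod p × ZMod p} (hv : v ≠ 0) :
    ∃ lam : ZMod p, lam ≠ 0 ∧ ∃ g : SL(2, ℤ), rowMul (0, lam) g = v := by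
  obtain ⟨a, b⟩ := v
  rcases eq_or_ne a 0 with rfl | ha
  · exact ⟨b, fun hb => hv (by rw [hb]; rfl), 1, by rw [rowMul_one]⟩
  · set t : ℤ := ((b / a).val : ℤ)
    refine ⟨a, ha, ⟨!![0, -1; 1, t], by simp [Matrix.det_fin_two]⟩, ?_⟩
    simp [rowMul, t, mul_div_cancel₀ _ ha]

open Classical in
theorem exists_tau (φ : Qbar →+* ℂ) (W : WeierstrassCurve ℤ) (hΔ : W.Δ ≠ 0)
    (Q : ((W.map (Int.castRingHom ℚ))⁄Qbar).Point) (hQ : addOrderOf Q = p) :
    ∃ τ : ℍ, jFun τ = φ (jInv W) ∧ ∃ μ : ZMod p, μ ≠ 0 ∧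
      ∀ k : ZMod p, φ (uCoord W ((μ * k).val • Q)) = uVec (0, k) τ := by
  set φ' : Qbar →ₐ[ℚ] ℂ := φ.toRatAlgHom
  set EC : WeierstrassCurve ℂ := (W.map (Int.castRingHom ℚ))⁄ℂ with hEC
  have hECmap : EC = W.map (Int.castRingHom ℂ) := by
    rw [hEC]
    show (W.map (Int.castRingHom ℚ)).map (algebraMap ℚ ℂ) = _
    rw [WeierstrassCurve.map_map,
      RingHom.ext_int ((algebraMap ℚ ℂ).comp (Int.castRingHom ℚ)) (Int.castRingHom ℂ)]
  have hECΔ : EC.Δ = (W.Δ : ℂ) := by rw [hECmap, WeierstrassCurve.map_Δ]; rfl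
  have hECb₂ : EC.b₂ = (W.b₂ : ℂ) := by rw [hECmap, WeierstrassCurve.map_b₂]; rfl
  have hECc₄ : EC.c₄ = (W.c₄ : ℂ) := by rw [hECmap, WeierstrassCurve.map_c₄]; rfl
  have hECc₆ : EC.c₆ = (W.c₆ : ℂ) := by rw [hECmap, WeierstrassCurve.map_c₆]; rfl
  have : EC.IsElliptic := ⟨isUnit_iff_ne_zero.mpr (by rw [hECΔ]; exact_mod_cast hΔ)⟩
  obtain ⟨τ, hτ⟩ := X0Analytic.exists_jFun_eq (φ (jInv W))
  have hj : EC.j = (wpCurve (tauPair τ)).j := by
    rw [wpCurve_j, hτ, WeierstrassCurve.j, Units.val_inv_eq_inv_val, WeierstrassCurve.coe_Δ',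
      hECΔ, hECc₄, jInv, map_div₀, map_pow, map_intCast, map_intCast]
    ring
  obtain ⟨C, hC⟩ := WeierstrassCurve.exists_variableChange_of_j_eq EC (wpCurve (tauPair τ)) hj
  set ψ : ℂ →+ EC.toAffine.Point :=
    (Isogeny.vcEquiv C hC).toAddMonoidHom.comp (wpHom (tauPair τ)) with hψ
  have hψinj : ∀ z w, ψ z = ψ w ↔ z - w ∈ (tauPair τ).lattice := fun z w =>
    (Isogeny.vcEquiv C hC).injective.eq_iff.trans (wpHom_eq_iff _)
  have hψmul : ∀ (v : ZMod p × ZMod p) (k : ℕ),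
      k • ψ (zArg v τ) = ψ (zArg ((k : ZMod p) * v.1, (k : ZMod p) * v.2) τ) := by
    intro v k
    rw [← map_nsmul, nsmul_eq_mul]
    exact (hψinj _ _).mpr (nsmul_zArg_sub_mem v τ k)
  -- the values of `uCoord`
  have hu0 : (C.u : ℂ) ≠ 0 := C.u.ne_zero
  have hb : (W.b₂ : ℂ) + 12 * C.r = 0 := by
    have h := congrArg WeierstrassCurve.b₂ hC
    rw [variableChange_b₂, wpCurve_b₂, hECb₂] at h
    exact (mul_eq_zero.mp h).resolve_left (by simp)
  have hc4 : (W.c₄ : ℂ) = (C.u : ℂ) ^ 4 * (scaleC ^ 2 * ModularForm.E₄ τ) := by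
    have h := congrArg WeierstrassCurve.c₄ hC
    rw [variableChange_c₄, wpCurve_c₄, hECc₄, Units.val_inv_eq_inv_val] at h
    rw [← h]; field_simp
  have hc6 : (W.c₆ : ℂ) = (C.u : ℂ) ^ 6 * (-(scaleC ^ 3 * ModularForm.E₆ τ)) := by
    have h := congrArg WeierstrassCurve.c₆ hC
    rw [variableChange_c₆, wpCurve_c₆, hECc₆, Units.val_inv_eq_inv_val] at h
    rw [← h]; field_simp
  have hΔC : (W.Δ : ℂ) = (C.u : ℂ) ^ 12 * (scaleC ^ 6 * ModularForm.discriminant τ) := by
    have h := congrArg WeierstrassCurve.Δ hC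
    rw [variableChange_Δ, wpCurve_Δ, tauCurve_Δ, hECΔ, Units.val_inv_eq_inv_val] at h
    rw [← h]; field_simp
  have hval : ∀ (P : ((W.map (Int.castRingHom ℚ))⁄Qbar).Point) (v : ZMod p × ZMod p),
      Affine.Point.map φ' P = ψ (zArg v τ) → φ (uCoord W P) = uVec v τ := by
    intro P v h
    by_cases hv : v = 0
    · subst hv
      have hz : zArg (0 : ZMod p × ZMod p) (τ : ℂ) = 0 := by simp [zArg]
      rw [hz, map_zero] at h
      have hP : P = 0 := Affine.Point.map_injective φ' (h.trans (Affine.Point.map_zero φ').symm)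
      subst hP
      rw [uVec, hz, wpN, PeriodPair.weierstrassP_zero]
      show φ (0 : Qbar) = _
      simp
    · rcases P with _ | ⟨x, y, hP⟩
      · exfalso
        have h0 : ψ (zArg v τ) = ψ 0 := by rw [← h, map_zero]; rfl
        rw [hψinj, sub_zero] at h0
        exact zArg_notMem hv τ h0
      · rw [Affine.Point.map_some, hψ, AddMonoidHom.comp_apply] at h
        change _ = Isogeny.vcEquiv C hC (wpPoint (tauPair τ) (zArg v τ)) at h
        rw [wpPoint_of_notMem _ (zArg_notMem hv τ)] at h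
        obtain ⟨h', hv'⟩ := Isogeny.vcEquiv_some C hC (nonsingular_wp (tauPair τ) (zArg_notMem hv τ))
        rw [hv'] at h
        have hx : φ x = (C.u : ℂ) ^ 2 *
            PeriodPair.weierstrassP (tauPair τ) (zArg v τ) + C.r := (Affine.Point.some.inj h).1
        show φ ((x + (W.b₂ : Qbar) / 12) * W.c₄ * W.c₆ / W.Δ) = _
        rw [map_div₀, map_mul, map_mul, map_add, map_div₀, map_intCast, map_intCast, map_intCast,
          map_intCast, map_ofNat, hx, hc4, hc6, hΔC, uVec, wpN]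
        have hs := scaleC_ne_zero
        have hD := ModularForm.discriminant_ne_zero τ
        field_simp
        linear_combination (-(ModularForm.E₄ τ * ModularForm.E₆ τ)) * hb
  -- every `p`-torsion point comes from `(a τ + b) / p`
  have hp0 : (p : ℂ) ≠ 0 := natCast_p_ne_zero
  have hcard : Nat.card (Submodule.torsionBy ℤ EC.toAffine.Point (p : ℤ)) = p ^ 2 :=
    EllTorsion.natCard_torsionBy (W := EC.toAffine) p hp0
  let T : ZMod p × ZMod p → Submodule.torsionBy ℤ EC.toAffine.Point (p : ℤ) := fun v =>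
    ⟨ψ (zArg v τ), by
      rw [Submodule.mem_torsionBy_iff, natCast_zsmul, hψmul, ZMod.natCast_self, zero_mul,
        zero_mul]
      simp [zArg]⟩
  have hTinj : Function.Injective T := fun v w h =>
    eq_of_zArg_sub_mem ((hψinj _ _).mp (congrArg Subtype.val h))
  have : Finite (Submodule.torsionBy ℤ EC.toAffine.Point (p : ℤ)) :=
    Nat.finite_of_card_ne_zero (by rw [hcard]; exact pow_ne_zero _ (Fact.out : p.Prime).ne_zero)
  have hTsurj : Function.Surjective T :=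
    (hTinj.bijective_of_nat_card_le (by rw [hcard, Nat.card_prod, Nat.card_zmod, sq])).2
  set P := Affine.Point.map φ' Q with hP
  have hPt : P ∈ Submodule.torsionBy ℤ EC.toAffine.Point (p : ℤ) := by
    rw [Submodule.mem_torsionBy_iff, natCast_zsmul]
    refine (map_nsmul (Affine.Point.map (W' := W.map (Int.castRingHom ℚ)) φ') p Q).symm.trans ?_
    rw [← hQ, addOrderOf_nsmul_eq_zero, map_zero]
  obtain ⟨v, hv⟩ := hTsurj ⟨P, hPt⟩
  have hv : ψ (zArg v τ) = P := congrArg Subtype.val hv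
  have hv0 : v ≠ 0 := by
    rintro rfl
    have h1 : Q = 0 := Affine.Point.map_injective φ' (by
      rw [← hP, ← hv, map_zero]
      simp [zArg])
    rw [h1, addOrderOf_zero] at hQ
    exact (Fact.out : p.Prime).one_lt.ne hQ
  obtain ⟨lam, hlam, g, hg⟩ := exists_rowMul_eq hv0
  refine ⟨g • τ, by rw [X0Analytic.jFun_smul, hτ], lam⁻¹, inv_ne_zero hlam, fun k => ?_⟩
  have hk : rowMul ((0 : ZMod p), k) g = (lam⁻¹ * k * v.1, lam⁻¹ * k * v.2) := by
    rw [← hg]
    simp only [rowMul, zero_mul, zero_add]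
    ext <;> field_simp
  rw [uVec_smul, hk]
  refine hval _ _ ?_
  rw [map_nsmul, ← hP, ← hv, hψmul, ZMod.natCast_zmod_val]

end Fermat.Agent.Mazur.Moduli

end
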