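import Mathlib.RingTheory.RootsOfUnity.PrimitiveRoots
import Mathlib.Algebra.Polynomial.Roots
import Fermat.Agent.Mazur.Moduli.Cusps
import Fermat.Agent.Mazur.Moduli.Uniformise

/-!
# The rational place of `X₀(p)` attached to the curve and its point
-/

set_option autoImplicit false

noncomputable section

open AlgebraicCurve WeierstrassCurve
open scoped WeierstrassCurve.Affine MatrixGroups UpperHalfPlane

namespace Fermat.Agent.Mazur.Moduli

open X0Analytic
open Gamma0Count (CosetSpace)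
open FunctionFieldRR (VanishesTo)

local notation "Qbar" => AlgebraicClosure ℚ

-- shortcuts for the instance search
local instance (priority := high) algebraBarPlaceFast {N : ℕ} :
    Algebra Qbar ↥(ModularCurve.modularFunctionFieldBar N) := inferInstance
local instance (priority := high) algebraLevelPlaceFast {N : ℕ} :
    Algebra Qbar ↥(FLevel Qbar N) := inferInstance

/-! ### Galois action on places and classes -/

section Galois

variable {N : ℕ}

/-- The semilinear automorphism attached to `σ`. -/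
abbrev galAut (N : ℕ) (σ : Qbar ≃ₐ[ℚ] Qbar) :
    SemilinearAut Qbar ↥(ModularCurve.modularFunctionFieldBar N) :=
  ModularCurve.arithmeticGalois (ModularCurve.modularFunctionFieldFull N) σ

theorem galAut_smul_eq_self {σ : Qbar ≃ₐ[ℚ] Qbar}
    {y : ↥(ModularCurve.modularFunctionFieldBar N)}
    (h : ModularCurve.coeffMap (σ : Qbar →+* Qbar) (y : LaurentSeries Qbar) = y) :
    galAut N σ • y = y :=
  Subtype.ext ((ModularCurve.coe_arithmeticGalois_smul _ σ y).trans h)

theorem galAut_smul_sub (σ : Qbar ≃ₐ[ℚ] Qbar) (y : ↥(ModularCurve.modularFunctionFieldBar N))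
    (c : Qbar) :
    galAut N σ • (y - algebraMap Qbar _ c) = galAut N σ • y - algebraMap Qbar _ (σ c) := by
  rw [smul_sub, SemilinearAut.smul_algebraMap, ModularCurve.baseAut_arithmeticGalois]
  rfl

theorem vanishesTo_smul (g : SemilinearAut Qbar ↥(ModularCurve.modularFunctionFieldBar N))
    {P : Place Qbar ↥(ModularCurve.modularFunctionFieldBar N)} {m : ℤ}
    {f : ↥(ModularCurve.modularFunctionFieldBar N)}
    (h : VanishesTo P m f) : VanishesTo (g • P) m (g • f) := by
  rcases h with rfl | h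
  · exact Or.inl (smul_zero g)
  · exact Or.inr (by rwa [SemilinearAut.ord_smul])

theorem order_coeffMap_aut (σ : Qbar ≃ₐ[ℚ] Qbar) (z : LaurentSeries Qbar) :
    (ModularCurve.coeffMap (σ : Qbar →+* Qbar) z).order = z.order := by
  rcases eq_or_ne z 0 with rfl | hz
  · rw [map_zero]
  have hne : (ModularCurve.coeffMap (σ : Qbar →+* Qbar) z).coeff z.order ≠ 0 := by
    rw [ModularCurve.coeffMap_coeff, map_ne_zero]
    exact fun h => hz (HahnSeries.coeff_order_eq_zero.mp h)
  refine le_antisymm (HahnSeries.order_le_of_coeff_ne_zero hne) ?_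
  by_contra hlt
  have h0 : ModularCurve.coeffMap (σ : Qbar →+* Qbar) z = 0 :=
    HahnSeries.coeff_order_eq_zero.mp (by
      rw [ModularCurve.coeffMap_coeff, HahnSeries.coeff_eq_zero_of_lt_order (not_le.mp hlt),
        map_zero])
  exact hne (by rw [h0]; rfl)

theorem galAut_smul_cuspInf (σ : Qbar ≃ₐ[ℚ] Qbar)
    {P : Place Qbar ↥(ModularCurve.modularFunctionFieldBar N)} (hP : IsCuspInf P) :
    galAut N σ • P = P := by
  refine eq_of_isCuspInf (fun f => ?_) hP
  conv_lhs => rw [← smul_inv_smul (galAut N σ) f]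
  rw [SemilinearAut.ord_smul, hP, ← map_inv, ModularCurve.coe_arithmeticGalois_smul,
    order_coeffMap_aut]

theorem smul_classOf (σ : Qbar ≃ₐ[ℚ] Qbar)
    (P Q : Place Qbar ↥(ModularCurve.modularFunctionFieldBar N)) :
    σ • classOf P Q = classOf (galAut N σ • P) (galAut N σ • Q) := by
  rw [ModularCurve.galois_smul_pic0_def]
  unfold classOf
  by_cases h : P.deg = Q.deg
  · rw [dif_pos h, dif_pos (by simpa using h), SemilinearAut.pic0_smul_mk]
    refine congrArg Pic0.mk (Subtype.ext ?_)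
    rw [SemilinearAut.coe_degZeroSMulHom, smul_sub, SemilinearAut.smul_single,
      SemilinearAut.smul_single]
  · rw [dif_neg h, dif_neg (by simpa using h)]
    exact smul_zero (A := Pic0 Qbar ↥(ModularCurve.modularFunctionFieldBar N)) (galAut N σ)

end Galois

variable {p : ℕ} [Fact p.Prime]

omit [Fact p.Prime] in
theorem galAut_smul_jEl (σ : Qbar ≃ₐ[ℚ] Qbar) :
    galAut p σ • (jEl Qbar p : ↥(ModularCurve.modularFunctionFieldBar p)) = jEl Qbar p :=
  galAut_smul_eq_self (by rw [jEl_eq_coeffEmb]; exact ModularCurve.coeffMap_coeffEmb σ _)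

theorem galAut_smul_prodEl (φ : Qbar →+* ℂ) {ζ : Qbar} (hζ : φ ζ = zetaC p)
    (hprim : IsPrimitiveRoot ζ p) {s : Finset (ZMod p × ZMod p)} (hs : ScaleStable s)
    (a α β : ℤ) (σ : Qbar ≃ₐ[ℚ] Qbar) :
    galAut p σ • prodEl φ hζ hs a α β = prodEl φ hζ hs a α β := by
  refine galAut_smul_eq_self ?_
  show ModularCurve.coeffMap _ (prodSeries ζ s a α β) = prodSeries ζ s a α β
  rw [coeffMap_prodSeries]
  have : NeZero p := ⟨(Fact.out : p.Prime).ne_zero⟩
  obtain ⟨i, hi, he⟩ := hprim.eq_pow_of_pow_eq_one (ξ := σ ζ)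
    (by rw [← map_pow, hprim.pow_eq_one, map_one])
  have hc : (i : ZMod p) ≠ 0 := by
    intro h
    rw [ZMod.natCast_eq_zero_iff] at h
    obtain rfl : i = 0 := Nat.eq_zero_of_dvd_of_lt h hi
    rw [pow_zero, eq_comm, ← map_one σ] at he
    exact hprim.ne_one (Fact.out : p.Prime).one_lt (σ.injective he)
  have hval : ((i : ZMod p)).val = i := ZMod.val_cast_of_lt hi
  show prodSeries (σ ζ) s a α β = _
  rw [← he]
  conv_lhs => rw [← hval]
  exact prodSeries_scale hprim.pow_eq_one hc hs a α β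

section Values

variable {φ : Qbar →+* ℂ} {τ : ℍ} {x : ↥(FLevel Qbar p)}
  {pl : CosetSpace p → Place Qbar ↥(FLevel Qbar p)}
  (hpl : FibreData (embPoint φ τ) x 1 (cosetPerm 1) pl) (g : SL(2, ℤ))
  {y : ↥(FLevel Qbar p)} {f : ↥(modFun p)} (hy : ser p f = ModularCurve.coeffMap φ y) {c : Qbar}

include hpl hy

theorem vanishesTo_of_value (hval : (f : ℍ → ℂ) (g⁻¹ • τ) = φ c) :
    VanishesTo (pl (g : CosetSpace p)) 1 (y - algebraMap Qbar _ c) := by
  by_cases h : y = algebraMap Qbar _ c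
  · exact Or.inl (sub_eq_zero.mpr h)
  · exact Or.inr (ord_sub_pos hpl g hy hval h)

theorem value_of_vanishesTo
    (h : VanishesTo (pl (g : CosetSpace p)) 1 (y - algebraMap Qbar _ c)) :
    (f : ℍ → ℂ) (g⁻¹ • τ) = φ c := by
  rcases h with h | h
  · have hf : f = algebraMap ℂ _ (φ c) := ser_injective (by
      rw [hy, sub_eq_zero.mp h, ser_algebraMap, IntermediateField.coe_algebraMap_apply,
        ModularCurve.algebraMap_laurentSeries_eq_single, ModularCurve.coeffMap_single])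
    rw [hf]
    rfl
  · exact eval_eq_of_ord_pos hpl g hy (by omega)

end Values

theorem zArg_neg_add_mem (w : ZMod p × ZMod p) (τ : ℍ) :
    zArg (-w) τ + zArg w τ ∈ (tauPair τ).lattice := by
  obtain ⟨m, hm⟩ := exists_sub_val (p := p) (-(w.1.val : ℤ)) (x := (-w).1) (by simp)
  obtain ⟨n, hn⟩ := exists_sub_val (p := p) (-(w.2.val : ℤ)) (x := (-w).2) (by simp)
  have hm' : -(w.1.val : ℂ) = ((-w).1.val : ℂ) + p * m := by
    exact_mod_cast congrArg (fun z : ℤ => (z : ℂ)) hm
  have hn' : -(w.2.val : ℂ) = ((-w).2.val : ℂ) + p * n := by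
    exact_mod_cast congrArg (fun z : ℤ => (z : ℂ)) hn
  refine mem_tauPair.mpr ⟨-m, -n, ?_⟩
  have hp := natCast_p_ne_zero (p := p)
  rw [zArg, zArg]
  push_cast
  field_simp
  linear_combination (τ : ℂ) * hm' + hn'

theorem eq_or_eq_neg_of_uVec_eq {v w : ZMod p × ZMod p} (hv : v ≠ 0) (hw : w ≠ 0) {τ : ℍ}
    (h4 : ModularForm.E₄ τ ≠ 0) (h6 : ModularForm.E₆ τ ≠ 0) (h : uVec v τ = uVec w τ) :
    v = w ∨ v = -w := by
  have hs := scaleC_ne_zero
  have hD := ModularForm.discriminant_ne_zero τ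
  have hP : PeriodPair.weierstrassP (tauPair τ) (zArg v τ) =
      PeriodPair.weierstrassP (tauPair τ) (zArg w τ) := by
    simp only [uVec, wpN] at h
    field_simp at h
    first | exact h | linear_combination -h
  have hv' := zArg_notMem hv τ
  have hw' := zArg_notMem hw τ
  rcases Affine.Y_eq_of_X_eq (equation_wp _ hv') (equation_wp _ hw') hP with hY | hY
  · left
    refine eq_of_zArg_sub_mem ((wpHom_eq_iff (tauPair τ)).mp ?_)
    show wpPoint _ _ = wpPoint _ _
    rw [wpPoint_of_notMem _ hv', wpPoint_of_notMem _ hw', Affine.Point.some.injEq]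
    exact ⟨hP, hY⟩
  · right
    refine eq_of_zArg_sub_mem ((wpHom_eq_iff (tauPair τ)).mp ?_)
    have hneg : wpHom (tauPair τ) (zArg (-w) τ) = -wpHom (tauPair τ) (zArg w τ) := by
      rw [eq_neg_iff_add_eq_zero, ← map_add]
      exact wpPoint_of_mem _ (zArg_neg_add_mem w τ)
    rw [hneg]
    show wpPoint _ _ = -wpPoint _ _
    rw [wpPoint_of_notMem _ hv', wpPoint_of_notMem _ hw', Affine.Point.neg_some,
      Affine.Point.some.injEq]
    exact ⟨hP, hY⟩

theorem mem_Gamma0_of_symmetric {τ : ℍ} (h4 : ModularForm.E₄ τ ≠ 0)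
    (h6 : ModularForm.E₆ τ ≠ 0) {h : SL(2, ℤ)}
    (H : ∀ a : ℤ, prodFun (singleSet p) a (-1) 0 (h⁻¹ • τ) =
      prodFun (singleSet p) a (-1) 0 τ) : h ∈ CongruenceSubgroup.Gamma0 p := by
  set P1 : Polynomial ℂ := ∏ q ∈ singleSet p,
    (Polynomial.X - Polynomial.C (uVec (rowMul (0, q.1) h⁻¹) τ))
  set P2 : Polynomial ℂ := ∏ q ∈ singleSet p, (Polynomial.X - Polynomial.C (uVec (0, q.1) τ))
  have hinf : {a : ℂ | P1.eval a = P2.eval a}.Infinite := by
    refine Set.Infinite.mono ?_ (Set.infinite_range_of_injective (Int.cast_injective (α := ℂ)))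
    rintro _ ⟨a, rfl⟩
    have := H a
    simp only [prodFun, uVec_smul] at this
    simpa [P1, P2, Polynomial.eval_prod, sub_eq_add_neg] using this
  have hP : P1 = P2 := Polynomial.eq_of_infinite_eval_eq _ _ hinf
  have h1 : ((1 : ZMod p), (0 : ZMod p)) ∈ singleSet p := by simp [singleSet]
  set v := rowMul ((0 : ZMod p), (1 : ZMod p)) h⁻¹ with hv
  have hv0 : v ≠ 0 := fun hz => by
    have := congrArg (fun u => rowMul u h) hz
    simp only [hv, ← rowMul_mul, inv_mul_cancel, rowMul_one] at this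
    simp [rowMul] at this
  have he : P2.eval (uVec v τ) = 0 := by
    rw [← hP, Polynomial.eval_prod]
    exact Finset.prod_eq_zero h1 (by simp [hv])
  rw [Polynomial.eval_prod, Finset.prod_eq_zero_iff] at he
  obtain ⟨q, hq, he⟩ := he
  simp only [singleSet, Finset.mem_filter] at hq
  rw [Polynomial.eval_sub, Polynomial.eval_X, Polynomial.eval_C, sub_eq_zero] at he
  have hw : ((0 : ZMod p), q.1) ≠ 0 := fun hz => hq.2.1 (congrArg Prod.snd hz)
  have hfst : v.1 = 0 := by
    rcases eq_or_eq_neg_of_uVec_eq hv0 hw h4 h6 he with e | e <;> rw [e] <;> simp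
  have hinv : h⁻¹ ∈ CongruenceSubgroup.Gamma0 p := by
    rw [CongruenceSubgroup.Gamma0_mem]
    simpa [hv, rowMul] using hfst
  simpa using inv_mem hinv

theorem sigma_jInv (W : WeierstrassCurve ℤ) (σ : Qbar ≃ₐ[ℚ] Qbar) : σ (jInv W) = jInv W := by
  rw [jInv, map_div₀, map_pow, map_intCast, map_intCast]

theorem jInv_ne {W : WeierstrassCurve ℤ} (hΔ : W.Δ ≠ 0)
    (hmult : ∃ ℓ₀ : ℕ, ℓ₀.Prime ∧ (ℓ₀ : ℤ) ∣ W.Δ ∧ ¬ (ℓ₀ : ℤ) ∣ W.c₄) :
    jInv W ≠ 0 ∧ jInv W ≠ 1728 := by
  obtain ⟨ℓ, hℓ, hd, hn⟩ := hmult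
  have hΔ' : (W.Δ : Qbar) ≠ 0 := Int.cast_ne_zero.mpr hΔ
  constructor
  · rw [jInv, div_ne_zero_iff]
    exact ⟨pow_ne_zero 3 (Int.cast_ne_zero.mpr fun h => hn (by rw [h]; exact dvd_zero _)), hΔ'⟩
  · intro h
    rw [jInv, div_eq_iff hΔ'] at h
    have hz : W.c₄ ^ 3 = 1728 * W.Δ := by exact_mod_cast h
    exact hn ((Nat.prime_iff_prime_int.mp hℓ).dvd_of_dvd_pow (hz ▸ dvd_mul_of_dvd_right hd _))

/-- The value of the pair product at the point. -/
def pairValue (W : WeierstrassCurve ℤ) (Q : ((W.map (Int.castRingHom ℚ))⁄Qbar).Point)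
    (μ : ZMod p) : Qbar :=
  ∏ q ∈ pairSet p, (uCoord W ((μ * q.1).val • Q) - uCoord W ((μ * q.2).val • Q))

theorem exists_place (φ : Qbar →+* ℂ) {ζ : Qbar} (hζ : φ ζ = zetaC p)
    (hprim : IsPrimitiveRoot ζ p) (W : WeierstrassCurve ℤ) (hΔ : W.Δ ≠ 0)
    (h0 : jInv W ≠ 0) (h1 : jInv W ≠ 1728)
    (Q : ((W.map (Int.castRingHom ℚ))⁄Qbar).Point) (hQfix : ∀ σ : Qbar ≃ₐ[ℚ] Qbar, σ • Q = Q)
    (hQ : addOrderOf Q = p) :
    ∃ (x : Place Qbar ↥(ModularCurve.modularFunctionFieldBar p)) (μ : ZMod p), μ ≠ 0 ∧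
      (∀ σ : Qbar ≃ₐ[ℚ] Qbar, galAut p σ • x = x) ∧
      0 < x.ord ((jEl Qbar p : ↥(ModularCurve.modularFunctionFieldBar p)) -
        algebraMap Qbar _ (jInv W)) ∧
      VanishesTo x 1 (prodEl φ hζ scaleStable_pairSet 0 1 (-1) -
        algebraMap Qbar _ (pairValue W Q μ)) := by
  obtain ⟨τ, hτ, μ, hμ, hU⟩ := exists_tau (p := p) φ W hΔ Q hQ
  have hjτ0 : jFun τ ≠ 0 := by rw [hτ]; exact (map_ne_zero φ).mpr h0
  have hjτ1 : jFun τ ≠ 1728 := by
    rw [hτ, ← map_ofNat φ 1728]
    exact fun h => h1 (φ.injective h)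
  have hD := ModularForm.discriminant_ne_zero τ
  have h4 : ModularForm.E₄ τ ≠ 0 := fun h => hjτ0 (by rw [jFun, h]; simp)
  have h6 : ModularForm.E₆ τ ≠ 0 := fun h => hjτ1 (by
    have h2 := ModularForm.discriminant_eq_E₄_cube_sub_E₆_sq τ
    rw [h] at h2
    rw [jFun, div_eq_iff hD, h2]
    ring)
  obtain ⟨pl, hpl⟩ := exists_places_generic (N := p) φ hτ h0 h1
  set one : CosetSpace p := ((1 : SL(2, ℤ)) : CosetSpace p) with hone
  have hordj : 0 < (pl one).ord (jEl Qbar p - algebraMap Qbar ↥(FLevel Qbar p) (jInv W)) := by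
    rw [hpl.2.1]
    exact_mod_cast minimalPeriod_pos_perm _ _
  refine ⟨pl one, μ, hμ, fun σ => ?_, hordj, ?_⟩
  · -- rationality
    have hj' : 0 < (galAut p σ • pl one).ord
        (jEl Qbar p - algebraMap Qbar ↥(FLevel Qbar p) (jInv W)) := by
      have h := SemilinearAut.ord_smul (galAut p σ) (pl one)
        (jEl Qbar p - algebraMap Qbar ↥(FLevel Qbar p) (jInv W))
      rw [galAut_smul_sub, galAut_smul_jEl, sigma_jInv] at h
      rw [h]; exact hordj
    obtain ⟨s, hs⟩ := hpl.2.2.2.2 _ hj'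
    induction s using QuotientGroup.induction_on with
    | H h =>
    have H : ∀ a : ℤ, prodFun (singleSet p) a (-1) 0 (h⁻¹ • τ) =
        prodFun (singleSet p) a (-1) 0 τ := by
      intro a
      set ca : Qbar := ∏ q ∈ singleSet p, ((a : Qbar) - uCoord W ((μ * q.1).val • Q)) with hca
      have hσca : σ ca = ca := by
        rw [hca, map_prod]
        refine Finset.prod_congr rfl fun q _ => ?_
        rw [map_sub, map_intCast, map_uCoord]
        congr 2
        rw [Affine.Point.algEquiv_smul_def, map_nsmul, ← Affine.Point.algEquiv_smul_def, hQfix]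
      have hφca : φ ca = prodFun (singleSet p) a (-1) 0 τ := by
        rw [hca, map_prod, prodFun]
        refine Finset.prod_congr rfl fun q _ => ?_
        rw [map_sub, map_intCast, hU]
        ring
      have hy := ser_prodEl φ hζ (scaleStable_singleSet (p := p)) a (-1) 0
      have hv0 : VanishesTo (pl one) 1 ((prodEl φ hζ (scaleStable_singleSet (p := p)) a (-1) 0 :
          ↥(ModularCurve.modularFunctionFieldBar p)) - algebraMap Qbar _ ca) :=
        vanishesTo_of_value hpl 1 hy (by rw [inv_one, one_smul, hφca]; simp [prodMF])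
      have hv1 := vanishesTo_smul (galAut p σ) hv0
      rw [galAut_smul_sub, galAut_smul_prodEl φ hζ hprim, hσca, ← hs] at hv1
      have := value_of_vanishesTo hpl h hy hv1
      rw [hφca] at this
      simpa [prodMF] using this
    have hh := mem_Gamma0_of_symmetric h4 h6 H
    rw [← hs]
    congr 1
    rw [hone, QuotientGroup.eq, mul_one]
    exact inv_mem hh
  · refine vanishesTo_of_value hpl 1 (ser_prodEl φ hζ scaleStable_pairSet 0 1 (-1)) ?_
    rw [inv_one, one_smul, pairValue, map_prod]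
    show prodFun (pairSet p) ((0 : ℤ) : ℂ) ((1 : ℤ) : ℂ) ((-1 : ℤ) : ℂ) τ = _
    refine Finset.prod_congr rfl fun q _ => ?_
    rw [map_sub, hU, hU]
    push_cast
    ring

end Fermat.Agent.Mazur.Moduli

end
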