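import Fermat.Agent.MultRed.Galois
import Fermat.Agent.Mazur.Moduli.Place

/-!
# The value of the pair product at a multiplicative prime
-/

set_option autoImplicit false

noncomputable section

open WeierstrassCurve
open scoped WeierstrassCurve.Affine

namespace Fermat.Agent.Mazur.Moduli

open MultRed

local notation "Qbar" => AlgebraicClosure ℚ

/-- The valuation of a product of elements at most one, one of them less than one. -/
theorem prod_lt_one {K : Type*} [Field K] {Γ₀ : Type*} [LinearOrderedCommGroupWithZero Γ₀]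
    (v : Valuation K Γ₀) {ι : Type*} (s : Finset ι) (hs : s.Nonempty) (f : ι → K)
    (hf : ∀ i ∈ s, v (f i) < 1) : v (∏ i ∈ s, f i) < 1 := by
  classical
  induction s using Finset.induction_on with
  | empty => exact absurd hs Finset.not_nonempty_empty
  | insert a s ha ih =>
    rw [Finset.prod_insert ha]
    rcases s.eq_empty_or_nonempty with rfl | hne
    · simpa using hf a (Finset.mem_insert_self _ _)
    · exact vmul_lt_left (hf a (Finset.mem_insert_self _ _))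
        (ih hne fun i hi => hf i (Finset.mem_insert_of_mem hi)).le

section Curve

variable {L : Type*} [Field L] {Γ₀ : Type*} [LinearOrderedCommGroupWithZero Γ₀]
  {v : Valuation L Γ₀} {E : WeierstrassCurve L}

/-- An integral point with singular reduction has the `x`-coordinate of the node. -/
theorem x_of_singular (hW : IntCoeffs v E) {x y : L} (h : E.toAffine.Nonsingular x y)
    (hx : v x ≤ 1) (hns : ¬ InE0 v E (.some x y h)) :
    v (E.c₄ * x - (18 * E.b₆ - E.b₂ * E.b₄)) < 1 := by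
  have hy := vy_le hW h.1 hx
  have hns' : ¬ (v (2 * y + E.a₁ * x + E.a₃) = 1 ∨
      v (E.a₁ * y - (3 * x ^ 2 + 2 * E.a₂ * x + E.a₄)) = 1) := fun hh => hns (Or.inr hh)
  push Not at hns'
  obtain ⟨hY, hX⟩ := hns'
  have hY1 : v (2 * y + E.a₁ * x + E.a₃) < 1 := lt_of_le_of_ne
    (v.map_add_le (v.map_add_le (vmul_le_left (vofNat_le v 2) hy) (vmul_le_left hW.a₁ hx)) hW.a₃) hY
  have hX1 : v (E.a₁ * y - (3 * x ^ 2 + 2 * E.a₂ * x + E.a₄)) < 1 := lt_of_le_of_ne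
    (v.map_sub_le (vmul_le_left hW.a₁ hy) (v.map_add_le (v.map_add_le
      (vmul_le_left (vofNat_le v 3) (vpow_le 2 hx))
      (vmul_le_left (vmul_le_left (vofNat_le v 2) hW.a₂) hx)) hW.a₄)) hX
  have he := (Affine.equation_iff _ _).1 h.1
  set FY := 2 * y + E.a₁ * x + E.a₃ with hFY
  set FX := E.a₁ * y - (3 * x ^ 2 + 2 * E.a₂ * x + E.a₄) with hFX
  have hid : E.c₄ * x - (18 * E.b₆ - E.b₂ * E.b₄) =
      (12 * x + E.b₂) * (E.a₁ * FY - 2 * FX) - 18 * (FY * FY) := by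
    simp only [hFY, hFX, WeierstrassCurve.c₄, WeierstrassCurve.b₂, WeierstrassCurve.b₄,
      WeierstrassCurve.b₆]
    linear_combination 72 * he
  rw [hid]
  refine v.map_sub_lt (vmul_lt_right ?_ (v.map_sub_lt (vmul_lt_right hW.a₁ hY1)
    (vmul_lt_right (vofNat_le v 2) hX1))) (vmul_lt_right (vofNat_le v 18) (vmul_lt_left hY1 hY1.le))
  exact v.map_add_le (vmul_le_left (vofNat_le v 12) hx) (vb₂_le hW)

/-- Two integral points with congruent abscissas: the ordinates are congruent up to sign. -/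
theorem y_near (hW : IntCoeffs v E) {x₁ y₁ x₂ y₂ : L} (h₁ : E.toAffine.Nonsingular x₁ y₁)
    (h₂ : E.toAffine.Nonsingular x₂ y₂) (hx₁ : v x₁ ≤ 1) (hx₂ : v x₂ ≤ 1)
    (hx : v (x₁ - x₂) < 1) :
    v (y₁ - y₂) < 1 ∨ v (y₁ - E.toAffine.negY x₂ y₂) < 1 := by
  have hy₁ := vy_le hW h₁.1 hx₁
  have hy₂ := vy_le hW h₂.1 hx₂
  have he₁ := (Affine.equation_iff _ _).1 h₁.1
  have he₂ := (Affine.equation_iff _ _).1 h₂.1
  have hid : (y₁ - y₂) * (y₁ - E.toAffine.negY x₂ y₂) =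
      (x₁ - x₂) * (x₁ ^ 2 + x₁ * x₂ + x₂ ^ 2 + E.a₂ * (x₁ + x₂) + E.a₄ - E.a₁ * y₁) := by
    rw [Affine.negY]
    linear_combination he₁ - he₂
  by_contra hc
  push Not at hc
  have h12 : (1 : Γ₀) ≤ v ((y₁ - y₂) * (y₁ - E.toAffine.negY x₂ y₂)) := by
    rw [map_mul]; exact one_le_mul hc.1 hc.2
  refine absurd h12 (not_le.2 ?_)
  rw [hid]
  refine vmul_lt_left hx (v.map_sub_le (v.map_add_le (v.map_add_le (v.map_add_le (v.map_add_le
    (vpow_le 2 hx₁) (vmul_le_left hx₁ hx₂)) (vpow_le 2 hx₂)) ?_) hW.a₄) (vmul_le_left hW.a₁ hy₁))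
  exact vmul_le_left hW.a₂ (v.map_add_le hx₁ hx₂)

end Curve

variable {p : ℕ} [Fact p.Prime]

section Multiples

variable {G : Type*} [AddCommGroup G] {Q : G}

theorem val_nsmul_add (hQ : addOrderOf Q = p) (a b : ZMod p) :
    (a + b).val • Q = a.val • Q + b.val • Q := by
  rw [← add_nsmul, ZMod.val_add]
  conv_rhs => rw [← mod_addOrderOf_nsmul]
  rw [hQ]

theorem val_nsmul_ne_zero (hQ : addOrderOf Q = p) {a : ZMod p} (ha : a ≠ 0) : a.val • Q ≠ 0 := by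
  intro h
  rw [← addOrderOf_dvd_iff_nsmul_eq_zero, hQ] at h
  exact ha ((ZMod.val_eq_zero a).mp (Nat.eq_zero_of_dvd_of_lt h (ZMod.val_lt a)))

theorem val_nsmul_sub (hQ : addOrderOf Q = p) (a b : ZMod p) :
    a.val • Q - b.val • Q = (a - b).val • Q := by
  rw [sub_eq_iff_eq_add, ← val_nsmul_add hQ, sub_add_cancel]

omit [Fact p.Prime] in
theorem nsmul_val_nsmul (hQ : addOrderOf Q = p) (a : ZMod p) : p • a.val • Q = 0 := by
  rw [← mul_nsmul', ← addOrderOf_dvd_iff_nsmul_eq_zero, hQ]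
  exact dvd_mul_right p _

theorem nsmul_inv_val (hQ : addOrderOf Q = p) {a : ZMod p} (ha : a ≠ 0) :
    a⁻¹.val • a.val • Q = Q := by
  conv_rhs => rw [← one_nsmul Q]
  rw [← mul_nsmul', ← mod_addOrderOf_nsmul, hQ, ← ZMod.val_mul, inv_mul_cancel₀ ha,
    ZMod.val_one]

end Multiples

variable {ℓ : ℕ} (W : WeierstrassCurve ℤ) {A : ValuationSubring Qbar}
  {Q : ((W.map (Int.castRingHom ℚ))⁄Qbar).Point}

theorem vc₆ (hℓ : ℓ.Prime) (hA : A.LiesOverPrime ℓ) (hd : (ℓ : ℤ) ∣ W.Δ)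
    (hn : ¬ (ℓ : ℤ) ∣ W.c₄) : A.valuation (W.c₆ : Qbar) = 1 := by
  refine vint_eq_one hℓ hA fun h6 => hn ?_
  have hd3 : (ℓ : ℤ) ∣ W.c₄ ^ 3 := by
    rw [show W.c₄ ^ 3 = 1728 * W.Δ + W.c₆ * W.c₆ by rw [W.c_relation]; ring]
    exact dvd_add (dvd_mul_of_dvd_right hd _) (dvd_mul_of_dvd_left h6 _)
  exact (Nat.prime_iff_prime_int.mp hℓ).dvd_of_dvd_pow hd3

theorem not_inE1At_multiple (hℓ : ℓ.Prime) (hℓp : ℓ ≠ p) (hA : A.LiesOverPrime ℓ)
    (hQ : addOrderOf Q = p) {a : ZMod p} (ha : a ≠ 0) : ¬ InE1At W A (a.val • Q) := fun h =>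
  val_nsmul_ne_zero hQ ha (inE1_eq_zero_of_nsmul hℓ hA h
    (fun hd => hℓp ((Nat.prime_dvd_prime_iff_eq hℓ Fact.out).mp hd)) (nsmul_val_nsmul hQ a))

theorem inZeroComponentAt_nsmul (hℓ : ℓ.Prime) (hA : A.LiesOverPrime ℓ) (hΔ : W.Δ ≠ 0)
    (hd : (ℓ : ℤ) ∣ W.Δ) (hn : ¬ (ℓ : ℤ) ∣ W.c₄)
    {P : ((W.map (Int.castRingHom ℚ))⁄Qbar).Point} (hP : W.InZeroComponentAt A P) (m : ℕ) :
    W.InZeroComponentAt A (m • P) := by
  induction m with
  | zero => rw [zero_nsmul]; exact inZeroComponentAt_zero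
  | succ m ih => rw [succ_nsmul]; exact inZeroComponentAt_add hℓ hA hΔ hd hn ih hP

theorem inZeroComponentAt_multiple_iff (hℓ : ℓ.Prime) (hA : A.LiesOverPrime ℓ) (hΔ : W.Δ ≠ 0)
    (hd : (ℓ : ℤ) ∣ W.Δ) (hn : ¬ (ℓ : ℤ) ∣ W.c₄) (hQ : addOrderOf Q = p) {a : ZMod p}
    (ha : a ≠ 0) : W.InZeroComponentAt A (a.val • Q) ↔ W.InZeroComponentAt A Q :=
  ⟨fun h => nsmul_inv_val hQ ha ▸ inZeroComponentAt_nsmul W hℓ hA hΔ hd hn h _,
    fun h => inZeroComponentAt_nsmul W hℓ hA hΔ hd hn h _⟩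

/-- The valuation of one factor of the pair product over `j`. -/
theorem v_pairTerm (hℓ : ℓ.Prime) (hℓp : ℓ ≠ p) (hA : A.LiesOverPrime ℓ) (hΔ : W.Δ ≠ 0)
    (hd : (ℓ : ℤ) ∣ W.Δ) (hn : ¬ (ℓ : ℤ) ∣ W.c₄) (hQ : addOrderOf Q = p) {a b : ZMod p}
    (ha : a ≠ 0) (hb : b ≠ 0) (hab : a ≠ b) (hab' : a ≠ -b) :
    (¬ W.InZeroComponentAt A Q →
      A.valuation ((uCoord W (a.val • Q) - uCoord W (b.val • Q)) / jInv W) < 1) ∧
    (W.InZeroComponentAt A Q →
      A.valuation ((uCoord W (a.val • Q) - uCoord W (b.val • Q)) / jInv W) = 1) := by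
  have hA1 := not_inE1At_multiple (p := p) W hℓ hℓp hA hQ ha
  have hB1 := not_inE1At_multiple (p := p) W hℓ hℓp hA hQ hb
  have hiffa := inZeroComponentAt_multiple_iff W hℓ hA hΔ hd hn hQ ha
  have hiffb := inZeroComponentAt_multiple_iff W hℓ hA hΔ hd hn hQ hb
  have hsub : ∀ c : ZMod p, c ≠ 0 → ¬ InE1At W A (c.val • Q) := fun c hc =>
    not_inE1At_multiple (p := p) W hℓ hℓp hA hQ hc
  have hdiff := hsub (a - b) (sub_ne_zero.mpr hab)
  rw [← val_nsmul_sub hQ] at hdiff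
  have hsum := hsub (a + b) (fun h => hab' (eq_neg_of_add_eq_zero_left h))
  rw [val_nsmul_add hQ] at hsum
  have hW : IntCoeffs A.valuation (curveQbar W) := intCoeffs_curveQbar
  rw [inZeroComponentAt_iff] at hiffa hiffb
  generalize hPa : a.val • Q = Pa at *
  generalize hPb : b.val • Q = Pb at *
  rcases Pa with _ | ⟨x₁, y₁, h₁⟩
  · exact absurd hPa (val_nsmul_ne_zero hQ ha)
  rcases Pb with _ | ⟨x₂, y₂, h₂⟩
  · exact absurd hPb (val_nsmul_ne_zero hQ hb)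
  have hx₁ : A.valuation x₁ ≤ 1 := not_lt.mp hA1
  have hx₂ : A.valuation x₂ ≤ 1 := not_lt.mp hB1
  have hc4 : A.valuation (W.c₄ : Qbar) = 1 := vint_eq_one hℓ hA hn
  have hc6 := vc₆ W hℓ hA hd hn
  have hΔ' : (W.Δ : Qbar) ≠ 0 := Int.cast_ne_zero.mpr hΔ
  have hc4' : (W.c₄ : Qbar) ≠ 0 := fun h => by rw [h, map_zero] at hc4; exact zero_ne_one hc4
  have hval : (uCoord W (Affine.Point.some x₁ y₁ h₁) - uCoord W (Affine.Point.some x₂ y₂ h₂)) /
      jInv W = (x₁ - x₂) * (W.c₆ : Qbar) / (W.c₄ : Qbar) ^ 2 := by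
    simp only [uCoord, jInv]
    field_simp
    ring
  rw [hval, map_div₀, map_mul, map_pow, hc4, hc6, one_pow, div_one, mul_one]
  constructor
  · intro hE
    have s₁ := x_of_singular hW h₁ hx₁ (fun h => hE (hiffa.mp h))
    have s₂ := x_of_singular hW h₂ hx₂ (fun h => hE (hiffb.mp h))
    have h := A.valuation.map_sub_lt s₁ s₂
    rw [show ∀ c : Qbar, (curveQbar W).c₄ * x₁ - c - ((curveQbar W).c₄ * x₂ - c) =
      (curveQbar W).c₄ * (x₁ - x₂) from fun c => by ring, curveQbar_c₄, map_mul, hc4, one_mul] at h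
    exact h
  · intro hE
    refine le_antisymm (A.valuation.map_sub_le hx₁ hx₂) (not_lt.mp fun hlt => ?_)
    rcases y_near hW h₁ h₂ hx₁ hx₂ hlt with hy | hy
    · exact hdiff (inE1_sub_of_near hW hx₁ (hiffa.mpr hE) hlt hy)
    · refine hsum ?_
      have := inE1_sub_of_near hW (h₂ := (Affine.nonsingular_neg x₂ y₂).2 h₂) hx₁ (hiffa.mpr hE)
        hlt hy
      rwa [← Affine.Point.neg_some h₂, sub_neg_eq_add] at this

/-- The value of the pair product divided by `j ^ M` reduces to zero exactly off the identity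
component. -/
theorem v_pairValue (hℓ : ℓ.Prime) (hℓp : ℓ ≠ p) (hA : A.LiesOverPrime ℓ) (hΔ : W.Δ ≠ 0)
    (hd : (ℓ : ℤ) ∣ W.Δ) (hn : ¬ (ℓ : ℤ) ∣ W.c₄) (hQ : addOrderOf Q = p) (hp : 5 ≤ p)
    {μ : ZMod p} (hμ : μ ≠ 0) :
    (¬ W.InZeroComponentAt A Q →
      A.valuation (pairValue W Q μ * (jInv W)⁻¹ ^ (pairSet p).card) < 1) ∧
    (W.InZeroComponentAt A Q →
      A.valuation (pairValue W Q μ * (jInv W)⁻¹ ^ (pairSet p).card) = 1) := by
  have hkey : ∀ q ∈ pairSet p, _ := fun q hq => by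
    simp only [pairSet, Finset.mem_filter, Finset.mem_univ, true_and] at hq
    exact v_pairTerm W hℓ hℓp hA hΔ hd hn hQ (a := μ * q.1) (b := μ * q.2) (mul_ne_zero hμ hq.1)
      (mul_ne_zero hμ hq.2.1) (fun h => hq.2.2.1 (mul_left_cancel₀ hμ h))
      (fun h => hq.2.2.2 (mul_left_cancel₀ hμ (by rw [h, mul_neg])))
  have heq : pairValue W Q μ * (jInv W)⁻¹ ^ (pairSet p).card = ∏ q ∈ pairSet p,
      (uCoord W ((μ * q.1).val • Q) - uCoord W ((μ * q.2).val • Q)) / jInv W := by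
    simp only [div_eq_mul_inv, Finset.prod_mul_distrib, Finset.prod_const, pairValue]
  rw [heq]
  refine ⟨fun hE => prod_lt_one _ _ (pairSet_nonempty hp) _ fun q hq => (hkey q hq).1 hE,
    fun hE => ?_⟩
  rw [map_prod]
  exact Finset.prod_eq_one fun q hq => (hkey q hq).2 hE

end Fermat.Agent.Mazur.Moduli

end
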