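import Mathlib.RingTheory.RootsOfUnity.Lemmas
import Fermat.Agent.MultRed.Galois
import Fermat.Agent.Mazur.Moduli.QSeries

/-!
# Integrality of the series of the pair product away from `p`
-/

set_option autoImplicit false

noncomputable section

namespace Fermat.Agent.Mazur.Moduli

open MultRed

local notation "Qbar" => AlgebraicClosure ℚ

variable {p : ℕ} [Fact p.Prime] {ℓ : ℕ} {A : ValuationSubring Qbar}

theorem v_root {ζ : Qbar} (hζ : IsPrimitiveRoot ζ p) (k : ℕ) : A.valuation (ζ ^ k) = 1 := by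
  have h : A.valuation ζ ^ p = 1 := by rw [← map_pow, hζ.pow_eq_one, map_one]
  rw [map_pow, (pow_eq_one_iff_of_nonneg zero_le (Fact.out : p.Prime).ne_zero).mp h, one_pow]

theorem v_one_sub (hℓ : ℓ.Prime) (hℓp : ℓ ≠ p) (hA : A.LiesOverPrime ℓ) {z : Qbar}
    (hz : IsPrimitiveRoot z p) : A.valuation (1 - z) = 1 := by
  classical
  obtain ⟨n, hn⟩ := Nat.exists_eq_succ_of_ne_zero (Fact.out : p.Prime).ne_zero
  have hn1 : 1 ≤ n := by have := (Fact.out : p.Prime).two_le; omega
  have hz' : IsPrimitiveRoot z (n + 1) := by rwa [← Nat.succ_eq_add_one, ← hn]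
  have hprod := congrArg A.valuation hz'.prod_one_sub_pow_eq_order
  rw [map_prod, show ((n : Qbar) + 1) = ((p : ℕ) : Qbar) by rw [hn]; push_cast; ring,
    vnat_eq_one hℓ hA (fun h => hℓp ((Nat.prime_dvd_prime_iff_eq hℓ Fact.out).mp h))] at hprod
  have hle : ∀ k, A.valuation (1 - z ^ (k + 1)) ≤ 1 := fun k =>
    A.valuation.map_sub_le (by rw [map_one]) (by rw [v_root hz])
  refine le_antisymm (by simpa using hle 0) ?_
  rw [← Finset.prod_erase_mul (Finset.range n) _ (a := 0) (Finset.mem_range.mpr hn1)] at hprod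
  simp only [zero_add, pow_one] at hprod
  exact hprod.symm.le.trans (mul_le_of_le_one_left' (Finset.prod_le_one' fun k _ => hle k))

theorem v_geomDeriv_le (hℓ : ℓ.Prime) (hℓp : ℓ ≠ p) (hA : A.LiesOverPrime ℓ) {z : Qbar}
    (hz : IsPrimitiveRoot z p) : A.valuation (geomDeriv z) ≤ 1 := by
  rw [geomDeriv, map_div₀, map_pow, v_one_sub hℓ hℓp hA hz, one_pow, div_one,
    ← pow_one z, v_root hz]

theorem v_tailCoeff_le (hℓ : ℓ.Prime) (hℓp : ℓ ≠ p) (hA : A.LiesOverPrime ℓ) {z : Qbar}
    (hz : IsPrimitiveRoot z p) (n : ℕ) : A.valuation (tailCoeff z n) ≤ 1 := by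
  unfold tailCoeff
  split_ifs
  · exact v_geomDeriv_le hℓ hℓp hA hz
  · refine A.valuation.map_sum_le fun d _ => ?_
    refine vmul_le_left (vnatCast_le _ d) (A.valuation.map_sub_le (A.valuation.map_add_le
      (v_root hz d).le ?_) (vofNat_le _ 2))
    rw [map_inv₀, v_root hz d, inv_one]

theorem geomDeriv_sub {K : Type*} [Field K] {z w : K} (hz : z ≠ 1) (hw : w ≠ 1) :
    geomDeriv z - geomDeriv w = (z - w) * (1 - z * w) / ((1 - z) ^ 2 * (1 - w) ^ 2) := by
  have h1 : (1 : K) - z ≠ 0 := sub_ne_zero.mpr (Ne.symm hz)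
  have h2 : (1 : K) - w ≠ 0 := sub_ne_zero.mpr (Ne.symm hw)
  rw [geomDeriv, geomDeriv]
  field_simp
  ring

theorem primitive_pow_val {ζ : Qbar} (hζ : IsPrimitiveRoot ζ p) {k : ZMod p} (hk : k ≠ 0) :
    IsPrimitiveRoot (ζ ^ k.val) p := by
  refine hζ.pow_of_coprime _ (((Fact.out : p.Prime).coprime_iff_not_dvd.mpr fun h => hk ?_).symm)
  exact (ZMod.val_eq_zero k).mp (Nat.eq_zero_of_dvd_of_lt h (ZMod.val_lt k))

theorem pow_val_add {ζ : Qbar} (hζ : IsPrimitiveRoot ζ p) (a b : ZMod p) :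
    ζ ^ (a + b).val = ζ ^ a.val * ζ ^ b.val := by
  rw [← pow_add, ZMod.val_add]
  exact (pow_eq_pow_mod _ hζ.pow_eq_one).symm

/-- One factor of the pair product. -/
theorem exists_factor (hℓ : ℓ.Prime) (hℓp : ℓ ≠ p) (hA : A.LiesOverPrime ℓ) {ζ : Qbar}
    (hζ : IsPrimitiveRoot ζ p) {k l : ZMod p} (hk : k ≠ 0) (hl : l ≠ 0) (hkl : k ≠ l)
    (hkl' : k ≠ -l) :
    ∃ P : PowerSeries A, IsLocalRing.residue A (PowerSeries.constantCoeff P) ≠ 0 ∧
      uSeries ζ k - uSeries ζ l =
        HahnSeries.single (-1 : ℤ) (1 : Qbar) *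
          HahnSeries.ofPowerSeries ℤ Qbar (P.map A.subtype) := by
  set z := ζ ^ k.val with hz
  set w := ζ ^ l.val with hw
  have hzp : IsPrimitiveRoot z p := primitive_pow_val hζ hk
  have hwp : IsPrimitiveRoot w p := primitive_pow_val hζ hl
  set D : PowerSeries A := PowerSeries.mk fun n =>
    ⟨tailCoeff w n - tailCoeff z n, (A.valuation_le_one_iff _).mp
      (A.valuation.map_sub_le (v_tailCoeff_le hℓ hℓp hA hwp n) (v_tailCoeff_le hℓ hℓp hA hzp n))⟩
    with hD
  set U : PowerSeries A := unitPS.map (Int.castRingHom A) with hU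
  have hDmap : D.map A.subtype = tailPS w - tailPS z := by
    ext n
    simp [hD, tailPS]
  have hUmap : U.map A.subtype = unitPS.map (Int.castRingHom Qbar) := by
    rw [hU, ← RingHom.comp_apply (PowerSeries.map A.subtype), ← PowerSeries.map_comp,
      RingHom.ext_int (A.subtype.comp (Int.castRingHom A)) (Int.castRingHom Qbar)]
  refine ⟨D * U, ?_, ?_⟩
  · rw [map_mul, map_mul, hU, ← PowerSeries.coeff_zero_eq_constantCoeff_apply (unitPS.map _),
      PowerSeries.coeff_map, PowerSeries.coeff_zero_eq_constantCoeff_apply, constantCoeff_unitPS,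
      map_one, map_one, mul_one, residue_ne_zero_iff, ← PowerSeries.coeff_zero_eq_constantCoeff_apply,
      hD, PowerSeries.coeff_mk]
    show A.valuation (tailCoeff w 0 - tailCoeff z 0) = 1
    have h1 : A.valuation (1 - w * z) = 1 := by
      rw [hw, hz, ← pow_val_add hζ]
      exact v_one_sub hℓ hℓp hA (primitive_pow_val hζ fun h => hkl' (by linear_combination h))
    have h2 : A.valuation (w - z) = 1 := by
      rw [show w - z = w * (1 - ζ ^ (k - l).val) by
        rw [mul_sub, mul_one, hw, ← pow_val_add hζ, add_sub_cancel, hz],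
        map_mul, hw, v_root hζ, one_mul]
      exact v_one_sub hℓ hℓp hA (primitive_pow_val hζ (sub_ne_zero.mpr hkl))
    rw [tailCoeff, tailCoeff, if_pos rfl, if_pos rfl,
      geomDeriv_sub (hwp.ne_one (Fact.out : p.Prime).one_lt) (hzp.ne_one (Fact.out : p.Prime).one_lt),
      map_div₀, map_mul, map_mul, h1, h2, map_pow, map_pow, v_one_sub hℓ hℓp hA hwp,
      v_one_sub hℓ hℓp hA hzp]
    simp
  · rw [map_mul, hDmap, hUmap, uSeries, uSeries, if_neg hk, if_neg hl, wpPS, wpPS, ← hz, ← hw]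
    simp only [map_mul, map_add, map_sub]
    ring

/-- The series of the pair product is `q ^ (-M)` times an integral unit series. -/
theorem exists_pairs_integral (hℓ : ℓ.Prime) (hℓp : ℓ ≠ p) (hA : A.LiesOverPrime ℓ) {ζ : Qbar}
    (hζ : IsPrimitiveRoot ζ p) :
    ∃ P : PowerSeries A, IsLocalRing.residue A (PowerSeries.constantCoeff P) ≠ 0 ∧
      prodSeries ζ (pairSet p) 0 1 (-1) =
        HahnSeries.single (-((pairSet p).card : ℤ)) (1 : Qbar) *
          HahnSeries.ofPowerSeries ℤ Qbar (P.map A.subtype) := by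
  have h : ∀ q ∈ pairSet p, ∃ P : PowerSeries A,
      IsLocalRing.residue A (PowerSeries.constantCoeff P) ≠ 0 ∧
      uSeries ζ q.1 - uSeries ζ q.2 = HahnSeries.single (-1 : ℤ) (1 : Qbar) *
          HahnSeries.ofPowerSeries ℤ Qbar (P.map A.subtype) := fun q hq => by
    simp only [pairSet, Finset.mem_filter, Finset.mem_univ, true_and] at hq
    exact exists_factor hℓ hℓp hA hζ hq.1 hq.2.1 hq.2.2.1 hq.2.2.2
  choose! P hP0 hP using h
  refine ⟨∏ q ∈ pairSet p, P q, ?_, ?_⟩
  · rw [map_prod, map_prod, Finset.prod_ne_zero_iff]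
    exact hP0
  · have hsingle : HahnSeries.single (-((pairSet p).card : ℤ)) (1 : Qbar) =
        (HahnSeries.single (-1 : ℤ) (1 : Qbar) : LaurentSeries Qbar) ^ (pairSet p).card := by
      rw [HahnSeries.single_pow, one_pow]
      congr 1
      simp
    rw [hsingle, map_prod, map_prod, ← Finset.prod_const, ← Finset.prod_mul_distrib, prodSeries]
    refine Finset.prod_congr rfl fun q hq => ?_
    rw [← hP q hq]
    push_cast
    ring

end Fermat.Agent.Mazur.Moduli

end
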