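import Fermat.Agent.FunctionFieldRR.PlaceExists
import Fermat.Agent.Mazur.Moduli.Cusps

/-!
# Poles of the symmetric products, zeros of `1/j`
-/

set_option autoImplicit false

noncomputable section

open AlgebraicCurve
open scoped MatrixGroups

namespace Fermat.Agent.Mazur.Moduli

open X0Analytic
open Gamma0Count (CosetSpace)

local notation "Qbar" => AlgebraicClosure ℚ

variable {p : ℕ} [Fact p.Prime]

theorem mem_of_fibre {φ : Qbar →+* ℂ} {τ : UpperHalfPlane} {x : ↥(FLevel Qbar p)} {m : ℕ}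
    {σ : Equiv.Perm (CosetSpace p)} {pl : CosetSpace p → Place Qbar ↥(FLevel Qbar p)}
    (hpl : FibreData (embPoint φ τ) x m σ pl) {P : Place Qbar ↥(FLevel Qbar p)}
    (hP : 0 < P.ord x) {y : ↥(FLevel Qbar p)} {f : ↥(modFun p)}
    (hy : ser p f = ModularCurve.coeffMap φ y) : y ∈ P.toValuationSubring := by
  obtain ⟨s, rfl⟩ := hpl.2.2.2.2 P hP
  exact (hpl.1 s y).mp fun i hi => coeff_eq_zero_of_neg_embPoint φ hy τ s hi

/-- An element given by a modular function is regular where `j` is finite. -/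
theorem mem_of_finite_j (φ : Qbar →+* ℂ) {y : ↥(FLevel Qbar p)} {f : ↥(modFun p)}
    (hy : ser p f = ModularCurve.coeffMap φ y) (P : Place Qbar ↥(FLevel Qbar p))
    (hj : 0 ≤ P.ord (jEl Qbar p)) : y ∈ P.toValuationSubring := by
  have := X0Analytic.isFunctionField (L := Qbar) (N := p) φ
  obtain ⟨c, hc⟩ := FunctionFieldRR.exists_residue P ((FunctionFieldRR.ord_nonneg_iff P _).mp hj)
  have hpos : 0 < P.ord (jEl Qbar p - algebraMap Qbar _ c) := by
    rcases hc with h | h
    · exfalso
      have ht := transcendental_jEl (N := p) φ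
      rw [sub_eq_zero.mp h] at ht
      exact ht (isAlgebraic_algebraMap c)
    · omega
  rcases eq_or_ne c 0 with rfl | h0
  · obtain ⟨pl, hpl⟩ := exists_places_zero (L := Qbar) (N := p) φ
    exact mem_of_fibre hpl hpos hy
  rcases eq_or_ne c 1728 with rfl | h1
  · obtain ⟨pl, hpl⟩ := exists_places_1728 (L := Qbar) (N := p) φ
    exact mem_of_fibre hpl hpos hy
  obtain ⟨τ, hτ⟩ := exists_jFun_eq (φ c)
  obtain ⟨pl, hpl⟩ := exists_places_generic (L := Qbar) (N := p) φ hτ h0 h1
  exact mem_of_fibre hpl hpos hy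

variable {cInf cZero : Place Qbar ↥(ModularCurve.modularFunctionFieldBar p)}

theorem eq_or_eq_of_pole (φ : Qbar →+* ℂ) (hI : IsCuspInf cInf) (hZ : IsCuspZero cZero)
    {P : Place Qbar ↥(ModularCurve.modularFunctionFieldBar p)}
    (hP : P.ord (jEl Qbar p : ↥(ModularCurve.modularFunctionFieldBar p)) < 0) :
    P = cInf ∨ P = cZero := by
  by_cases h : IsCuspInf P
  · exact Or.inl (eq_of_isCuspInf h hI)
  · obtain ⟨pl, hpl⟩ := exists_places_infty (L := Qbar) (N := p) φ
    have hP0 : IsCuspZero P := ⟨fun f hf => by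
      rwa [show f = jEl Qbar p from Subtype.ext (hf.trans jEl_eq_coeffEmb.symm)], h⟩
    exact Or.inr ((eq_pl_S_of_isCuspZero φ hpl hP0).trans (eq_pl_S_of_isCuspZero φ hpl hZ).symm)

theorem two_le_ord_cuspZero (φ : Qbar →+* ℂ) (hZ : IsCuspZero cZero) :
    2 ≤ cZero.ord (jEl Qbar p : ↥(ModularCurve.modularFunctionFieldBar p))⁻¹ := by
  obtain ⟨pl, hpl⟩ := exists_places_infty (L := Qbar) (N := p) φ
  rw [eq_pl_S_of_isCuspZero φ hpl hZ]
  have h := hpl.2.1 (ModularGroup.S : CosetSpace p)
  have hpos := minimalPeriod_pos_perm (cosetPerm (N := p) ModularGroup.T)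
    (ModularGroup.S : CosetSpace p)
  have hne : Function.minimalPeriod (cosetPerm (N := p) ModularGroup.T)
      (ModularGroup.S : CosetSpace p) ≠ 1 := by
    intro h1
    rw [Function.minimalPeriod_eq_one_iff_isFixedPt] at h1
    have h2 : ModularGroup.T • (ModularGroup.S : CosetSpace p) = (ModularGroup.S : CosetSpace p) :=
      h1
    rw [MulAction.Quotient.smul_coe, smul_eq_mul, QuotientGroup.eq,
      CongruenceSubgroup.Gamma0_mem] at h2
    simp [ModularGroup.T, ModularGroup.S, Matrix.mul_apply, Fin.sum_univ_two,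
      Matrix.adjugate_fin_two] at h2
  exact le_of_le_of_eq (by omega) h.symm

end Fermat.Agent.Mazur.Moduli

end
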