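import Fermat.Prelude.Def_ModularCurve_ReductionModL
import Fermat.Agent.Reduction.Bridge
import Fermat.Agent.Reduction.Cusp
import Fermat.Agent.Reduction.Facts
import Fermat.Agent.Reduction.Rank
import Fermat.Agent.Mazur.Moduli.Integral
import Fermat.Agent.Mazur.Moduli.Regular

/-!
# The reduction of the place at a prime where `1/j` vanishes
-/

set_option autoImplicit false

noncomputable section

open AlgebraicCurve IsLocalRing

namespace Fermat.Agent.Mazur.Moduli

open Fermat.Agent.FunctionFieldRR
open Fermat.Agent.Reduction (GoodModel polesOf dvs)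
open Fermat.Agent.X0Analytic (jEl)

local notation "Qbar" => AlgebraicClosure ℚ

section Generic

variable {L : Type*} [Field L] {A : ValuationSubring L}
  {F : IntermediateField L (LaurentSeries L)}
  {Fk : IntermediateField (ResidueField A) (LaurentSeries (ResidueField A))}
  {M : GoodModel A F Fk} [IsAlgClosed L] [IsFunctionField L F] [IsAlgClosed (ResidueField A)]
  [IsFunctionField (ResidueField A) Fk] [HasPrincipalDivisors L F]
  [HasPrincipalDivisors (ResidueField A) Fk]

-- shortcuts for the instance search
local instance (priority := high) algebraLevelFast : Algebra L F := inferInstance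
local instance (priority := high) algebraRedFast : Algebra (ResidueField A) Fk := inferInstance

omit [IsAlgClosed L] [IsFunctionField L F] [IsAlgClosed (ResidueField A)]
  [IsFunctionField (ResidueField A) Fk] in
theorem dvs_eq_sub {K E : Type*} [Field K] [Field E] [Algebra K E] [HasPrincipalDivisors K E]
    (w : E) : dvs (K := K) w = polesOf w⁻¹ - polesOf w := Finsupp.ext fun v => by
  simp only [Finsupp.sub_apply, Reduction.polesOf_apply, Reduction.dvs_apply, Place.ord_inv]
  omega

omit [IsAlgClosed L] [IsFunctionField L F] [IsAlgClosed (ResidueField A)]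
  [IsFunctionField (ResidueField A) Fk] in
theorem degree_polesOf_eq {K E : Type*} [Field K] [Field E] [Algebra K E]
    [HasPrincipalDivisors K E] [IsAlgClosed K] [IsFunctionField K E] {w : E}
    (hw : Transcendental K w) :
    Divisor.degree (polesOf (K := K) w) =
      Module.finrank (IntermediateField.adjoin K ({w} : Set E)) E := by
  have := finiteDimensional_adjoin hw
  rw [show polesOf (K := K) w = polarDivisor w from
    Finsupp.ext fun v => by rw [Reduction.polesOf_apply, polarDivisor_apply]]
  exact degree_polarDivisor hw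

variable (R : M.ReductionMap)

/-- The poles reduce onto the poles when there are as many of them. -/
theorem map_polesOf {w : F} (hi : M.IsInt w) (h0 : M.red w ≠ 0)
    (hdeg : Divisor.degree (polesOf (K := L) w) ≤
      Divisor.degree (polesOf (K := ResidueField A) (M.red w))) :
    Finsupp.mapDomain R.toFun (polesOf w) = polesOf (M.red w) := by
  have hspec := R.spec w hi h0
  rw [dvs_eq_sub, Finsupp.mapDomain_sub] at hspec
  have h1 : ∀ z : F, 0 ≤ Finsupp.mapDomain R.toFun (polesOf (K := L) z) := fun z => by
    have := Reduction.mapDomain_mono R.toFun (Reduction.polesOf_nonneg (K := L) z)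
    rwa [Finsupp.mapDomain_zero] at this
  have hle : polesOf (K := ResidueField A) (M.red w) ≤ Finsupp.mapDomain R.toFun (polesOf w) := by
    refine Finsupp.le_def.mpr fun v => ?_
    have a := congrArg (fun D => D v) hspec
    have b := Finsupp.le_def.mp (h1 w) v
    have c := Finsupp.le_def.mp (h1 w⁻¹) v
    simp only [Finsupp.sub_apply, Reduction.dvs_apply, Finsupp.zero_apply] at a b c
    rw [Reduction.polesOf_apply]
    exact max_le (by linarith) b
  refine sub_eq_zero.mp (Reduction.eq_zero_of_degree_eq_zero (sub_nonneg.mpr hle) ?_)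
  have h2 := Reduction.degree_mono hle
  rw [Reduction.GoodModel.ReductionMap.degree_map] at h2
  rw [map_sub, Reduction.GoodModel.ReductionMap.degree_map]
  omega

/-- The zeros reduce onto the zeros when there are as many poles. -/
theorem map_zerosOf {w : F} (hi : M.IsInt w) (h0 : M.red w ≠ 0)
    (hdeg : Divisor.degree (polesOf (K := L) w) ≤
      Divisor.degree (polesOf (K := ResidueField A) (M.red w))) :
    Finsupp.mapDomain R.toFun (polesOf w⁻¹) = polesOf (M.red w)⁻¹ := by
  have hspec := R.spec w hi h0
  rw [dvs_eq_sub, dvs_eq_sub, Finsupp.mapDomain_sub, map_polesOf R hi h0 hdeg] at hspec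
  exact sub_left_inj.mp hspec

omit [IsAlgClosed L] [IsFunctionField L F] [IsAlgClosed (ResidueField A)]
  [IsFunctionField (ResidueField A) Fk] in
/-- A zero reduces to a zero when no pole reduces to the same place. -/
theorem ord_red_pos {w : F} (hi : M.IsInt w) (h0 : M.red w ≠ 0) {P : Place L F}
    (hP : 0 < P.ord w) (hpoles : ∀ Q : Place L F, Q.ord w < 0 → R.toFun Q ≠ R.toFun P) :
    0 < (R.toFun P).ord (M.red w) := by
  classical
  have hspec := congrArg (fun D => D (R.toFun P)) (R.spec w hi h0)
  rw [dvs_eq_sub w, Finsupp.mapDomain_sub, Finsupp.sub_apply, Reduction.dvs_apply] at hspec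
  have hz : Finsupp.mapDomain R.toFun (polesOf (K := L) w) (R.toFun P) = 0 := by
    by_contra hne
    obtain ⟨Q, hQ, hQP⟩ :=
      Finset.mem_image.mp (Finsupp.mapDomain_support (Finsupp.mem_support_iff.mpr hne))
    rw [Finsupp.mem_support_iff, Reduction.polesOf_apply] at hQ
    exact hpoles Q (by by_contra hc; exact hQ (max_eq_right (by omega))) hQP
  have h1 := Reduction.le_mapDomain_apply R.toFun (Reduction.polesOf_nonneg (K := L) w⁻¹) P
  rw [Reduction.polesOf_apply, Place.ord_inv, neg_neg, max_eq_left hP.le] at h1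
  omega

end Generic

variable {p : ℕ} [Fact p.Prime] {ℓ : ℕ} {A : ValuationSubring Qbar}

-- shortcuts for the instance search
local instance (priority := high) algebraBarFast :
    Algebra Qbar ↥(ModularCurve.modularFunctionFieldBar p) := inferInstance
local instance (priority := high) algebraFullFast :
    Algebra (ResidueField A) ↥(ModularCurve.modularFunctionFieldFullC (ResidueField A) p) :=
  inferInstance
local instance (priority := high) algebraResidueSeriesFast :
    Algebra (ResidueField A) (LaurentSeries (ResidueField A)) := inferInstance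

theorem residue_eq_zero_of_valuation {c : Qbar} (h : A.valuation c < 1) :
    residue A ⟨c, (A.valuation_le_one_iff c).mp h.le⟩ = 0 := by
  rw [residue_eq_zero_iff, A.valuation_lt_one_iff]; exact h

theorem coe_jEl_eq :
    ((jEl Qbar p : ↥(ModularCurve.modularFunctionFieldBar p)) : LaurentSeries Qbar) =
      ModularCurve.jqModC Qbar := by
  rw [jEl_eq_coeffEmb, ← ModularCurve.jqModC_rat]
  exact ModularCurve.coeffMap_jqModC _

/-- The pair product divided by `j ^ M`. -/
abbrev testFun (φ : Qbar →+* ℂ) {ζ : Qbar} (hζ : φ ζ = zetaC p) :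
    ↥(ModularCurve.modularFunctionFieldBar p) :=
  prodEl φ hζ scaleStable_pairSet 0 1 (-1) *
    (jEl Qbar p : ↥(ModularCurve.modularFunctionFieldBar p))⁻¹ ^ (pairSet p).card

/-- Where `1/j` reduces to zero, the place reduces to a cusp, selected by the test function. -/
theorem reduce_place (φ : Qbar →+* ℂ) {ζ : Qbar} (hζ : φ ζ = zetaC p)
    (hprim : IsPrimitiveRoot ζ p) (hp : 5 ≤ p) (hℓ : ℓ.Prime) (hℓp : ℓ ≠ p)
    (hA : A.LiesOverPrime ℓ) (h : ModularCurve.ReductionInputsModL A p)
    {cInf cZero : Place Qbar ↥(ModularCurve.modularFunctionFieldBar p)} (hI : IsCuspInf cInf)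
    (hZ : IsCuspZero cZero) {x : Place Qbar ↥(ModularCurve.modularFunctionFieldBar p)} {c : Qbar}
    (hc0 : c ≠ 0) (hc : A.valuation c⁻¹ < 1)
    (hx : 0 < x.ord ((jEl Qbar p : ↥(ModularCurve.modularFunctionFieldBar p)) -
      algebraMap Qbar _ c))
    {cf : Qbar} (hcf : VanishesTo x 1 (testFun φ hζ - algebraMap Qbar _ cf)) :
    (A.valuation cf < 1 →
      ModularCurve.placeReductionModL h x = ModularCurve.placeReductionModL h cZero) ∧
    (A.valuation cf = 1 →
      ModularCurve.placeReductionModL h x = ModularCurve.placeReductionModL h cInf) := by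
  classical
  have := Fact.mk hℓ
  have : NeZero p := ⟨(Fact.out : p.Prime).ne_zero⟩
  have : IsAlgClosed (ResidueField A) := Reduction.isAlgClosed_residueField
  have hpk : (p : ResidueField A) ≠ 0 := Reduction.natCast_residue_ne_zero hA fun hd =>
    hℓp ((Nat.prime_dvd_prime_iff_eq hℓ Fact.out).mp hd)
  have hfC := Reduction.finiteDimensional_jC (ResidueField A) p hpk
  let M := Reduction.modularGoodModelOf A p hA (Reduction.finiteDimensional_jBar p) hfC
    (by rw [Reduction.finrank_jBar, Reduction.finrank_jC _ p hpk])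
  have := Reduction.GoodModel.isFunctionField_bar M
  have := Reduction.GoodModel.isFunctionField_red M
  have : HasPrincipalDivisors Qbar ↥(ModularCurve.modularFunctionFieldBar p) :=
    hasPrincipalDivisors
  have : HasPrincipalDivisors (ResidueField A)
      ↥(ModularCurve.modularFunctionFieldFullC (ResidueField A) p) := hasPrincipalDivisors
  set R := Reduction.reductionMapOfSpec M (ModularCurve.placeReductionModL h)
    (ModularCurve.isPlaceReductionModL_placeReductionModL h) with hR
  show (_ → R.toFun x = R.toFun cZero) ∧ (_ → R.toFun x = R.toFun cInf)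
  have hjF : M.jF = (jEl Qbar p : ↥(ModularCurve.modularFunctionFieldBar p)) :=
    Subtype.ext ((ModularCurve.coeffMap_jqModC A.subtype).trans coe_jEl_eq.symm)
  set j : ↥(ModularCurve.modularFunctionFieldBar p) := jEl Qbar p
  have huj : M.uF = j⁻¹ := by rw [Reduction.SeriesModel.uF, hjF]
  obtain ⟨hui, hur⟩ := M.red_uF
  have hub0 : M.uK ≠ 0 := M.uK_ne_zero
  have hubr : M.red M.uF ≠ 0 := by rw [hur]; exact hub0
  -- degrees
  have htj : Transcendental Qbar M.uF :=
    transcendental_of_ord_ne_zero M.cuspF (f := M.uF) (by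
      rw [Reduction.GoodModel.ord_cuspF, M.order_uF]; omega)
  have htk : Transcendental (ResidueField A) M.uK :=
    transcendental_of_ord_ne_zero M.cuspK (f := M.uK) (by
      rw [Reduction.GoodModel.ord_cuspK, M.order_uK]; omega)
  have hdeg : Divisor.degree (polesOf (K := Qbar) M.uF) ≤
      Divisor.degree (polesOf (K := ResidueField A) (M.red M.uF)) := by
    rw [hur, degree_polesOf_eq htj, degree_polesOf_eq htk,
      M.adjoin_uF, M.adjoin_uK]
    exact_mod_cast M.degree_le
  have hmapP := map_polesOf R hui hubr hdeg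
  have hmapZ := map_zerosOf R hui hubr hdeg
  rw [hur] at hmapP hmapZ
  -- zeros of `ū` are the images of the two cusps
  have hzero : ∀ v, 0 < Place.ord v M.uK → v = R.toFun cInf ∨ v = R.toFun cZero := by
    intro v hv
    have hne : Finsupp.mapDomain R.toFun (polesOf (K := Qbar) M.uF⁻¹) v ≠ 0 := by
      rw [hmapZ, Reduction.polesOf_apply, Place.ord_inv]
      omega
    obtain ⟨P, hP, rfl⟩ :=
      Finset.mem_image.mp (Finsupp.mapDomain_support (Finsupp.mem_support_iff.mpr hne))
    rw [Finsupp.mem_support_iff, Reduction.polesOf_apply, huj, inv_inv] at hP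
    rcases eq_or_eq_of_pole φ hI hZ (P := P)
      (show P.ord j < 0 by by_contra hh; exact hP (max_eq_right (by omega))) with rfl | rfl <;> simp
  -- a pole of `M.uF` and a zero of `ū` do not meet
  have hpole : ∀ Q P : Place Qbar ↥(ModularCurve.modularFunctionFieldBar p), Q.ord M.uF < 0 →
      0 < (R.toFun P).ord M.uK → R.toFun Q ≠ R.toFun P := by
    intro Q P hQ hP he
    have h1 := Reduction.le_mapDomain_apply R.toFun (Reduction.polesOf_nonneg (K := Qbar) M.uF) Q
    rw [hmapP, he, Reduction.polesOf_apply, Reduction.polesOf_apply] at h1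
    omega
  have hzeroImage : ∀ P : Place Qbar ↥(ModularCurve.modularFunctionFieldBar p), 0 < P.ord M.uF →
      0 < (R.toFun P).ord M.uK := by
    intro P hP
    have h1 := Reduction.le_mapDomain_apply R.toFun (Reduction.polesOf_nonneg (K := Qbar) M.uF⁻¹) P
    rw [hmapZ, Reduction.polesOf_apply, Reduction.polesOf_apply, Place.ord_inv, Place.ord_inv] at h1
    omega
  have hIu : cInf.ord M.uF = 1 := by rw [hI]; exact M.order_uF
  have hZu : 2 ≤ cZero.ord M.uF := by rw [huj]; exact two_le_ord_cuspZero φ hZ
  have hI0 := hzeroImage cInf (by omega)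
  have hZ0 := hzeroImage cZero (by omega)
  -- the two cusps reduce to distinct places, the first to the cusp at infinity
  have hKu : M.cuspK.ord M.uK = 1 := by rw [Reduction.GoodModel.ord_cuspK]; exact M.order_uK
  have hne1 : cInf ≠ cZero := fun e => hZ.2 (e ▸ hI)
  have hqK : R.toFun cInf = M.cuspK ∧ R.toFun cZero ≠ M.cuspK := by
    have hsum : ∀ v, (if R.toFun cInf = v then (1 : ℤ) else 0) +
        (if R.toFun cZero = v then (2 : ℤ) else 0) ≤
        polesOf (K := ResidueField A) M.uK⁻¹ v := by
      intro v
      have hD : Finsupp.single cInf (1 : ℤ) + Finsupp.single cZero 2 ≤ polesOf (K := Qbar) M.uF⁻¹ :=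
        Finsupp.le_def.mpr fun P => by
          rw [Reduction.polesOf_apply, Place.ord_inv, neg_neg, Finsupp.add_apply,
            Finsupp.single_apply, Finsupp.single_apply]
          split_ifs with h1 h2 h3
          · exact absurd (h1.trans h2.symm) hne1
          · subst h1; omega
          · subst h3; omega
          · omega
      have := Finsupp.le_def.mp (Reduction.mapDomain_mono R.toFun hD) v
      rw [hmapZ, Finsupp.mapDomain_add, Finsupp.mapDomain_single, Finsupp.mapDomain_single,
        Finsupp.add_apply, Finsupp.single_apply, Finsupp.single_apply] at this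
      exact this
    have hK := hsum M.cuspK
    rw [Reduction.polesOf_apply, Place.ord_inv, neg_neg, hKu] at hK
    have hZne : R.toFun cZero ≠ M.cuspK := fun e => by
      rw [if_pos e] at hK
      split_ifs at hK <;> simp at hK
    refine ⟨?_, hZne⟩
    rcases hzero M.cuspK (by omega) with e | e
    · exact e.symm
    · exact absurd e.symm hZne
  -- the test function
  obtain ⟨P, hP0, hP⟩ := exists_pairs_integral hℓ hℓp hA hprim
  set f := testFun φ hζ with hf
  set n := (pairSet p).card
  set y : LaurentSeries A :=
    HahnSeries.single (-(n : ℤ)) (1 : A) * HahnSeries.ofPowerSeries ℤ A P * M.uA ^ n with hy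
  have hfy : (f : LaurentSeries Qbar) = Reduction.ιS A y := by
    rw [hf, testFun, MulMemClass.coe_mul, SubmonoidClass.coe_pow, ← huj, M.coe_uF, hy, map_mul,
      map_mul, map_pow]
    congr 1
    show prodSeries ζ (pairSet p) 0 1 (-1) = _
    rw [hP, ModularCurve.coeffMap_single, ModularCurve.coeffMap_ofPowerSeries, map_one A.subtype]
  obtain ⟨hfi, hfr⟩ := M.isInt_series hfy
  have hPne : PowerSeries.constantCoeff (P.map (residue A)) ≠ 0 := by
    rwa [← PowerSeries.coeff_zero_eq_constantCoeff_apply, PowerSeries.coeff_map,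
      PowerSeries.coeff_zero_eq_constantCoeff_apply]
  have hord0 : ((M.red f) : LaurentSeries (ResidueField A)) ≠ 0 ∧
      ((M.red f) : LaurentSeries (ResidueField A)).order = 0 := by
    set Pk : LaurentSeries (ResidueField A) :=
      HahnSeries.ofPowerSeries ℤ (ResidueField A) (P.map (residue A))
    have hcoeff : Pk.coeff 0 ≠ 0 := by
      rw [← Nat.cast_zero (R := ℤ), HahnSeries.ofPowerSeries_apply_coeff,
        PowerSeries.coeff_zero_eq_constantCoeff_apply]
      exact hPne
    have hPk0 : Pk ≠ 0 := fun e => hcoeff (by rw [e]; rfl)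
    have hPko : Pk.order = 0 := Reduction.order_eq_of_coeff hcoeff fun m hm =>
      ModularCurve.ofPowerSeries_coeff_of_neg _ hm
    have huA : Reduction.redS A M.uA = (M.uK : LaurentSeries (ResidueField A)) := M.coe_uK.symm
    have hub' : (M.uK : LaurentSeries (ResidueField A)) ≠ 0 := fun e => hub0 (Subtype.ext e)
    rw [hfr, hy, map_mul, map_mul, map_pow, ModularCurve.coeffMap_single, map_one (residue A), huA,
      ModularCurve.coeffMap_ofPowerSeries]
    have hs : (HahnSeries.single (-(n : ℤ)) (1 : ResidueField A) :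
        LaurentSeries (ResidueField A)) ≠ 0 := HahnSeries.single_ne_zero one_ne_zero
    refine ⟨mul_ne_zero (mul_ne_zero hs hPk0) (pow_ne_zero _ hub'), ?_⟩
    rw [HahnSeries.order_mul (mul_ne_zero hs hPk0) (pow_ne_zero _ hub'),
      HahnSeries.order_mul hs hPk0, HahnSeries.order_single one_ne_zero, hPko,
      HahnSeries.order_pow, M.order_uK]
    simp
  have hfb0 : (M.red f) ≠ 0 := fun e => hord0.1 (by rw [e]; rfl)
  have hf0 : f ≠ 0 := fun e => hfb0 (by rw [e, M.red_zero])
  have hG0 : prodEl φ hζ scaleStable_pairSet 0 1 (-1) ≠ 0 := left_ne_zero_of_mul hf0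
  have hKf : M.cuspK.ord (M.red f) = 0 := by rw [Reduction.GoodModel.ord_cuspK]; exact hord0.2
  have hIf : 0 ≤ cInf.ord f := by
    rw [hI, hfy]
    by_contra hneg
    rw [not_le] at hneg
    set z := Reduction.ιS A y
    have hyneg : ∀ m < 0, z.coeff m = 0 := by
      intro m hm
      show A.subtype (y.coeff m) = 0
      have hyP : y = HahnSeries.ofPowerSeries ℤ A (P * M.jUnit.invOfUnit 1 ^ n) := by
        rw [hy, Reduction.SeriesModel.uA, mul_pow, HahnSeries.single_pow, one_pow, nsmul_one,
          mul_mul_mul_comm, HahnSeries.single_mul_single, one_mul, neg_add_cancel,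
          HahnSeries.single_zero_one, one_mul, map_mul, map_pow]
      rw [hyP, ModularCurve.ofPowerSeries_coeff_of_neg _ hm, map_zero]
    exact hf0 (Subtype.ext (hfy.trans (HahnSeries.coeff_order_eq_zero.mp (hyneg _ hneg))))
  have hZf : 0 < cZero.ord f := by
    obtain ⟨pl, hpl⟩ := X0Analytic.exists_places_infty (L := Qbar) (N := p) φ
    rw [eq_pl_S_of_isCuspZero φ hpl hZ]
    exact ord_pairs_pos φ hpl hζ hG0 hp
  -- poles of the test function are poles of `M.uF`
  have hfpole : ∀ Q : Place Qbar ↥(ModularCurve.modularFunctionFieldBar p),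
      f ∉ Q.toValuationSubring → Q.ord M.uF < 0 := by
    intro Q hQ
    by_contra hc'
    rw [not_lt] at hc'
    by_cases hj : 0 ≤ Q.ord j
    · refine hQ (mul_mem ?_ (pow_mem ?_ _))
      · exact mem_of_finite_j φ (ser_prodEl φ hζ scaleStable_pairSet 0 1 (-1)) Q hj
      · rw [← huj]; exact (ord_nonneg_iff Q M.uF).mp hc'
    · rw [not_le] at hj
      rcases eq_or_eq_of_pole φ hI hZ hj with rfl | rfl
      · exact hQ ((ord_nonneg_iff _ f).mp hIf)
      · exact hQ ((ord_nonneg_iff _ f).mp hZf.le)
  have hfpole' : ∀ (d : Qbar) (Q : Place Qbar ↥(ModularCurve.modularFunctionFieldBar p)),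
      Q.ord (f - algebraMap Qbar _ d) < 0 → Q.ord M.uF < 0 := fun d Q hQ => hfpole Q fun hmem => by
    have := (ord_nonneg_iff Q _).mpr (sub_mem hmem (Q.algebraMap_mem' d))
    omega
  have hfb_zero : 0 < (R.toFun cZero).ord (M.red f) :=
    ord_red_pos R hfi hfb0 hZf fun Q hQ =>
      hpole Q cZero (hfpole Q fun hm => by have := (ord_nonneg_iff Q f).mpr hm; omega) hZ0
  -- the point reduces to a zero of `ū`
  have hx0 : 0 < (R.toFun x).ord M.uK := by
    have hjx : x.ord j = 0 := by
      have h1 := ord_add_eq_of_lt (P := x) (f := algebraMap Qbar _ c)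
        (g := j - algebraMap Qbar _ c) (by simpa using hc0) (by rw [ord_algebraMap]; exact hx)
      rwa [add_sub_cancel, ord_algebraMap] at h1
    have hj0 : j ≠ 0 := fun e => by
      have := coe_jEl_eq (p := p)
      rw [show (jEl Qbar p : ↥(ModularCurve.modularFunctionFieldBar p)) = 0 from e] at this
      exact ModularCurve.jqModC_ne_zero_of_nontrivial Qbar this.symm
    have hne : j - algebraMap Qbar _ c ≠ 0 := fun e => by rw [e] at hx; simp at hx
    have hac : algebraMap Qbar ↥(ModularCurve.modularFunctionFieldBar p) c ≠ 0 := by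
      simpa using hc0
    have heq : M.uF - algebraMap Qbar _ c⁻¹ =
        -(j - algebraMap Qbar _ c) * (j⁻¹ * (algebraMap Qbar _ c)⁻¹) := by
      rw [huj, map_inv₀]; field_simp; ring
    have hw : 0 < x.ord (M.uF - algebraMap Qbar _ c⁻¹) := by
      rw [heq, x.ord_mul (neg_ne_zero.mpr hne) (mul_ne_zero (inv_ne_zero hj0) (inv_ne_zero hac)),
        ord_neg, x.ord_mul (inv_ne_zero hj0) (inv_ne_zero hac), Place.ord_inv, Place.ord_inv, hjx,
        ord_algebraMap]
      omega
    obtain ⟨hki, hkr⟩ := M.isInt_const ((A.valuation_le_one_iff _).mp hc.le)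
    obtain ⟨hwi, hwr⟩ := M.isInt_sub hui hki
    rw [hkr, residue_eq_zero_of_valuation hc, map_zero, sub_zero] at hwr
    have hpoles : polesOf (K := Qbar) (M.uF - algebraMap Qbar _ c⁻¹) = polesOf M.uF := by
      refine Finsupp.ext fun Q => ?_
      rw [Reduction.polesOf_apply, Reduction.polesOf_apply]
      rcases lt_or_ge (Q.ord M.uF) 0 with hneg | hnn
      · rw [sub_eq_add_neg, ← map_neg, ord_add_eq_of_lt (fun e => by rw [e] at hneg; simp at hneg)
          (by rw [ord_algebraMap]; exact hneg)]
      · have := (ord_nonneg_iff Q _).mpr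
          (sub_mem ((ord_nonneg_iff Q M.uF).mp hnn) (Q.algebraMap_mem' c⁻¹))
        omega
    have hz := map_zerosOf R hwi (by rw [hwr]; exact hubr) (by rw [hpoles, hwr]; exact hdeg)
    rw [hwr, hur] at hz
    have h1 := Reduction.le_mapDomain_apply R.toFun
      (Reduction.polesOf_nonneg (K := Qbar) (M.uF - algebraMap Qbar _ c⁻¹)⁻¹) x
    rw [hz, Reduction.polesOf_apply, Reduction.polesOf_apply, Place.ord_inv, Place.ord_inv] at h1
    omega
  have hcases := hzero _ hx0
  constructor
  · intro hv
    obtain ⟨hki, hkr⟩ := M.isInt_const ((A.valuation_le_one_iff _).mp hv.le)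
    obtain ⟨hwi, hwr⟩ := M.isInt_sub hfi hki
    rw [hkr, residue_eq_zero_of_valuation hv, map_zero, sub_zero] at hwr
    have hw0 : f - algebraMap Qbar _ cf ≠ 0 := fun e => hfb0 (by
      rw [← hwr, e, M.red_zero])
    have h1 := ord_red_pos R hwi (by rw [hwr]; exact hfb0)
      (P := x) (by rcases hcf with e | e; exacts [absurd e hw0, by omega]) fun Q hQ =>
        hpole Q x (hfpole' cf Q hQ) hx0
    rw [hwr] at h1
    refine hcases.resolve_left fun e => ?_
    rw [e, hqK.1, hKf] at h1
    omega
  · intro hv
    obtain ⟨hki, hkr⟩ := M.isInt_const ((A.valuation_le_one_iff _).mp hv.le)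
    obtain ⟨hwi, hwr⟩ := M.isInt_sub hfi hki
    set r0 := residue A ⟨cf, (A.valuation_le_one_iff _).mp hv.le⟩
    have hr0 : r0 ≠ 0 := (MultRed.residue_ne_zero_iff _).mpr hv
    have hconst : ∀ Q : Place (ResidueField A)
        ↥(ModularCurve.modularFunctionFieldFullC (ResidueField A) p),
        ¬ VanishesTo Q 1 (algebraMap (ResidueField A)
          ↥(ModularCurve.modularFunctionFieldFullC (ResidueField A) p) r0) := by
      intro Q hQ
      rcases hQ with e | e
      · exact hr0 ((map_eq_zero _).mp e)
      · rw [ord_algebraMap] at e; omega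
    have hwne : M.red (f - algebraMap Qbar _ cf) ≠ 0 := fun e => by
      rw [hwr, hkr, sub_eq_zero] at e
      exact hconst (R.toFun cZero) (Or.inr (by rw [← e]; omega))
    have hw0 : f - algebraMap Qbar _ cf ≠ 0 := fun e => hwne (by rw [e, M.red_zero])
    have h1 := ord_red_pos R hwi hwne (P := x)
      (by rcases hcf with e | e; exacts [absurd e hw0, by omega]) fun Q hQ =>
        hpole Q x (hfpole' cf Q hQ) hx0
    rw [hwr, hkr] at h1
    refine hcases.resolve_right fun e => ?_
    rw [e] at h1
    have h2 : VanishesTo (R.toFun cZero) 1 (M.red f) := Or.inr (by omega)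
    have h3 := h2.sub (Or.inr (by omega) : VanishesTo (R.toFun cZero) 1
      ((M.red f) - algebraMap (ResidueField A) _ r0))
    rw [sub_sub_cancel] at h3
    exact hconst _ h3

end Fermat.Agent.Mazur.Moduli

end
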